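import Fermat.Agent.RT.Lift59.Levels.Sep

/-!
# The old classes do not fill the level at `p`

When the flipped prime is `p` and every congruent eigenform of level prime to `p` has
`a_p ^ 2 = 1` residually, the composite of the degeneracy map with its transpose is not surjective:
its determinant `(p + 1) ^ 2 - T_p ^ 2` vanishes residually at every system of the old level.
-/

set_option autoImplicit false

noncomputable section

namespace Fermat.Agent.RT.Lift59.Levels

open IsLocalRing CongruenceSubgroup ModularFormClass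
open GaloisReps (AbsGal)
open ModularCurve.Period
open Fermat.Agent.RT.GammaH Fermat.Agent.RT.Level
open Fermat.Agent.RT.Glue (KBar sA diaA)

variable {O : Type} [CommRing O] [IsDomain O] [IsDiscreteValuationRing O]
  [IsAdicComplete (maximalIdeal O) O] [Finite (ResidueField O)] [CharZero O]
  {p : ℕ} [Fact p.Prime] [Fact (p ≠ 2)] [CharP (ResidueField O) p]

/-- Congruent eigenforms of levels prime to the `i`-th prime have coefficient `±1` there
residually. -/
def Fixed.UnitRootAt (F : Fixed O p) (i : ℕ) : Prop :=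
  ∀ (M : ℕ) [NeZero M] (g : CuspForm (Gamma0 M) 2), g.IsNormalizedEigenform → ¬ F.v i ∣ M →
    ∀ (φ : integralClosure ℤ ℂ →+* AlgebraicClosure (ResidueField O)) (T : Finset ℕ),
      (∀ ℓ : ℕ, ℓ.Prime → ℓ ∉ T → ∀ b : integralClosure ℤ ℂ,
        (b : ℂ) = qCoeff g ℓ → φ b = algebraMap (ResidueField O) _ (F.abar ℓ)) →
      ∀ c : integralClosure ℤ ℂ, (c : ℂ) = qCoeff g (F.v i) → φ c ^ 2 = 1

variable {F : Fixed O p} {R n : ℕ} {X : Aux F R n} {i : ℕ} (hi : i < F.t)

namespace Aux

/-- The operators away from the flipped prime on the localised module of `Γ₀`. -/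
def actBase :
    OpRing O (X.lvl i) (X.S.erase (F.v i)) →ₐ[O] Module.End O (X.baseL hi.le) where
  toFun a := (X.actS (X.lvl i) (X.S.erase (F.v i)) a).restrict
    fun _ hφ => X.actS_mem hi (Finset.erase_subset _ _) a hφ
  map_one' := LinearMap.ext fun φ => Subtype.ext
    (LinearMap.congr_fun (map_one (X.actS (X.lvl i) (X.S.erase (F.v i)))) φ.1)
  map_mul' a b := LinearMap.ext fun φ => Subtype.ext
    (LinearMap.congr_fun (map_mul (X.actS (X.lvl i) (X.S.erase (F.v i))) a b) φ.1)
  map_zero' := LinearMap.ext fun φ => Subtype.ext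
    (LinearMap.congr_fun (map_zero (X.actS (X.lvl i) (X.S.erase (F.v i)))) φ.1)
  map_add' a b := LinearMap.ext fun φ => Subtype.ext
    (LinearMap.congr_fun (map_add (X.actS (X.lvl i) (X.S.erase (F.v i))) a b) φ.1)
  commutes' c := LinearMap.ext fun φ => Subtype.ext
    (LinearMap.congr_fun ((X.actS (X.lvl i) (X.S.erase (F.v i))).commutes c) φ.1)

omit [Finite (ResidueField O)] [CharZero O] [CharP (ResidueField O) p] in
theorem coe_actBase (a : OpRing O (X.lvl i) (X.S.erase (F.v i))) (φ : X.baseL hi.le) :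
    (actBase hi a φ : HomMod O X.S (⊤ : Subgroup (ZMod (X.lvl i))ˣ) O) =
      X.actS (X.lvl i) (X.S.erase (F.v i)) a φ.1 := rfl

omit [Finite (ResidueField O)] in
/-- The old classes filling the level makes `(v + 1) ^ 2 - T ^ 2` surjective. -/
theorem bijective_of_full (hc : IsUnit ((F.v i : O) + 1)) (hfull : ¬ X.OldNotFull hi) :
    Function.Bijective (actBase (X := X) hi (algebraMap O _ (((F.v i : O) + 1) ^ 2) -
      MvPolynomial.X (Sum.inr ⟨F.v i, F.v_prime i, Finset.notMem_erase _ _⟩) ^ 2)) := by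
  have : Fact (F.v i).Prime := ⟨F.v_prime i⟩
  have : NeZero (X.lvl i * F.v i) := inferInstanceAs (NeZero (X.lvl (i + 1)))
  have : Module.Finite O (X.baseL hi.le) := inferInstance
  obtain ⟨ϖ, hϖ⟩ := IsDiscreteValuationRing.exists_irreducible O
  have hlow := X.lowerOp_locAt hi
  set N := X.baseL hi.le
  set T : OpRing O (X.lvl i) (X.S.erase (F.v i)) :=
    MvPolynomial.X (Sum.inr ⟨F.v i, F.v_prime i, Finset.notMem_erase _ _⟩) with hT
  set A := actBase (X := X) hi T
  set c : O := (F.v i : O) + 1 with hcdef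
  let Φ : N × N →ₗ[O] N × N :=
    LinearMap.prod (c • LinearMap.fst O N N + A.comp (LinearMap.snd O N N))
      (A.comp (LinearMap.fst O N N) + c • LinearMap.snd O N N)
  have hΦ : ∀ z : N × N, X.degSB hi (X.degB hi (z.1.1, z.2.1)) = ((Φ z).1.1, (Φ z).2.1) :=
    fun z => X.degSB_degB_apply hi _
  have hmod : ∀ w : N × N, ∃ z u : N × N, w = Φ z + ϖ • u := by
    intro w
    obtain ⟨ℓ, ha, hℓS, hab⟩ := X.exists_auxPrime hi
    obtain ⟨x, hx, χ, m1, m2, hχ⟩ := Lift.exists_degStarH_sub_eq_smul (X.raise hi) ha Fact.out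
      Fact.out hℓS hab hϖ (X.v_mem_S hi) (e := X.locAt (show i + 1 ≤ F.t from hi))
      (X.isLocalizer_top (show i + 1 ≤ F.t from hi)) (hlow.symm ▸ X.isLocalizer_top hi.le)
      (kExp (p := p) (R := R) (n := n)) (w := (w.1.1, w.2.1))
      (hlow.symm ▸ w.1.2) (hlow.symm ▸ w.2.2)
    rw [hlow] at m1 m2
    let x' : HomMod O X.S (⊤ : Subgroup (ZMod (X.lvl (i + 1)))ˣ) O := x
    have hy : ¬ ∀ ϖ' : O, Irreducible ϖ' → ∀ (χ' : N × N)
        (z' : X.baseL (show i + 1 ≤ F.t from hi)),
        x' - X.degB hi (χ'.1.1, χ'.2.1) ≠ ϖ' • z'.1 := fun h => hfull ⟨⟨x', hx⟩, h⟩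
    push Not at hy
    obtain ⟨ϖ', hϖ', z, y, hzy⟩ := hy
    obtain ⟨u, hu⟩ := IsDiscreteValuationRing.associated_of_irreducible O hϖ hϖ'
    obtain ⟨d1, d2⟩ := X.degSB_mem hi y.2
    refine ⟨z, ((u : O) • ⟨_, d1⟩ - ⟨χ.1, m1⟩, (u : O) • ⟨_, d2⟩ - ⟨χ.2, m2⟩), ?_⟩
    have key : (w.1.1, w.2.1) =
        X.degSB hi (X.degB hi (z.1.1, z.2.1)) + ϖ • ((u : O) • X.degSB hi y.1 - χ) := by
      have h1 : X.degSB hi x' - (w.1.1, w.2.1) = ϖ • χ := hχ
      rw [eq_add_of_sub_eq hzy, map_add, map_smul, ← hu] at h1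
      linear_combination (norm := module) (-1 : ℤ) • h1
    rw [hΦ] at key
    exact Prod.ext (Subtype.ext (congrArg Prod.fst key)) (Subtype.ext (congrArg Prod.snd key))
  have hΦs : LinearMap.range Φ = ⊤ := by
    refine top_le_iff.1 (Submodule.le_of_le_smul_of_le_jacobson_bot
      (Module.Finite.fg_top (R := O) (M := N × N)) (jacobson_eq_maximalIdeal ⊥ bot_ne_top).ge
      fun w _ => ?_)
    obtain ⟨z, u, rfl⟩ := hmod w
    exact Submodule.add_mem_sup (LinearMap.mem_range_self _ _)
      (Submodule.smul_mem_smul ((mem_maximalIdeal ϖ).2 hϖ.not_isUnit) Submodule.mem_top)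
  have hsurj : Function.Surjective (actBase (X := X) hi (algebraMap O _ (c ^ 2) - T ^ 2)) := by
    intro w
    obtain ⟨e, he⟩ := hc
    obtain ⟨z, hz⟩ := LinearMap.range_eq_top.1 hΦs (((↑e⁻¹ : O) • w), 0)
    have e1 : c • z.1 + A z.2 = (↑e⁻¹ : O) • w := congrArg Prod.fst hz
    have e2 : A z.1 + c • z.2 = 0 := congrArg Prod.snd hz
    refine ⟨z.1, ?_⟩
    rw [map_sub, AlgHom.commutes, LinearMap.sub_apply, Module.algebraMap_end_apply, pow_two T,
      map_mul, Module.End.mul_apply, show w = c • (↑e⁻¹ : O) • w by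
        rw [← he, smul_smul, Units.mul_inv, one_smul],
      ← e1, eq_neg_of_add_eq_zero_left e2, map_neg, map_smul]
    module
  exact ⟨OrzechProperty.injective_of_surjective_endomorphism _ hsurj, hsurj⟩

/-- **The old classes do not fill the level at `p`.** -/
theorem oldNotFull (hvp : F.v i = p) (hunit : F.UnitRootAt i) : X.OldNotFull hi := by
  classical
  by_contra hfull
  obtain ⟨f, hf, ⟨E⟩⟩ := exists_complex O p
  let := f.toAlgebra
  obtain ⟨red, hred⟩ := exists_red (O := O) hf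
  have hp0 : (p : ResidueField O) = 0 := CharP.cast_eq_zero _ p
  set v := F.v i with hv
  set c : O := (v : O) + 1 with hcdef
  have hc : residue O c = 1 := by rw [hcdef, map_add, map_natCast, hvp, hp0, zero_add, map_one]
  set T : OpRing O (X.lvl i) (X.S.erase v) :=
    MvPolynomial.X (Sum.inr ⟨v, F.v_prime i, Finset.notMem_erase _ _⟩) with hT
  set D : OpRing O (X.lvl i) (X.S.erase v) := algebraMap O _ (c ^ 2) - T ^ 2 with hD
  have hbij : Function.Bijective (actBase (X := X) hi D) :=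
    bijective_of_full hi (by
      by_contra hu
      exact one_ne_zero (hc.symm.trans ((residue_eq_zero_iff c).2 ((mem_maximalIdeal c).2 hu)))) hfull
  have : Module.Finite O (X.baseL hi.le) := inferInstance
  have : Module.Free O (X.baseL hi.le) := inferInstance
  have hdet : IsUnit (LinearMap.det (actBase (X := X) hi D)) := LinearEquiv.isUnit_det'
    (LinearEquiv.ofBijective (actBase (X := X) hi D) hbij)
  set h : Polynomial O := (actBase (X := X) hi D).charpoly with hh
  have h0 : IsUnit (h.coeff 0) := by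
    rw [LinearMap.det_eq_sign_charpoly_coeff] at hdet
    exact isUnit_of_mul_isUnit_right hdet
  have hkill : ∀ φ ∈ X.baseL hi.le,
      X.actS (X.lvl i) (X.S.erase v) (Polynomial.aeval D h) φ = 0 := fun φ hφ => by
    rw [← coe_actBase hi _ ⟨φ, hφ⟩, ← Polynomial.aeval_algHom_apply, hh,
      LinearMap.aeval_self_charpoly]
    rfl
  have hS : X.S.erase v ⊆ X.S := Finset.erase_subset v _
  have hSi : ∀ w : ℕ, w.Prime → w ∣ X.lvl i → w ∈ X.S.erase v := fun w hw hd =>
    Finset.mem_erase.2 ⟨fun he => X.not_dvd_lvl hi le_rfl (show v ∣ X.lvl i from he ▸ hd),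
      X.mem_S_of_dvd_lvl hw hi.le hd⟩
  obtain ⟨y, hy, hy0⟩ := Submodule.exists_mem_ne_zero_of_ne_bot
    (ne_bot_of_isCongruentLevel (X.isLocalizer_top hi.le) (X.congrS hi.le))
  have hex : Nonempty (X.Sys hi.le hS (⊤ : Subgroup (ZMod (X.lvl i))ˣ)) := by
    by_contra hne
    refine hy0 ((reSet O X.S (X.S.erase v) _ O).injective (Eq.trans ?_ (map_zero _).symm))
    rw [← one_smul (OpRing O (X.lvl i) (X.S.erase v)) (reSet O X.S (X.S.erase v) _ O y)]
    exact X.smul_eq_zero_of_sys hi.le hf (X.levK_top hi.le) hS hSi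
      (fun s => absurd ⟨s⟩ hne) hy
  obtain ⟨s⟩ := hex
  have hθ : Polynomial.aeval (s.θ D) h = 0 := by
    rw [Polynomial.aeval_algHom_apply]
    refine s.loc' _ (LinearMap.ext fun x => Subtype.ext ?_)
    obtain ⟨z, hz, hzx⟩ := exists_reSet_eq hS x.2
    show Polynomial.aeval D h • x.1 = 0
    rw [← hzx, ← (reSet O X.S (X.S.erase v) _ O).symm.map_eq_zero_iff]
    exact hkill z hz
  obtain ⟨M, g, hg, hM, htop, hval, -⟩ := s.exists_newform (X.levK_top hi.le) hSi
  have : NeZero M := ⟨fun h0 => pow_ne_zero 2 (X.lvl_ne_zero hi.le)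
    (Nat.eq_zero_of_zero_dvd (h0 ▸ hM))⟩
  have hvM : ¬ v ∣ M := fun hd =>
    X.not_dvd_lvl hi le_rfl ((F.v_prime i).dvd_of_dvd_pow (hd.trans hM))
  obtain ⟨θg, hθg⟩ := GaloisReps.exists_eigenform_character hg.1
  set z : integralClosure ℤ ℂ := θg (HeckeDuality.heckeOp M 2 v (F.v_prime i))
  have hz : (z : ℂ) = qCoeff g v := hθg v (F.v_prime i)
  have hzT : (z : ℂ) = s.θ T := by
    have hvl : ¬ v ∣ X.lvl i := X.not_dvd_lvl hi le_rfl
    rw [hz, hval v (F.v_prime i) (Finset.notMem_erase _ _)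
      (ZMod.unitOfCoprime v ((F.v_prime i).coprime_iff_not_dvd.2 hvl)) (ZMod.coe_unitOfCoprime _ _),
      s.theta_inl_mem (Subgroup.mem_top _), one_pow, one_mul]
  have hsq : red (intClosureIncl O z) ^ 2 = 1 :=
    hunit M g hg.1 hvM (red.comp (intClosureIncl O)) X.S
      (fun ℓ hℓ hℓS b hb => s.red_qCoeff (X.levK_top hi.le) htop hred hℓ hℓS b hb) z hz
  set zD : integralClosure O ℂ :=
    algebraMap O (integralClosure O ℂ) (c ^ 2) - intClosureIncl O z ^ 2 with hzD
  have hzD0 : red zD = 0 := by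
    rw [hzD, map_sub, map_pow red, hred, map_pow, hc, one_pow, map_one, hsq, sub_self]
  have hzh : Polynomial.aeval zD h = 0 := by
    refine Subtype.ext ?_
    have e : s.θ D = (zD : ℂ) := by
      rw [hD, map_sub, AlgHom.commutes, map_pow s.θ, ← hzT, hzD]
      rfl
    rw [e] at hθ
    exact (Polynomial.aeval_algHom_apply (integralClosure O ℂ).val zD h).symm.trans hθ
  have := congrArg red hzh
  rw [Polynomial.aeval_def, Polynomial.hom_eval₂, hzD0, Polynomial.eval₂_at_zero, map_zero,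
    RingHom.comp_apply, hred] at this
  exact not_isUnit_zero ((show residue O (h.coeff 0) = 0 from
    (algebraMap (ResidueField O) (AlgebraicClosure (ResidueField O))).injective
      (this.trans (map_zero _).symm)) ▸ h0.map (residue O))

end Aux

end Fermat.Agent.RT.Lift59.Levels

end
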