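import Fermat.Agent.RT.Lift59.Levels.Sep
import Fermat.Agent.RT.Lift59.Levels.OldNotFull

/-!
# The levels, indexed as the chain of flips consumes them
-/

set_option autoImplicit false

noncomputable section

namespace Fermat.Agent.RT.Lift59.Levels

open IsLocalRing
open GaloisReps (AbsGal)

variable {O : Type} [CommRing O] [IsDomain O] [IsDiscreteValuationRing O]
  [IsAdicComplete (maximalIdeal O) O] [Finite (ResidueField O)] [CharZero O]
  {p : ℕ} [Fact p.Prime] [Fact (p ≠ 2)] [CharP (ResidueField O) p]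
  {F : Fixed O p} {R n : ℕ} (X : Aux F R n)

namespace Aux

/-- The module of the `j`-th level. -/
abbrev Lev (j : Fin (F.t + 1)) : Type := X.LMod (Nat.le_of_lt_succ j.2)

/-- The degeneracy map at the `i`-th flip. -/
def degLev (i : Fin F.t) : X.Lev i.castSucc × X.Lev i.castSucc →ₗ[X.Ring] X.Lev i.succ :=
  X.deg i.2

/-- **Inertia is trivial on a level at the primes not yet in it.** -/
theorem unr_rep {i j : ℕ} (hi : i < F.t) (hj : j ≤ F.t) (hji : j ≤ i) (hvp : F.v i ≠ p)
    {A : ValuationSubring (AlgebraicClosure ℚ)} (hA : A.LiesOverPrime (F.v i)) {σ : AbsGal}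
    (hσ : σ ∈ A.inertiaSubgroupIn ℚ) (a b : Fin 2) (x : X.LMod hj) :
    (X.rep σ - 1) a b • x = 0 := by
  rw [ring_smul, Matrix.sub_apply, map_sub]
  have h := X.unr_act hj (F.v_prime i) (X.not_dvd_lvl hi hji) hvp hA hσ a b x
  rw [Matrix.sub_apply] at h
  rwa [show X.pr ((1 : Deform.M2 X.Ring) a b) = (1 : Deform.M2 X.Alg) a b by
    rw [Matrix.one_apply, Matrix.one_apply]
    split_ifs <;> simp]

/-- **The flip at a prime different from `p`.** -/
theorem flip_ne {i : ℕ} (hi : i < F.t) (hvp : F.v i ≠ p)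
    {A : ValuationSubring (AlgebraicClosure ℚ)} (hA : A.LiesOverPrime (F.v i)) {Fr : AbsGal}
    (hFr : A.IsFrobeniusAt Fr (F.v i)) :
    ∃ degS : X.LMod (show i + 1 ≤ F.t from hi) →ₗ[X.Ring] X.LMod hi.le × X.LMod hi.le,
      degS ∘ₗ X.deg hi = Lift.crossMap ((F.v i : X.Ring) + 1) (X.rep Fr).trace ∧
      (∀ (r : DiaSeries R O) x, degS (r • x) = r • degS x) ∧
      ∀ u, ∃ x, degS x - u ∈ maximalIdeal (DiaSeries R O) •
        (⊤ : Submodule (DiaSeries R O) (X.LMod hi.le × X.LMod hi.le)) :=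
  ⟨X.degS hi, X.degS_deg hi hvp hA hFr, X.degS_smul hi, X.degS_surj hi⟩

/-- **The flip at `p`.** -/
theorem flip_p {i : ℕ} (hi : i < F.t) (hvp : F.v i = p) (hunit : F.UnitRootAt i) :
    ∃ x : X.LMod (show i + 1 ≤ F.t from hi), ∀ u, x - X.deg hi u ∉
      maximalIdeal (DiaSeries R O) •
        (⊤ : Submodule (DiaSeries R O) (X.LMod (show i + 1 ≤ F.t from hi))) :=
  X.exists_not_mem hi (oldNotFull hi hvp hunit)

end Aux

end Fermat.Agent.RT.Lift59.Levels

end
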