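import Fermat.Agent.RT.Lift59.Levels.Sep

/-!
# Absence of the system of the curve at the top level

If no eigenform of the top level without auxiliary primes has the system of the representation over
`O`, a polynomial in the traces of Frobenius at fixed primes kills the top level modulo the ideal of
the variables and is a nonzero constant at the representation over `O`.
-/

set_option autoImplicit false

noncomputable section

namespace Fermat.Agent.RT.Lift59.Levels

open IsLocalRing CongruenceSubgroup ModularFormClass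
open GaloisReps (AbsGal)
open ModularCurve.Period
open Fermat.Agent.RT.GammaH Fermat.Agent.RT.Level
open Fermat.Agent.RT.Glue (KBar sA diaA)

variable {O : Type} [CommRing O] [IsDomain O] [IsDiscreteValuationRing O]
  [IsAdicComplete (maximalIdeal O) O] [Finite (ResidueField O)] [CharZero O]
  {p : ℕ} [Fact p.Prime] [Fact (p ≠ 2)] [CharP (ResidueField O) p]

/-- No eigenform of the top level without auxiliary primes has the traces of the representation
over `O` at almost all primes. -/
def Fixed.NoSystem (F : Fixed O p) : Prop :=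
  ∀ g : CuspForm (Gamma0 (F.base F.t)) 2, g.IsNormalizedEigenform →
    ∀ σ : O →+* ℂ, Function.Injective σ → ∃ ℓ : ℕ, ℓ.Prime ∧ ¬ ℓ ∣ F.bad ∧
      ∀ (A : ValuationSubring (AlgebraicClosure ℚ)) (τ : AbsGal), A.LiesOverPrime ℓ →
        A.IsFrobeniusAt τ ℓ → qCoeff g ℓ ≠ σ (F.rhoE τ).trace

/-- **An element killing the top level at the base, nonzero at the representation over `O`**,
uniformly in the auxiliary primes. -/
theorem exists_top (F : Fixed O p) (hnot : F.NoSystem) :
    ∃ c : O, c ≠ 0 ∧ ∀ (R n : ℕ) (X : Aux F R n), ∃ a : X.Ring,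
      (∀ x : X.LMod (le_refl F.t), a • x ∈
        Ideal.span (Set.range fun k : Fin R => (MvPowerSeries.X k : DiaSeries R O)) •
          (⊤ : Submodule (DiaSeries R O) (X.LMod (le_refl F.t)))) ∧
      X.eval a = c := by
  classical
  obtain ⟨f, hf, ⟨E⟩⟩ := exists_complex O p
  let := f.toAlgebra
  have := isAlgebraic_complex E
  have : NeZero (F.base F.t) := ⟨(F.base_sqf le_rfl).ne_zero⟩
  set restr : (ℕ → ℂ) → F.Good → ℂ := fun a ℓ => a ℓ.1
  set Sys0 := (finite_eigenSys (F.base F.t)).toFinset
  set pt : F.Good → ℂ := fun ℓ => algebraMap O ℂ (F.rhoE (F.frobEl ℓ)).trace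
  obtain ⟨c, Q, hc, hQ0, hQpt⟩ := exists_separating (O := O) hf (Sys0.image restr) {pt}
    (fun a ha ℓ => by
      obtain ⟨a', ha', rfl⟩ := Finset.mem_image.1 ha
      exact (isIntegral_eigenSys ((Set.Finite.mem_toFinset _).1 ha') ℓ.1).tower_top)
    (fun b hb ℓ => by
      rw [Finset.mem_singleton.1 hb]
      exact isIntegral_algebraMap)
    (fun a ha b hb σ => by
      obtain ⟨a', ha', rfl⟩ := Finset.mem_image.1 ha
      obtain ⟨g, hg, hga⟩ := conj_mem_eigenSys σ.toRingHom ((Set.Finite.mem_toFinset _).1 ha')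
      obtain ⟨ℓ, hℓ, hℓb, hne⟩ := hnot g hg f hf
      obtain ⟨hA, hFr⟩ := (exists_frob F ⟨ℓ, hℓ, hℓb⟩).choose_spec.choose_spec
      refine ⟨⟨ℓ, hℓ, hℓb⟩, fun he => hne _ _ hA hFr ?_⟩
      rw [← primeCoeff_prime g hℓ, congrFun hga ℓ]
      exact he.trans (congrFun (Finset.mem_singleton.1 hb) _))
  refine ⟨c, hc, fun R n X => ⟨X.trPoly Q, fun x => ?_, ?_⟩⟩
  · obtain ⟨b, hb⟩ := X.toAlg_surjective (X.pr (X.trPoly Q))
    have hkill : ∀ y ∈ X.baseL (le_refl F.t),
        opTo O X.S (X.lvl_dvd (le_refl F.t)) b • y = 0 := fun y hy => by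
      have h := X.smul_eq_zero_of_sys (le_refl F.t) hf (X.levK_top le_rfl) (le_refl X.S)
        (fun w hw hd => X.mem_S_of_dvd_lvl hw le_rfl hd)
        (a := extOp O (X.lvl F.t) (le_refl X.S) (opTo O X.S (X.lvl_dvd (le_refl F.t)) b))
        (fun s => by
          rw [← s.toTop_toAlg (X.levK_top le_rfl), hb]
          obtain ⟨M, g, hg, hM, hQ, -⟩ := s.exists_base hf E
            (fun w hw hd => X.mem_S_of_dvd_lvl hw le_rfl hd)
          obtain ⟨f', hf', hf'c⟩ := Newforms.exists_eigenform_of_dvd hM hg.1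
          rw [show s.toTop (X.levK_top le_rfl) (X.pr (X.trPoly Q)) = _ from hQ Q]
          refine Eq.trans ?_ (hQ0 (restr (primeCoeff f'))
            (Finset.mem_image_of_mem _ ((Set.Finite.mem_toFinset _).2 ⟨f', hf', rfl⟩)))
          refine congrArg (fun f => MvPolynomial.aeval f Q) (funext fun ℓ => ?_)
          show qCoeff g ℓ.1 = primeCoeff f' ℓ.1
          rw [primeCoeff_prime f' ℓ.2.1, hf'c ℓ.1 ℓ.2.1 (Or.inr fun hd => ℓ.2.2 <|
            (hd.mul_right p).trans (dvd_of_eq F.base_top_mul))]) hy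
      rw [extOp_smul] at h
      exact (reSet O X.S X.S _ O).injective (h.trans (map_zero _).symm)
    rw [X.mem_augment_iff]
    refine Subtype.ext ?_
    rw [Aux.ring_smul, ← hb, Aux.cores_toAlg]
    exact hkill _ (X.cores (le_refl F.t) x).2
  · refine hf ?_
    show algebraMap O ℂ (X.eval (X.trPoly Q)) = algebraMap O ℂ c
    rw [Aux.eval_trPoly, ← hQpt pt (Finset.mem_singleton_self _)]
    exact (MvPolynomial.comp_aeval_apply (φ := Algebra.ofId O ℂ) _ Q)

end Fermat.Agent.RT.Lift59.Levels

end
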