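import Fermat.Agent.RT.Lift59.Levels.Ring
import Fermat.Agent.RT.Lift59.Galois.OrdLine
import Fermat.Agent.RT.Lift59.Scalar.Ordinary

/-!
# Ordinarity at `p` of the levels containing `p`

When `p` exactly divides the top level, the diamond characters do not move `p`, so the glued
representation is ordinary at `p` if the residual one is (`Scalar.isOrdinaryAt_glued`).
-/

set_option autoImplicit false

noncomputable section

namespace Fermat.Agent.RT.Lift59.Levels

open IsLocalRing
open GaloisReps (AbsGal)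
open Fermat.Agent.Deform (M2 matRes matOf mapM)
open Fermat.Agent.RT.Lift59.Galois (OrdVec)
open scoped Matrix


/-- An ordinary vector for the matrices gives an ordinary line. -/
theorem isOrdinaryAt_of_ordVec {k : Type} [Field k] {p : ℕ} (ρ : ResidualGaloisRep k)
    (b : Module.Basis (Fin 2) k ρ.V)
    (h : ∀ P : ValuationSubring (AlgebraicClosure ℚ), P.LiesOverPrime p →
      ∃ w : Fin 2 → k, w ≠ 0 ∧ OrdVec P (matRes ρ b) w) :
    (GaloisRepAdic.ofResidualGaloisRep ρ).IsOrdinaryAt p := by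
  intro P hP
  obtain ⟨w, hw, hord⟩ := h P hP
  obtain ⟨i, hi⟩ : ∃ i, IsUnit (w i) := by
    obtain ⟨i, hi⟩ := Function.ne_iff.1 hw
    exact ⟨i, isUnit_iff_ne_zero.2 hi⟩
  obtain ⟨e, he⟩ := Galois.exists_basis_of_isUnit hi
  have hmat : ∀ (σ : AbsGal) (v : ρ.V), b.equivFun (ρ.ρ σ v) = matRes ρ b σ *ᵥ b.equivFun v :=
    fun σ v => (LinearMap.toMatrix_mulVec_repr b b (ρ.ρ σ) v).symm
  have hline : ∀ v : ρ.V, Galois.cross (b.equivFun v) w = 0 → v ∈ k ∙ b.equivFun.symm w :=
    fun v hv => Submodule.mem_span_singleton.2 ⟨_, by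
      rw [← map_smul, ← Galois.eq_smul_of_cross hi hv, LinearEquiv.symm_apply_apply]⟩
  refine ⟨k ∙ b.equivFun.symm w, ⟨e.map b.equivFun.symm, by rw [Module.Basis.map_apply, he]; rfl⟩,
    fun σ hσ (v : ρ.V) hv => hline _ ?_, fun σ hσ (v : ρ.V) => hline _ ?_⟩
  · obtain ⟨c, rfl⟩ := Submodule.mem_span_singleton.1 hv
    show Galois.cross (b.equivFun (ρ.ρ σ (c • b.equivFun.symm w))) w = 0
    rw [hmat, map_smul, LinearEquiv.apply_symm_apply, Matrix.mulVec_smul, Galois.cross_smul_left,
      hord.dec σ hσ, mul_zero]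
  · show Galois.cross (b.equivFun (ρ.ρ σ v - v)) w = 0
    rw [map_sub, hmat]
    exact hord.inert σ hσ _

variable {O : Type} [CommRing O] [IsDomain O] [IsDiscreteValuationRing O]
  [IsAdicComplete (maximalIdeal O) O] [Finite (ResidueField O)] [CharZero O]
  {p : ℕ} [Fact p.Prime] [Fact (p ≠ 2)] [CharP (ResidueField O) p]
  {F : Fixed O p} {R n : ℕ} (X : Aux F R n)

namespace Aux

/-- **The representation of a level containing `p` is ordinary at `p`.** -/
theorem isOrdinaryAt_rhoT (hp : p ∣ F.base F.t)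
    (hres : ∀ P : ValuationSubring (AlgebraicClosure ℚ), P.LiesOverPrime p →
      ∃ w : Fin 2 → ResidueField O, w ≠ 0 ∧ OrdVec P (mapM (residue O) F.rhoE) w) :
    (Deform.toRep X.rhoT X.isCont_rhoT).IsOrdinaryAt p := by
  have hpp : p.Prime := Fact.out
  have hptop : p ∣ X.top := by
    rw [top, X.lvl_eq]; exact hp.mul_right _
  refine Scalar.isOrdinaryAt_of_isEquiv (Deform.isEquiv_toRep_matOf X.glued.rep _)
    (Scalar.isOrdinaryAt_glued X.glued natCast_mem_max isPGroup_diaGroup Fact.out X.p_mem_S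
      (fun _ u hu => X.psi_eq_one fun i => ?_) X.exists_glued.choose_spec
      (isOrdinaryAt_of_ordVec F.ρbar F.bb fun P hP => by rw [← F.res]; exact hres P hP))
  have hd : X.q i ∣ X.top / p := by
    refine Nat.dvd_div_of_mul_dvd (Nat.Coprime.mul_dvd_of_dvd_of_dvd ?_ hptop (X.q_dvd_lvl i _))
    refine (Nat.coprime_primes hpp (X.q_prime i)).2 fun h => X.q_not_dvd i ?_
    rw [← h]
    exact dvd_mul_left p _
  rw [← GammaH.unitsMap_eq_one_iff (X.q_dvd_lvl i _),
    ← ZMod.unitsMap_comp hd (Nat.div_dvd_of_dvd hptop), MonoidHom.comp_apply,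
    (GammaH.unitsMap_eq_one_iff (Nat.div_dvd_of_dvd hptop) u).2 hu, map_one]

end Aux

end Fermat.Agent.RT.Lift59.Levels

end
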