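import Fermat.Agent.RT.Lift59.Levels.Psi
import Fermat.Agent.RT.Assembly.Diamond
import Fermat.Agent.CFT.Tangent.Derivation

/-!
# A module free over the diamond group as a module over power series

`1 + X i` acts as the `i`-th generator. A module with a basis over the group ring is spanned by the
basis with independence up to the ideal of the level, and a surjection to a module of the same rank
on which the group acts trivially detects the ideal of the variables and the maximal ideal.
-/

set_option autoImplicit false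

noncomputable section

namespace Fermat.Agent.RT.Lift59.Levels

open IsLocalRing MvPowerSeries
open Fermat.Agent.RT.Assembly Fermat.Agent.RT.Algebra
open Fermat.Agent.CFT.Tangent (exists_evalHom)

variable {O : Type} [CommRing O] [IsLocalRing O] {p R n : ℕ} [Fact p.Prime]

/-- Power series in the diamond variables. -/
abbrev DiaSeries (R : ℕ) (O : Type) [CommRing O] : Type := MvPowerSeries (Fin R) O

omit [Fact p.Prime] [IsLocalRing O] in
/-- A series without constant term lies in the ideal of the variables. -/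
theorem sub_C_mem_span_X (f : (DiaSeries R O)) :
    f - C (constantCoeff f) ∈ Ideal.span (Set.range fun k : Fin R => (X k : (DiaSeries R O))) := by
  classical
  rw [← pow_one (Ideal.span _)]
  refine mem_pow_span_X (MvPolynomial.ext _ _ fun d => ?_)
  rw [MvPolynomial.coeff_zero]
  by_cases hd : d.degree < 1
  · rw [coeff_truncTotal _ hd, map_sub, coeff_C]
    have : d = 0 := (Finsupp.degree_eq_zero_iff d).1 (by omega)
    subst this
    simp
  · exact coeff_truncTotal_eq_zero _ (not_lt.mp hd)

theorem C_mem_maximalIdeal {c : O} (hc : c ∈ maximalIdeal O) : (C c : (DiaSeries R O)) ∈ maximalIdeal (DiaSeries R O) :=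
  (IsLocalRing.mem_maximalIdeal _).mpr fun h => (IsLocalRing.mem_maximalIdeal _).mp hc
    (by simpa using MvPowerSeries.isUnit_iff_constantCoeff.mp h)

theorem constantCoeff_mem_maximalIdeal {f : (DiaSeries R O)} (hf : f ∈ maximalIdeal (DiaSeries R O)) :
    constantCoeff f ∈ maximalIdeal O :=
  fun h => hf (MvPowerSeries.isUnit_iff_constantCoeff.mpr h)

variable {A : Type} [CommRing A] [Algebra O A] (dia : DiaGroup p R n →* A)

omit [IsLocalRing O] in
/-- The evaluation `X i ↦ gᵢ - 1`. -/
theorem exists_evalS [IsLocalRing A] [IsNoetherianRing A] [IsAdicComplete (maximalIdeal A) A]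
    (hdia : ∀ δ, dia δ - 1 ∈ maximalIdeal A) :
    ∃ Φ : (DiaSeries R O) →ₐ[O] A, ∀ i, Φ (X i) = dia (diaGen i) - 1 :=
  exists_evalHom (fun i => dia (diaGen i) - 1) fun _ => hdia _

variable {dia} {Φ : (DiaSeries R O) →ₐ[O] A} (hΦ : ∀ i, Φ (X i) = dia (diaGen i) - 1)
include hΦ

omit [IsLocalRing O] in
theorem eval_levelIdeal {f : (DiaSeries R O)} (hf : f ∈ levelIdeal (ι := Fin R) O p n) : Φ f = 0 := by
  rw [← RingHom.mem_ker]
  refine Ideal.span_le.2 ?_ hf
  rintro _ ⟨i, rfl⟩
  rw [SetLike.mem_coe, RingHom.mem_ker]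
  rw [map_sub, map_pow, map_add, map_one, hΦ, add_sub_cancel, ← map_pow, diaGen_pow_eq_one, map_one,
    sub_self]

variable {M : Type} [AddCommGroup M] [Module O M] [Module A M] [IsScalarTower O A M]
  {d : ℕ} {b : Fin d → M}
  (hb : Function.Bijective fun c : Fin d × DiaGroup p R n →₀ O =>
    c.sum fun iq x => x • dia iq.2 • b iq.1)
include hb

omit [IsLocalRing O] in
theorem exists_span (x : M) : ∃ c : Fin d → (DiaSeries R O), x = ∑ i, Φ (c i) • b i := by
  classical
  obtain ⟨c, rfl⟩ := hb.2 x
  let mon : DiaGroup p R n → (DiaSeries R O) := fun δ => ∏ i, (1 + X i) ^ (δ.toAdd.2 i).val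
  have hmon : ∀ δ, Φ (mon δ) = dia δ := fun δ => by
    conv_rhs => rw [diaGroup_eq_prod δ]
    simp [mon, hΦ]
  refine ⟨fun i => c.sum fun iq x => if iq.1 = i then C x * mon iq.2 else 0, ?_⟩
  simp only [Finsupp.sum, map_sum, Finset.sum_smul]
  rw [Finset.sum_comm]
  refine Finset.sum_congr rfl fun iq _ => ?_
  rw [Finset.sum_eq_single iq.1]
  · rw [if_pos rfl, map_mul, hmon, mul_smul, show (C (c iq) : (DiaSeries R O)) = algebraMap O (DiaSeries R O) (c iq) from rfl,
      AlgHom.commutes, algebraMap_smul]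
  · intro i _ hi
    rw [if_neg (Ne.symm hi), map_zero, zero_smul]
  · simp

variable [IsNoetherianRing O] [IsAdicComplete (maximalIdeal O) O]

theorem indep_levelIdeal (hp : (p : O) ∈ maximalIdeal O) (c : Fin d → (DiaSeries R O))
    (hc : ∑ i, Φ (c i) • b i = 0) : ∀ i, c i ∈ levelIdeal (ι := Fin R) O p n := by
  classical
  let J := levelIdeal (ι := Fin R) O p n
  let Q := (DiaSeries R O) ⧸ J
  have : Module.Finite O Q := finite_quotient_levelIdeal (Fact.out : p.Prime) hp n
  let dM : DiaGroup p R n →* Module.End O M :=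
    (Algebra.lsmul O O M).toMonoidHom.comp dia
  let B : DiaBasis dM d := ⟨b, hb⟩
  let χ : DiaGroup p R n →* Q := levelChar (V := Empty) (r := R) (one_pow p) n
  have hχ : ∀ i, χ (diaGen i) = 1 + Ideal.Quotient.mk J (X i) := fun i => by
    refine (levelChar_apply_right (V := Empty) (one_pow p) n i 1).trans ?_
    rcases eq_or_ne n 0 with hn | hn
    · subst hn
      have h := one_add_mk_pow (O := O) (p := p) 0 i
      rw [pow_zero, pow_one] at h
      rw [h, one_pow]
    · have : Fact (1 < p ^ n) := ⟨Nat.one_lt_pow hn (Fact.out : p.Prime).one_lt⟩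
      rw [ZMod.val_one, pow_one]
  let sp := B.spec χ
  let Ψ : (Fin d → Q) →ₗ[O] M := ∑ i,
    ((LinearMap.toSpanSingleton A M (b i)).restrictScalars O ∘ₗ
      (Ideal.Quotient.liftₐ J Φ fun f hf => eval_levelIdeal hΦ hf).toLinearMap) ∘ₗ
        LinearMap.proj i
  have hΨ : ∀ v : Fin d → (DiaSeries R O), Ψ (fun i => Ideal.Quotient.mk J (v i)) = ∑ i, Φ (v i) • b i := fun v => by
    simp only [Ψ, LinearMap.sum_apply]
    rfl
  have hsp : Function.Surjective sp := by
    rw [← LinearMap.range_eq_top]
    refine eq_top_of_X_stable (Fact.out : p.Prime) hp n _ ?_ fun j =>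
      ⟨b j, B.spec_basis χ j⟩
    rintro i _ ⟨x, rfl⟩
    refine ⟨dM (diaGen i) x - x, ?_⟩
    rw [map_sub, B.spec_dia χ, hχ, add_smul, one_smul, add_sub_cancel_left]
  have hΨs : Function.Surjective Ψ := fun x => by
    obtain ⟨v, rfl⟩ := exists_span hΦ hb x
    exact ⟨_, hΨ v⟩
  have hinj : Function.Injective Ψ := fun u v huv =>
    OrzechProperty.injective_of_surjective_endomorphism (sp ∘ₗ Ψ) (hsp.comp hΨs) (congrArg sp huv)
  intro i
  have h0 := hinj ((hΨ c).trans (hc.trans (map_zero Ψ).symm))
  exact Ideal.Quotient.eq_zero_iff_mem.1 (congrFun h0 i)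

variable {N₀ : Type} [AddCommGroup N₀] [Module O N₀] (C₀ : M →ₗ[O] N₀)
  (hC : ∀ δ x, C₀ (dia δ • x) = C₀ x)
include hC

omit [IsNoetherianRing O] [IsAdicComplete (maximalIdeal O) O] hb [IsLocalRing O] in
theorem map_eval_smul (f : (DiaSeries R O)) (x : M) : C₀ (Φ f • x) = constantCoeff f • C₀ x := by
  have h0 : ∀ g ∈ Ideal.span (Set.range fun k : Fin R => (X k : (DiaSeries R O))), ∀ y : M, C₀ (Φ g • y) = 0 := by
    intro g hg
    induction hg using Submodule.span_induction with
    | mem z hz =>
      obtain ⟨k, rfl⟩ := hz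
      intro y
      rw [hΦ, sub_smul, one_smul, map_sub, hC, sub_self]
    | zero => intro y; rw [map_zero, zero_smul, map_zero]
    | add u v _ _ hu hv => intro y; rw [map_add, add_smul, map_add, hu, hv, add_zero]
    | smul a u _ hu => intro y; rw [smul_eq_mul, map_mul, mul_comm, mul_smul]; exact hu _
  have h1 := h0 _ (sub_C_mem_span_X f) x
  rw [map_sub, sub_smul, map_sub, sub_eq_zero] at h1
  rw [h1, show (C (constantCoeff f) : (DiaSeries R O)) = algebraMap O (DiaSeries R O) (constantCoeff f) from rfl,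
    AlgHom.commutes, algebraMap_smul, map_smul]

variable [Module (DiaSeries R O) M] (hS : ∀ (f : (DiaSeries R O)) (x : M), f • x = Φ f • x)
  (hsurj : Function.Surjective C₀)
  [Module.Free O N₀] [Module.Finite O N₀] (hrank : Module.finrank O N₀ = d)
include hS hsurj hrank

omit [IsNoetherianRing O] [IsAdicComplete (maximalIdeal O) O] [Module.Free O N₀]
    [Module.Finite O N₀] [IsLocalRing O] in
/-- The kernel of the map to the base is the ideal of the variables. -/
theorem mem_span_X_smul_iff (x : M) :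
    x ∈ Ideal.span (Set.range fun k : Fin R => (X k : (DiaSeries R O))) • (⊤ : Submodule (DiaSeries R O) M) ↔ C₀ x = 0 := by
  classical
  refine ⟨fun hx => ?_, fun hx => ?_⟩
  · refine Submodule.smul_induction_on hx (fun g hg y _ => ?_) fun y z hy hz => by
      rw [map_add, hy, hz, add_zero]
    rw [hS, map_eval_smul hΦ C₀ hC]
    have : constantCoeff g = 0 := by
      have hle : Ideal.span (Set.range fun k : Fin R => (X k : (DiaSeries R O))) ≤
          RingHom.ker (constantCoeff : (DiaSeries R O) →+* O) := by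
        rw [Ideal.span_le]
        rintro _ ⟨k, rfl⟩
        simp
      exact hle hg
    rw [this, zero_smul]
  · obtain ⟨c, rfl⟩ := exists_span hΦ hb x
    have hli : LinearIndependent O fun i => C₀ (b i) := by
      refine linearIndependent_of_top_le_span_of_card_eq_finrank (fun z _ => ?_) (by simp [hrank])
      obtain ⟨y, rfl⟩ := hsurj z
      obtain ⟨v, rfl⟩ := exists_span hΦ hb y
      rw [map_sum]
      refine Submodule.sum_mem _ fun i _ => ?_
      rw [map_eval_smul hΦ C₀ hC]
      exact Submodule.smul_mem _ _ (Submodule.subset_span ⟨i, rfl⟩)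
    have h0 : ∀ i, constantCoeff (c i) = 0 := by
      refine Fintype.linearIndependent_iff.1 hli _ (Eq.trans ?_ hx)
      rw [map_sum]
      exact Finset.sum_congr rfl fun i _ => (map_eval_smul hΦ C₀ hC _ _).symm
    refine Submodule.sum_mem _ fun i _ => ?_
    rw [← hS]
    refine Submodule.smul_mem_smul ?_ Submodule.mem_top
    simpa [h0 i] using sub_C_mem_span_X (c i)

omit [IsNoetherianRing O] [IsAdicComplete (maximalIdeal O) O] [Module.Free O N₀]
    [Module.Finite O N₀] in
/-- The maximal ideal is detected on the base. -/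
theorem mem_maximalIdeal_smul_iff {ϖ : O} (hϖ : maximalIdeal O = Ideal.span {ϖ}) (x : M) :
    x ∈ maximalIdeal (DiaSeries R O) • (⊤ : Submodule (DiaSeries R O) M) ↔ ∃ y, C₀ x = ϖ • y := by
  classical
  refine ⟨fun hx => ?_, fun ⟨y, hy⟩ => ?_⟩
  · refine Submodule.smul_induction_on hx (fun g hg y _ => ?_) fun y z ⟨u, hu⟩ ⟨v, hv⟩ =>
      ⟨u + v, by rw [map_add, hu, hv, smul_add]⟩
    obtain ⟨a, ha⟩ : ∃ a, constantCoeff g = ϖ * a :=
      Ideal.mem_span_singleton.1 (hϖ ▸ constantCoeff_mem_maximalIdeal hg)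
    exact ⟨a • C₀ y, by rw [hS, map_eval_smul hΦ C₀ hC, ha, mul_smul]⟩
  · obtain ⟨z, rfl⟩ := hsurj y
    have h1 : x - ϖ • z ∈ Ideal.span (Set.range fun k : Fin R => (X k : (DiaSeries R O))) • (⊤ : Submodule (DiaSeries R O) M) :=
      (mem_span_X_smul_iff hΦ hb C₀ hC hS hsurj hrank _).2 (by rw [map_sub, map_smul, hy, sub_self])
    have h2 : ϖ • z ∈ maximalIdeal (DiaSeries R O) • (⊤ : Submodule (DiaSeries R O) M) := by
      have e : ϖ • z = (C ϖ : (DiaSeries R O)) • z := by
        rw [hS, show (C ϖ : (DiaSeries R O)) = algebraMap O (DiaSeries R O) ϖ from rfl, AlgHom.commutes, algebraMap_smul]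
      rw [e]
      exact Submodule.smul_mem_smul
        (C_mem_maximalIdeal (hϖ ▸ Ideal.mem_span_singleton_self ϖ)) Submodule.mem_top
    have h3 := Submodule.smul_mono_left span_X_le_maximalIdeal h1
    simpa using add_mem h3 h2

end Fermat.Agent.RT.Lift59.Levels

end
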