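import Fermat.Agent.RT.Lift59.Levels.Rep
import Fermat.Agent.RT.Lift59.Levels.Free

/-!
# The levels as modules over the algebra of the top level and over power series

An operator killing the top localised module kills every lower one, so the algebra of the top level
acts on all levels; power series act through the diamond operators.
-/

set_option autoImplicit false

noncomputable section

namespace Fermat.Agent.RT.Lift59.Levels

open IsLocalRing
open Fermat.Agent.RT.GammaH Fermat.Agent.RT.Level
open Fermat.Agent.RT.Glue (diaA)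
open Fermat.Agent.Deform (M2)
open MvPolynomial (aeval)

variable {O : Type} [CommRing O] [IsDomain O] [IsDiscreteValuationRing O]
  [IsAdicComplete (maximalIdeal O) O] [Finite (ResidueField O)] [CharZero O]
  {p : ℕ} [Fact p.Prime] [Fact (p ≠ 2)] [CharP (ResidueField O) p]
  {F : Fixed O p} {R n : ℕ} (X : Aux F R n)

namespace Aux

omit [Finite (ResidueField O)] [CharP (ResidueField O) p] in
theorem smul_step {i : ℕ} (hi : i < F.t) {a : OpRing O X.top X.S}
    (ha : ∀ x ∈ X.modL (show i + 1 ≤ F.t from hi), opTo O X.S (X.lvl_dvd (show i + 1 ≤ F.t from hi)) a • x = 0)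
    {x : HomMod O X.S (X.K i) O} (hx : x ∈ X.modL hi.le) :
    opTo O X.S (X.lvl_dvd hi.le) a • x = 0 := by
  have : NeZero (X.lvl i * F.v i) := inferInstanceAs (NeZero (X.lvl (i + 1)))
  exact smul_eq_zero_of_mul (K₀ := X.psi0.ker) (M := X.lvl i) (v := F.v i)
    (show LevelRaising.RaiseData (F.v i) (X.lvl i) from ⟨F.v_prime i, X.not_dvd_lvl hi le_rfl⟩)
    (X.zero_dvd_lvl i) (X.v_mem_S hi) (X.lvl_dvd hi) (a := a) (e := X.loc) ha hx (X.lvl_dvd hi.le)

theorem smul_eq_zero_of_toAlg {a : OpRing O X.top X.S} (ha : X.toAlg a = 0) :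
    ∀ {j : ℕ} (hj : j ≤ F.t) {x : HomMod O X.S (X.K j) O}, x ∈ X.modL hj →
      opTo O X.S (X.lvl_dvd hj) a • x = 0 := by
  intro j hj
  induction hj using Nat.decreasingInduction with
  | self =>
    intro x hx
    rw [opTo_self]
    exact congrArg Subtype.val (LinearMap.congr_fun (congrArg Subtype.val ha) ⟨x, hx⟩)
  | of_succ k hk ih => exact fun {x} hx => X.smul_step hk (fun y hy => ih hy) hx

variable {j : ℕ} (hj : j ≤ F.t)

theorem ker_toAlg_le : RingHom.ker (X.toAlg : OpRing O X.top X.S →+* X.Alg) ≤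
    RingHom.ker (((localAct O (X.locAt hj) (HomMod O X.S (X.K j) O)).comp
      (opTo O X.S (X.lvl_dvd hj))) : OpRing O X.top X.S →+* Module.End O (X.modL hj)) :=
  fun _ ha => LinearMap.ext fun x => Subtype.ext (X.smul_eq_zero_of_toAlg ha hj x.2)

/-- The action of the algebra of the top level on the `j`-th level. -/
def actRing : X.Alg →+* Module.End O (X.modL hj) :=
  RingHom.liftOfSurjective (X.toAlg : OpRing O X.top X.S →+* X.Alg) X.toAlg_surjective
    ⟨((localAct O (X.locAt hj) (HomMod O X.S (X.K j) O)).comp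
      (opTo O X.S (X.lvl_dvd hj))).toRingHom, X.ker_toAlg_le hj⟩

theorem actRing_toAlg (a : OpRing O X.top X.S) :
    X.actRing hj (X.toAlg a) =
      localAct O (X.locAt hj) (HomMod O X.S (X.K j) O) (opTo O X.S (X.lvl_dvd hj) a) :=
  RingHom.liftOfRightInverse_comp_apply _ _ _ _ a

theorem actRing_algebraMap (c : O) :
    X.actRing hj (algebraMap O X.Alg c) = algebraMap O (Module.End O (X.modL hj)) c := by
  rw [← X.toAlg.commutes c, actRing_toAlg, AlgHom.commutes, AlgHom.commutes]

/-- The localised module of a level, with the action of the algebra of the top level and of power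
series. -/
def LMod : Type := X.modL hj

instance : AddCommGroup (X.LMod hj) := inferInstanceAs (AddCommGroup (X.modL hj))

instance : Module O (X.LMod hj) := inferInstanceAs (Module O (X.modL hj))

instance : Module.Finite O (X.LMod hj) := inferInstanceAs (Module.Finite O (X.modL hj))

instance instModuleAlg : Module X.Alg (X.LMod hj) := Module.compHom (X.modL hj) (X.actRing hj)

theorem alg_smul (a : X.Alg) (x : X.LMod hj) : a • x = (X.actRing hj a x : X.modL hj) := rfl

instance : IsScalarTower O X.Alg (X.LMod hj) := ⟨fun c a x =>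
  LinearMap.congr_fun (show X.actRing hj (c • a) = c • X.actRing hj a by
    rw [Algebra.smul_def, map_mul, actRing_algebraMap, ← Algebra.smul_def]) (x : X.modL hj)⟩

/-- An element of the top algebra acts through any lift. -/
theorem coe_toAlg_smul (a : OpRing O X.top X.S) (x : X.LMod hj) :
    ((X.toAlg a • x : X.LMod hj) : X.modL hj).1 = opTo O X.S (X.lvl_dvd hj) a • (x : X.modL hj).1 := by
  rw [alg_smul, actRing_toAlg]
  rfl

theorem diaA_smul (δ : DiaGroup p R n) (x : X.LMod hj) :
    diaA X.heckeTop δ • x =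
      (opDia O X.S (X.psi j) (X.locAt hj) (X.psi_surjective hj) δ x : X.modL hj) := by
  obtain ⟨u, rfl⟩ := X.psi_surjective (le_refl F.t) δ
  rw [← X.toAlg_inl, alg_smul, actRing_toAlg, ← X.psi_unitsMap hj, opDia_apply, opTo,
    MvPolynomial.rename_X]
  rfl

omit hj in
theorem exists_dia : ∃ Φ : DiaSeries R O →ₐ[O] X.Alg,
    ∀ i, Φ (MvPowerSeries.X i) = diaA X.heckeTop (diaGen i) - 1 :=
  exists_evalS (diaA X.heckeTop) fun δ => by
    rw [← residue_eq_zero_iff, map_sub, map_one,
      Glue.residue_diaA X.heckeTop natCast_mem_max isPGroup_diaGroup, sub_self]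

/-- Power series to the algebra. -/
def dia : DiaSeries R O →ₐ[O] X.Alg := X.exists_dia.choose

omit hj in
theorem dia_X (i : Fin R) : X.dia (MvPowerSeries.X i) = diaA X.heckeTop (diaGen i) - 1 :=
  X.exists_dia.choose_spec i

instance instModuleSeries : Module (DiaSeries R O) (X.LMod hj) :=
  Module.compHom (X.LMod hj) X.dia.toRingHom

theorem series_smul (f : DiaSeries R O) (x : X.LMod hj) : f • x = X.dia f • x := rfl

instance : SMulCommClass X.Alg (DiaSeries R O) (X.LMod hj) := ⟨fun a f x => by
  rw [series_smul, series_smul, smul_comm]⟩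

theorem series_C_smul (c : O) (x : X.LMod hj) :
    (MvPowerSeries.C c : DiaSeries R O) • x = c • x := by
  rw [series_smul, show (MvPowerSeries.C c : DiaSeries R O) = algebraMap O (DiaSeries R O) c from rfl,
    AlgHom.commutes, algebraMap_smul]

/-- The basis. -/
def lbas : Fin (X.rk hj) → X.LMod hj := X.bas hj

theorem lbas_bijective :
    Function.Bijective fun c : Fin (X.rk hj) × DiaGroup p R n →₀ O =>
      c.sum fun iq x => x • diaA X.heckeTop iq.2 • X.lbas hj iq.1 := by
  have e : (fun c : Fin (X.rk hj) × DiaGroup p R n →₀ O =>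
      c.sum fun iq x => x • diaA X.heckeTop iq.2 • X.lbas hj iq.1) = fun c =>
      (c.sum fun iq x =>
        x • opDia O X.S (X.psi j) (X.locAt hj) (X.psi_surjective hj) iq.2 (X.bas hj iq.1) :
        X.modL hj) :=
    funext fun c => Finsupp.sum_congr fun iq _ => congrArg (c iq • ·) (X.diaA_smul hj iq.2 _)
  rw [e]
  exact X.bas_bijective hj

theorem exists_span_series (x : X.LMod hj) :
    ∃ c : Fin (X.rk hj) → DiaSeries R O, x = ∑ i, c i • X.lbas hj i :=
  exists_span X.dia_X (X.lbas_bijective hj) x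

theorem kill_series {f : DiaSeries R O}
    (hf : f ∈ Assembly.levelIdeal (ι := Fin R) O p n) (x : X.LMod hj) : f • x = 0 := by
  rw [series_smul, eval_levelIdeal X.dia_X hf, zero_smul]

theorem indep_series (c : Fin (X.rk hj) → DiaSeries R O) (hc : ∑ i, c i • X.lbas hj i = 0) :
    ∀ i, c i ∈ Assembly.levelIdeal (ι := Fin R) O p n :=
  indep_levelIdeal X.dia_X (X.lbas_bijective hj) natCast_mem_max c hc

/-! ### The base -/

/-- Corestriction to `Γ₀`. -/
def cores : X.LMod hj →ₗ[O] X.baseL hj :=
  haveI := Fintype.ofFinite ((ZMod (X.lvl j))ˣ ⧸ X.K j)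
  { toFun := fun x => ⟨coresLin X.S (X.K j) O (x : X.modL hj).1, by
      rw [mem_localPart, ← map_smul]
      exact congrArg _ (mem_localPart.1 (x : X.modL hj).2)⟩
    map_add' := fun x y => Subtype.ext
      (map_add (coresLin X.S (X.K j) O) (x : X.modL hj).1 (y : X.modL hj).1)
    map_smul' := fun c x => Subtype.ext
      (LinearMap.map_smul_of_tower (coresLin X.S (X.K j) O) c (x : X.modL hj).1) }

omit [Finite (ResidueField O)] [CharZero O] [CharP (ResidueField O) p] in
theorem coe_cores (x : X.LMod hj) [inst : Fintype ((ZMod (X.lvl j))ˣ ⧸ X.K j)] :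
    (X.cores hj x).1 = coresLin X.S (X.K j) O (x : X.modL hj).1 := by
  obtain rfl : inst = Fintype.ofFinite _ := Subsingleton.elim _ _
  rfl

theorem cores_toAlg (a : OpRing O X.top X.S) (x : X.LMod hj) :
    (X.cores hj (X.toAlg a • x)).1 = opTo O X.S (X.lvl_dvd hj) a • (X.cores hj x).1 := by
  have := Fintype.ofFinite ((ZMod (X.lvl j))ˣ ⧸ X.K j)
  rw [coe_cores, coe_cores, coe_toAlg_smul, map_smul]

theorem cores_dia (δ : DiaGroup p R n) (x : X.LMod hj) :
    X.cores hj (diaA X.heckeTop δ • x) = X.cores hj x := by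
  obtain ⟨u, rfl⟩ := X.psi_surjective (le_refl F.t) δ
  refine Subtype.ext ?_
  rw [← X.toAlg_inl, cores_toAlg, opTo, MvPolynomial.rename_X]
  show (MvPolynomial.X (Sum.inl _) : OpRing O (X.lvl j) X.S) • _ = _
  rw [X_inl_smul]
  exact diamond_top O _ _

omit [Finite (ResidueField O)] in
theorem cores_surjective : Function.Surjective (X.cores hj) := by
  have := Fintype.ofFinite ((ZMod (X.lvl j))ˣ ⧸ X.K j)
  intro y
  have h2 : IsUnit (2 : O) := by
    exact_mod_cast isUnit_natCast (O := O) (p := p) (n := 2) fun h =>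
      (Fact.out : p ≠ 2) ((Nat.prime_dvd_prime_iff_eq Fact.out Nat.prime_two).1 h)
  obtain ⟨z, hz⟩ := coresTop_surjective_of_noThree (R := O) (A := O) (K := X.K j) h2 X.neg_one_mem
    (fun a ha => (mul_eq_zero.1 (show (3 : O) * a = 0 by linear_combination ha)).resolve_left
      (by norm_num)) (toHomMod.symm y.1)
  have hC : coresLin X.S (X.K j) O (toHomMod z) = y.1 := congrArg toHomMod hz
  refine ⟨(⟨X.locAt hj • toHomMod z, (X.isLocalizer hj).smul_self_mem _⟩ : X.modL hj), Subtype.ext ?_⟩
  refine (X.coe_cores hj _).trans ?_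
  show coresLin X.S (X.K j) O (X.locAt hj • toHomMod z) = y.1
  rw [map_smul, hC]
  exact y.2

theorem mem_augment_iff (x : X.LMod hj) :
    x ∈ Ideal.span (Set.range fun k : Fin R => (MvPowerSeries.X k : DiaSeries R O)) •
      (⊤ : Submodule (DiaSeries R O) (X.LMod hj)) ↔ X.cores hj x = 0 :=
  mem_span_X_smul_iff X.dia_X (X.lbas_bijective hj) (X.cores hj) (X.cores_dia hj)
    (X.series_smul hj) (X.cores_surjective hj) rfl x

theorem mem_maximal_iff {ϖ : O} (hϖ : maximalIdeal O = Ideal.span {ϖ}) (x : X.LMod hj) :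
    x ∈ maximalIdeal (DiaSeries R O) • (⊤ : Submodule (DiaSeries R O) (X.LMod hj)) ↔
      ∃ y, X.cores hj x = ϖ • y :=
  mem_maximalIdeal_smul_iff X.dia_X (X.lbas_bijective hj) (X.cores hj) (X.cores_dia hj)
    (X.series_smul hj) (X.cores_surjective hj) rfl hϖ x

/-- **The action of the trace of inertia at an auxiliary prime.** -/
theorem tw_act (i : Fin R) (x : X.LMod hj) :
    ((1 : DiaSeries R O) + MvPowerSeries.X i) • (X.rhoT (X.sigma i)).trace • x =
      (((1 : DiaSeries R O) + MvPowerSeries.X i) ^ 2 + 1) • x := by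
  rw [series_smul, series_smul, smul_smul]
  congr 1
  simp only [map_add, map_pow, map_one, dia_X, trace_rhoT_sigma]
  have h : diaA X.heckeTop (diaGen i : DiaGroup p R n) *
      diaA X.heckeTop (diaGen i : DiaGroup p R n)⁻¹ = 1 := by
    rw [← map_mul, mul_inv_cancel, map_one]
  linear_combination h

end Aux

end Fermat.Agent.RT.Lift59.Levels

end
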