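import Fermat.Agent.RT.Glue.Approx
import Fermat.Agent.Deform.Residual

/-!
# The data of the levels

`Fixed` is the part independent of the auxiliary primes: a residual system occurring at level `L`,
primes `v 0, …, v (t - 1)` to be put in the level in this order and a representation over `O`
lifting the residual one. `Aux` is a set of auxiliary primes of depth `n`; the `j`-th level is
`L ∏ q ∏_{i < j} v i`.
-/

set_option autoImplicit false

noncomputable section

namespace Fermat.Agent.RT.Lift59.Levels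

open IsLocalRing
open GaloisReps (AbsGal)
open Fermat.Agent.Deform (M2 IsCont mapM matRes)

/-- The data independent of the auxiliary primes. -/
structure Fixed (O : Type) [CommRing O] [IsDomain O] [IsDiscreteValuationRing O] (p : ℕ) : Type 1 where
  L : ℕ
  t : ℕ
  v : ℕ → ℕ
  /-- Beyond `t` any primes. -/
  v_prime : ∀ i, (v i).Prime
  v_inj : ∀ i < t, ∀ j < t, v i = v j → i = j
  v_not_dvd : ∀ i < t, ¬ v i ∣ L
  L_sqf : Squarefree L
  ρbar : ResidualGaloisRep (ResidueField O)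
  habs : ρbar.IsAbsolutelyIrreducible
  abar : ℕ → ResidueField O
  congr : IsCongruentLevel (L * (∏ i ∈ Finset.range t, v i) * p).primeFactors abar L
  frob : Glue.HasCharpolys (L * (∏ i ∈ Finset.range t, v i) * p).primeFactors abar ρbar
  /-- Non-Eisenstein primes in every class `1 mod m`. -/
  eis : ∀ m : ℕ, m ≠ 0 → ∀ S : Finset ℕ, ∃ ℓ : ℕ, ℓ.Prime ∧ ℓ ∉ S ∧ (m : ℤ) ∣ (ℓ : ℤ) - 1 ∧
    abar ℓ ≠ 1 + (ℓ : ResidueField O)
  three : 5 ≤ p ∨ ∀ S : Finset ℕ, ∃ r : ℕ, r.Prime ∧ r % 3 = 2 ∧ r ∉ S ∧ abar r ≠ 0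
  rhoE : AbsGal →* M2 O
  cont : IsCont rhoE
  bb : Module.Basis (Fin 2) (ResidueField O) ρbar.V
  res : mapM (residue O) rhoE = matRes ρbar bb
  detE : (Deform.toRep rhoE cont).DetIsCyclotomic p
  unrE : ∀ ℓ : ℕ, ℓ.Prime → ¬ ℓ ∣ L * (∏ i ∈ Finset.range t, v i) * p →
    ∀ A : ValuationSubring (AlgebraicClosure ℚ), A.LiesOverPrime ℓ →
      ∀ σ ∈ A.inertiaSubgroupIn ℚ, rhoE σ = 1

namespace Fixed

variable {O : Type} [CommRing O] [IsDomain O] [IsDiscreteValuationRing O] {p : ℕ} (F : Fixed O p)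

/-- The level without auxiliary primes after `j` steps. -/
def base : ℕ → ℕ
  | 0 => F.L
  | j + 1 => base j * F.v j

/-- The primes of the level and `p`. -/
abbrev bad : ℕ := F.L * (∏ i ∈ Finset.range F.t, F.v i) * p

theorem base_eq (j : ℕ) : F.base j = F.L * ∏ i ∈ Finset.range j, F.v i := by
  induction j with
  | zero => simp [base]
  | succ j ih => rw [base, ih, Finset.prod_range_succ, mul_assoc]

theorem base_top_mul : F.base F.t * p = F.bad := by rw [F.base_eq]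

theorem base_dvd_base {j k : ℕ} (h : j ≤ k) : F.base j ∣ F.base k := by
  induction k, h using Nat.le_induction with
  | base => exact dvd_rfl
  | succ k _ ih => exact ih.trans (dvd_mul_right _ _)

theorem L_ne_zero : F.L ≠ 0 := F.L_sqf.ne_zero

theorem not_dvd_base {i j : ℕ} (hi : i < F.t) (h : j ≤ i) : ¬ F.v i ∣ F.base j := by
  induction j with
  | zero => exact F.v_not_dvd i hi
  | succ j ih =>
    intro hd
    rcases (F.v_prime i).dvd_mul.1 hd with h1 | h1
    · exact ih (by omega) h1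
    · exact (show i ≠ j by omega) (F.v_inj i hi j (by omega)
        ((Nat.prime_dvd_prime_iff_eq (F.v_prime i) (F.v_prime j)).1 h1))

theorem base_sqf {j : ℕ} (hj : j ≤ F.t) : Squarefree (F.base j) := by
  induction j with
  | zero => exact F.L_sqf
  | succ j ih =>
    exact (Nat.squarefree_mul ((F.v_prime j).coprime_iff_not_dvd.2
      (F.not_dvd_base hj le_rfl)).symm).2 ⟨ih (by omega), (F.v_prime j).prime.squarefree⟩

theorem v_dvd_base {i j : ℕ} (h : i < j) : F.v i ∣ F.base j :=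
  (dvd_mul_left _ _).trans (F.base_dvd_base (Nat.succ_le_of_lt h))

theorem bad_ne_zero [Fact p.Prime] : F.bad ≠ 0 := by
  rw [← F.base_top_mul]
  exact mul_ne_zero (F.base_sqf le_rfl).ne_zero (Fact.out : p.Prime).ne_zero

end Fixed

/-- Auxiliary primes of depth `n`. -/
structure Aux {O : Type} [CommRing O] [IsDomain O] [IsDiscreteValuationRing O] {p : ℕ} (F : Fixed O p) (R n : ℕ) :
    Type where
  q : Fin R → ℕ
  q_prime : ∀ i, (q i).Prime
  q_inj : Function.Injective q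
  q_not_dvd : ∀ i, ¬ q i ∣ F.L * (∏ j ∈ Finset.range F.t, F.v j) * p
  q_cong : ∀ i, p ^ n ∣ q i - 1
  q_reg : ∀ i, ∀ A : ValuationSubring (AlgebraicClosure ℚ), A.LiesOverPrime (q i) →
    ∀ σ : AbsGal, A.IsFrobeniusAt σ (q i) →
      LinearMap.trace (ResidueField O) _ (F.ρbar.ρ σ) ^ 2 ≠ ((q i : ResidueField O) + 1) ^ 2

namespace Aux

variable {O : Type} [CommRing O] [IsDomain O] [IsDiscreteValuationRing O] {p : ℕ} {F : Fixed O p} {R n : ℕ}
  (X : Aux F R n)

/-- The product of the auxiliary primes. -/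
abbrev prodQ : ℕ := ∏ i, X.q i

/-- The level after `j` steps. -/
def lvl : ℕ → ℕ
  | 0 => F.L * X.prodQ
  | j + 1 => lvl j * F.v j

theorem lvl_eq (j : ℕ) : X.lvl j = F.base j * X.prodQ := by
  induction j with
  | zero => rfl
  | succ j ih => rw [lvl, ih, Fixed.base]; ring

theorem lvl_dvd {j k : ℕ} (h : j ≤ k) : X.lvl j ∣ X.lvl k := by
  induction k, h using Nat.le_induction with
  | base => exact dvd_rfl
  | succ k _ ih => exact ih.trans (dvd_mul_right _ _)

theorem zero_dvd_lvl (j : ℕ) : X.lvl 0 ∣ X.lvl j := X.lvl_dvd (Nat.zero_le j)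

/-- The top level. -/
abbrev top : ℕ := X.lvl F.t

theorem q_dvd_prodQ (i : Fin R) : X.q i ∣ X.prodQ := Finset.dvd_prod_of_mem _ (Finset.mem_univ i)

theorem q_dvd_zero (i : Fin R) : X.q i ∣ X.lvl 0 := (X.q_dvd_prodQ i).mul_left _

theorem q_dvd_lvl (i : Fin R) (j : ℕ) : X.q i ∣ X.lvl j :=
  (X.q_dvd_zero i).trans (X.zero_dvd_lvl j)

theorem exists_eq_q {w : ℕ} (hw : w.Prime) (h : w ∣ X.prodQ) : ∃ i, w = X.q i := by
  obtain ⟨i, -, hi⟩ := (Prime.dvd_finsetProd_iff hw.prime _).1 h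
  exact ⟨i, (Nat.prime_dvd_prime_iff_eq hw (X.q_prime i)).1 hi⟩

theorem not_dvd_prodQ {w : ℕ} (hw : w.Prime) (h : w ∣ F.bad) : ¬ w ∣ X.prodQ := fun hq => by
  obtain ⟨i, rfl⟩ := X.exists_eq_q hw hq
  exact X.q_not_dvd i h

theorem not_dvd_lvl {i j : ℕ} (hi : i < F.t) (h : j ≤ i) : ¬ F.v i ∣ X.lvl j := fun hd => by
  rw [X.lvl_eq] at hd
  rcases (F.v_prime i).dvd_mul.1 hd with h1 | h1
  · exact F.not_dvd_base hi h h1
  · refine X.not_dvd_prodQ (F.v_prime i) ?_ h1
    rw [← F.base_top_mul]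
    exact dvd_mul_of_dvd_left (F.v_dvd_base hi) p

theorem prodQ_sqf : Squarefree X.prodQ := by
  refine Finset.squarefree_prod_of_pairwise_isCoprime (fun i _ j _ hij => ?_)
    fun i _ => (X.q_prime i).prime.squarefree
  exact Nat.coprime_iff_isRelPrime.1
    ((Nat.coprime_primes (X.q_prime i) (X.q_prime j)).2 fun h => hij (X.q_inj h))

theorem coprime_base (j : ℕ) (hj : j ≤ F.t) : (F.base j).Coprime X.prodQ := by
  refine Nat.Coprime.prod_right fun i _ => Nat.Coprime.symm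
    ((X.q_prime i).coprime_iff_not_dvd.2 fun h => X.q_not_dvd i ?_)
  show X.q i ∣ F.bad
  rw [← F.base_top_mul]
  exact dvd_mul_of_dvd_left (h.trans (F.base_dvd_base hj)) p

theorem lvl_sqf {j : ℕ} (hj : j ≤ F.t) : Squarefree (X.lvl j) := by
  rw [X.lvl_eq]
  exact (Nat.squarefree_mul (X.coprime_base j hj)).2 ⟨F.base_sqf hj, X.prodQ_sqf⟩

theorem lvl_ne_zero {j : ℕ} (hj : j ≤ F.t) : X.lvl j ≠ 0 := (X.lvl_sqf hj).ne_zero

instance (j : ℕ) : NeZero (X.lvl j) := ⟨by
  induction j with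
  | zero => exact X.lvl_ne_zero (Nat.zero_le _)
  | succ j ih => exact mul_ne_zero ih (F.v_prime j).ne_zero⟩

/-- The primes of the top level and `p`. -/
abbrev S : Finset ℕ := (X.top * p).primeFactors

variable [Fact p.Prime]

theorem top_mul_ne_zero : X.top * p ≠ 0 :=
  mul_ne_zero (X.lvl_ne_zero le_rfl) (Fact.out : p.Prime).ne_zero

theorem p_mem_S : p ∈ X.S :=
  Nat.mem_primeFactors.2 ⟨Fact.out, dvd_mul_left p _, X.top_mul_ne_zero⟩

theorem mem_S {w : ℕ} (hw : w.Prime) (h : w ∣ X.top) : w ∈ X.S :=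
  Nat.mem_primeFactors.2 ⟨hw, dvd_mul_of_dvd_left h p, X.top_mul_ne_zero⟩

theorem mem_S_of_dvd_lvl {w j : ℕ} (hw : w.Prime) (hj : j ≤ F.t) (h : w ∣ X.lvl j) : w ∈ X.S :=
  X.mem_S hw (h.trans (X.lvl_dvd hj))

theorem v_mem_S {i : ℕ} (hi : i < F.t) : F.v i ∈ X.S :=
  X.mem_S (F.v_prime i) ((dvd_mul_left _ _).trans (X.lvl_dvd (Nat.succ_le_of_lt hi)))

theorem bad_subset_S : F.bad.primeFactors ⊆ X.S :=
  Nat.primeFactors_mono
    (by rw [← F.base_top_mul, top, X.lvl_eq]; exact mul_dvd_mul_right (dvd_mul_right _ _) p)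
    X.top_mul_ne_zero

theorem frobS : Glue.HasCharpolys X.S F.abar F.ρbar := fun ℓ hℓ hS =>
  F.frob ℓ hℓ fun h => hS (X.bad_subset_S h)

end Aux

end Fermat.Agent.RT.Lift59.Levels

end
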