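import Fermat.Agent.RT.Lift59.Levels.Rep
import Fermat.Agent.RT.Assembly.Entries

/-!
# The ring of the levels

The algebra of the entries of the representation over the Hecke algebra of the top level paired
with the representation over `O`.
-/

set_option autoImplicit false

noncomputable section

namespace Fermat.Agent.RT.Lift59.Levels

open IsLocalRing
open GaloisReps (AbsGal)
open Fermat.Agent.Deform (M2 IsCont IsResAlg augment mapM entries corestrict)

variable {O : Type} [CommRing O] [IsDomain O] [IsDiscreteValuationRing O]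
  [IsAdicComplete (maximalIdeal O) O] [Finite (ResidueField O)] [CharZero O]
  {p : ℕ} [Fact p.Prime] [Fact (p ≠ 2)] [CharP (ResidueField O) p]
  {F : Fixed O p} {R n : ℕ} (X : Aux F R n)

namespace Aux

/-- Pairs with the same image in the residue field. -/
def fib : Subalgebra O (X.Alg × O) :=
  AlgHom.equalizer ((augment X.isResAlg).comp (AlgHom.fst O X.Alg O))
    ((Algebra.ofId O (ResidueField O)).comp (AlgHom.snd O X.Alg O))

theorem mem_fib {x : X.Alg × O} : x ∈ X.fib ↔ augment X.isResAlg x.1 = residue O x.2 := Iff.rfl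

theorem isUnit_fib (x : X.fib) (h : IsUnit x.1.2) : IsUnit x := by
  have hx := X.mem_fib.1 x.2
  have ha : IsUnit x.1.1 := by
    by_contra hna
    rw [(Deform.augment_eq_zero_iff _ _).2 hna, eq_comm, residue_eq_zero_iff] at hx
    exact hx h
  obtain ⟨u, hu⟩ := ha
  obtain ⟨c, hc⟩ := h
  have hmem : ((↑u⁻¹ : X.Alg), (↑c⁻¹ : O)) ∈ X.fib := by
    rw [mem_fib]
    refine left_inv_eq_right_inv (a := augment X.isResAlg u) ?_ ?_
    · rw [← map_mul, Units.inv_mul, map_one]
    · rw [hu, hx, ← hc, ← map_mul, Units.mul_inv, map_one]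
  exact IsUnit.of_mul_eq_one ⟨_, hmem⟩ (Subtype.ext (Prod.ext
    (by show x.1.1 * ↑u⁻¹ = 1; rw [← hu, Units.mul_inv])
    (by show x.1.2 * ↑c⁻¹ = 1; rw [← hc, Units.mul_inv])))

instance instCommRingFib : CommRing X.fib := inferInstance

instance instAlgebraFib : Algebra O X.fib := inferInstance

instance : Nontrivial X.fib :=
  ⟨0, 1, fun h => zero_ne_one (α := O) (congrArg (fun x : X.fib => x.1.2) h)⟩

instance : IsLocalRing X.fib :=
  IsLocalRing.of_isUnit_or_isUnit_one_sub_self fun x =>
    (IsLocalRing.isUnit_or_isUnit_one_sub_self x.1.2).imp (X.isUnit_fib x)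
      fun h => X.isUnit_fib _ h

instance : Module.Finite O X.fib :=
  haveI : IsNoetherian O (X.Alg × O) := isNoetherian_of_isNoetherianRing_of_finite O _
  Module.Finite.of_injective X.fib.val.toLinearMap Subtype.val_injective

theorem isResAlg_fib : IsResAlg O X.fib := by
  refine ⟨⟨fun o ho => ?_⟩, fun z => ?_⟩
  · exact ho.map ((AlgHom.snd O X.Alg O).comp X.fib.val)
  · obtain ⟨x, rfl⟩ := residue_surjective z
    refine ⟨x.1.2, ?_⟩
    show residue X.fib (algebraMap O X.fib x.1.2) = residue X.fib x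
    rw [eq_comm, ← sub_eq_zero, ← map_sub, residue_eq_zero_iff]
    intro hu
    have h2 := hu.map ((AlgHom.snd O X.Alg O).comp X.fib.val)
    rw [map_sub, AlgHom.commutes] at h2
    simp at h2

/-- The two representations together. -/
def pair : AbsGal →* M2 (X.Alg × O) where
  toFun σ := Matrix.of fun i j => (X.rhoT σ i j, F.rhoE σ i j)
  map_one' := by
    refine Matrix.ext fun i j => ?_
    simp only [map_one, Matrix.of_apply, Matrix.one_apply]
    split_ifs <;> rfl
  map_mul' σ τ := by
    refine Matrix.ext fun i j => ?_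
    simp [Matrix.mul_apply, Fin.sum_univ_two]

theorem pair_mem (σ : AbsGal) (i j : Fin 2) : X.pair σ i j ∈ X.fib :=
  X.mem_fib.2 (X.augment_rhoT σ i j)

/-- The representation over the pairs. -/
def repP : AbsGal →* M2 X.fib := corestrict X.fib X.pair X.pair_mem

theorem isCont_repP : IsCont X.repP := by
  intro k
  obtain ⟨ϖ, hϖ⟩ := IsDiscreteValuationRing.exists_irreducible O
  obtain ⟨m, hm⟩ := Assembly.exists_pow_le_map (O := O) (A := X.Alg)
  obtain ⟨L₁, hL₁, h₁⟩ := X.isCont_rhoT (m * (k + 1))
  obtain ⟨L₂, hL₂, h₂⟩ := F.cont (k + 1)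
  refine ⟨L₁ ⊔ L₂, inferInstance, fun σ hσ i j => ?_⟩
  set x : X.fib := X.repP σ i j - (1 : M2 X.fib) i j with hx
  have hx1 : (x : X.Alg × O).1 = X.rhoT σ i j - (1 : M2 X.Alg) i j := by
    rw [hx, Matrix.one_apply, Matrix.one_apply]
    split_ifs <;> rfl
  have hx2 : (x : X.Alg × O).2 = F.rhoE σ i j - (1 : M2 O) i j := by
    rw [hx, Matrix.one_apply, Matrix.one_apply]
    split_ifs <;> rfl
  have ha : (x : X.Alg × O).1 ∈ Ideal.span {algebraMap O X.Alg ϖ ^ (k + 1)} := by
    rw [hx1]
    have h := h₁ σ (fun y hy => hσ y (le_sup_left (b := L₂) hy)) i j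
    rw [pow_mul] at h
    have h' := Ideal.pow_right_mono hm (k + 1) h
    rwa [hϖ.maximalIdeal_eq, Ideal.map_span, Set.image_singleton, Ideal.span_singleton_pow] at h'
  have hc : (x : X.Alg × O).2 ∈ Ideal.span {ϖ ^ (k + 1)} := by
    rw [hx2, ← Ideal.span_singleton_pow, ← hϖ.maximalIdeal_eq]
    exact h₂ σ (fun y hy => hσ y (le_sup_right (a := L₁) hy)) i j
  obtain ⟨a, ha⟩ := Ideal.mem_span_singleton'.1 ha
  obtain ⟨c, hc⟩ := Ideal.mem_span_singleton'.1 hc
  have hmem : (algebraMap O X.Alg ϖ * a, ϖ * c) ∈ X.fib := by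
    rw [mem_fib, map_mul, map_mul, AlgHom.commutes, ResidueField.algebraMap_eq,
      (residue_eq_zero_iff ϖ).2 hϖ.not_isUnit, zero_mul, zero_mul]
  have he : x = algebraMap O X.fib ϖ ^ k * ⟨_, hmem⟩ := Subtype.ext <| Prod.ext
    (by
      show (x : X.Alg × O).1 = algebraMap O X.Alg ϖ ^ k * (algebraMap O X.Alg ϖ * a)
      rw [← ha, pow_succ]; ring)
    (by
      show (x : X.Alg × O).2 = ϖ ^ k * (ϖ * c)
      rw [← hc, pow_succ]; ring)
  show x ∈ maximalIdeal X.fib ^ k
  rw [he]
  refine Ideal.mul_mem_right _ _ (Ideal.pow_mem_pow ?_ k)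
  have := X.isResAlg_fib.isLocalHom
  exact map_nonunit (algebraMap O X.fib) ϖ hϖ.not_isUnit

/-- The subalgebra of the entries. -/
def ringSub : Subalgebra O X.fib := Algebra.adjoin O (entries X.repP)

/-- **The ring of the levels.** -/
def Ring : Type := X.ringSub

instance instCommRingRing : CommRing X.Ring := inferInstanceAs (CommRing X.ringSub)

instance instAlgebraRing : Algebra O X.Ring := inferInstanceAs (Algebra O X.ringSub)

instance : IsLocalRing X.ringSub := Assembly.isLocalRing_subalgebra X.ringSub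

instance : IsLocalRing X.Ring := Assembly.isLocalRing_subalgebra X.ringSub

/-- The inclusion. -/
def incl : X.Ring →ₐ[O] X.fib := X.ringSub.val

theorem incl_injective : Function.Injective X.incl := Subtype.val_injective

theorem range_incl : X.incl.range = X.ringSub := X.ringSub.range_val

instance : Module.Finite O X.Ring := Assembly.finite_subalgebra X.ringSub

theorem isResAlg_ring : IsResAlg O X.Ring := Assembly.isResAlg_subalgebra X.isResAlg_fib X.ringSub

instance : IsAdicComplete (maximalIdeal X.Ring) X.Ring :=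
  Assembly.isAdicComplete_subalgebra X.ringSub X.isResAlg_ring.isLocalHom

instance : IsNoetherianRing X.Ring := IsNoetherianRing.of_finite O X.Ring

/-- **The representation over the ring of the levels.** -/
def rep : AbsGal →* M2 X.Ring :=
  corestrict X.ringSub X.repP fun σ i j => Algebra.subset_adjoin ⟨(σ, i, j), rfl⟩

theorem isCont_rep : IsCont X.rep := Assembly.isCont_corestrict X.isResAlg_fib X.ringSub
  X.isCont_repP _

/-- To the algebra of the top level. -/
def pr : X.Ring →ₐ[O] X.Alg := (AlgHom.fst O X.Alg O).comp (X.fib.val.comp X.incl)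

/-- The point of the representation over `O`. -/
def eval : X.Ring →ₐ[O] O := (AlgHom.snd O X.Alg O).comp (X.fib.val.comp X.incl)

theorem ring_ext {a b : X.Ring} (h1 : X.pr a = X.pr b) (h2 : X.eval a = X.eval b) : a = b :=
  Subtype.ext (Subtype.ext (Prod.ext h1 h2))

theorem pr_rep : mapM (X.pr : X.Ring →+* X.Alg) X.rep = X.rhoT := rfl

theorem eval_rep : mapM (X.eval : X.Ring →+* O) X.rep = F.rhoE := rfl

theorem pr_trace (σ : AbsGal) : X.pr (X.rep σ).trace = (X.rhoT σ).trace := by
  rw [Matrix.trace_fin_two, map_add, Matrix.trace_fin_two]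
  rfl

theorem eval_trace (σ : AbsGal) : X.eval (X.rep σ).trace = (F.rhoE σ).trace := by
  rw [Matrix.trace_fin_two, map_add, Matrix.trace_fin_two]
  rfl

theorem augment_rep (σ : AbsGal) (i j : Fin 2) :
    augment X.isResAlg_ring (X.rep σ i j) = residue O (F.rhoE σ i j) := by
  have hl : IsLocalHom (X.pr : X.Ring →+* X.Alg) :=
    ⟨fun a ha => by
      have hu : IsUnit ((show X.ringSub from a) : X.fib) := X.isUnit_fib _ <| by
        by_contra hc
        have h0 := X.mem_fib.1 ((show X.ringSub from a) : X.fib).2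
        rw [(residue_eq_zero_iff _).2 hc, Deform.augment_eq_zero_iff] at h0
        exact h0 ha
      exact (Assembly.isLocalHom_subalgebra_val X.ringSub).map_nonunit a hu⟩
  rw [← Deform.augment_comp X.isResAlg_ring X.isResAlg X.pr hl]
  exact X.augment_rhoT σ i j

/-- The entries generate. -/
theorem adjoin_entries : Algebra.adjoin O (entries X.rep) = ⊤ := by
  refine (Subalgebra.map_injective (f := X.incl) X.incl_injective) ?_
  rw [AlgHom.map_adjoin, Algebra.map_top, range_incl]
  refine congrArg (Algebra.adjoin O) ?_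
  ext x
  simp only [Set.mem_image, entries, Set.mem_range]
  constructor
  · rintro ⟨_, ⟨q, rfl⟩, rfl⟩; exact ⟨q, rfl⟩
  · rintro ⟨q, rfl⟩; exact ⟨_, ⟨q, rfl⟩, rfl⟩

/-- The trace of inertia at an auxiliary prime. -/
def tw (i : Fin R) : X.Ring := (X.rep (X.sigma i)).trace

theorem eval_tw (i : Fin R) : X.eval (X.tw i) = 2 := by
  rw [tw, eval_trace, rhoE_sigma, Matrix.trace_one, Fintype.card_fin, Nat.cast_two]

end Aux

end Fermat.Agent.RT.Lift59.Levels

end
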