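import Fermat.Agent.RT.Lift59.Levels.Rel
import Fermat.Agent.RT.Lift59.Levels.Ring
import Fermat.Agent.RT.Lift.Flip

/-!
# The degeneracy maps between consecutive levels

They are linear over the ring of the levels and over power series, their reductions to `Γ₀` are
those of `Γ₀`, so Ihara's lemma gives injectivity and surjectivity modulo the maximal ideal, and
the composite is given by `v + 1` and the trace of Frobenius.
-/

set_option autoImplicit false

noncomputable section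

namespace Fermat.Agent.RT.Lift59.Levels

open IsLocalRing
open GaloisReps (AbsGal)
open Fermat.Agent.RT.Lift (liftSub)
open Fermat.Agent.RT.GammaH Fermat.Agent.RT.Level
open Fermat.Agent.LevelRaising (RaiseData AuxPrime levelM)

variable {O : Type} [CommRing O] [IsDomain O] [IsDiscreteValuationRing O]
  [IsAdicComplete (maximalIdeal O) O] [Finite (ResidueField O)] [CharZero O]
  {p : ℕ} [Fact p.Prime] [Fact (p ≠ 2)] [CharP (ResidueField O) p]

omit [IsAdicComplete (maximalIdeal O) O] [Finite (ResidueField O)] [CharZero O] [IsDomain O]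
  [IsDiscreteValuationRing O] in
theorem coresLin_castK {S : Finset ℕ} {M : ℕ} [NeZero M] {K K' : Subgroup (ZMod M)ˣ} (e : K = K')
    {i₁ : Fintype ((ZMod M)ˣ ⧸ K)} {i₂ : Fintype ((ZMod M)ˣ ⧸ K')} (x : HomMod O S K O) :
    coresLin S K' O (castK O S e x) = coresLin S K O x := by
  subst e
  obtain rfl : i₁ = i₂ := Subsingleton.elim _ _
  rfl

theorem prod_mem_maximal {S : Type} [CommRing S] [IsLocalRing S] {M : Type} [AddCommGroup M]
    [Module S M] {u : M × M} (h1 : u.1 ∈ maximalIdeal S • (⊤ : Submodule S M))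
    (h2 : u.2 ∈ maximalIdeal S • (⊤ : Submodule S M)) :
    u ∈ maximalIdeal S • (⊤ : Submodule S (M × M)) := by
  have hl := Submodule.mem_map_of_mem (f := LinearMap.inl S M M) h1
  have hr := Submodule.mem_map_of_mem (f := LinearMap.inr S M M) h2
  rw [Submodule.map_smul''] at hl hr
  have := add_mem (Submodule.smul_mono le_rfl le_top hl : LinearMap.inl S M M u.1 ∈
    maximalIdeal S • (⊤ : Submodule S (M × M))) (Submodule.smul_mono le_rfl le_top hr)
  simpa using this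

variable {F : Fixed O p} {R n : ℕ} (X : Aux F R n)

namespace Aux

/-! ### The action of the ring of the levels -/

variable {j : ℕ} (hj : j ≤ F.t)

instance instModuleRing : Module X.Ring (X.LMod hj) := Module.compHom (X.LMod hj) X.pr.toRingHom

theorem ring_smul (a : X.Ring) (x : X.LMod hj) : a • x = X.pr a • x := rfl

instance : SMulCommClass X.Ring (DiaSeries R O) (X.LMod hj) :=
  ⟨fun a f x => smul_comm (X.pr a) f x⟩

theorem ring_C_smul (c : O) (x : X.LMod hj) :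
    algebraMap O X.Ring c • x = (MvPowerSeries.C c : DiaSeries R O) • x := by
  rw [ring_smul, AlgHom.commutes, algebraMap_smul, series_C_smul]

theorem tw_smul (i : Fin R) (x : X.LMod hj) :
    ((1 : DiaSeries R O) + MvPowerSeries.X i) • X.tw i • x =
      (((1 : DiaSeries R O) + MvPowerSeries.X i) ^ 2 + 1) • x := by
  rw [ring_smul, tw, pr_trace]
  exact X.tw_act hj i x

/-! ### The maps -/

variable {i : ℕ} (hi : i < F.t)
include hi

omit [IsAdicComplete (maximalIdeal O) O] [Finite (ResidueField O)] [CharZero O]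
    [Fact (Nat.Prime p)] [Fact (p ≠ 2)] [CharP (ResidueField O) p] in
theorem raise : RaiseData (F.v i) (X.lvl i) := ⟨F.v_prime i, X.not_dvd_lvl hi le_rfl⟩

/-- The twist exponent. -/
abbrev kExp : ℕ := halfInvExp (DiaGroup p R n)

/-- The degeneracy map on all classes. -/
def degM : HomMod O X.S (X.K i) O × HomMod O X.S (X.K i) O →ₗ[O] HomMod O X.S (X.K (i + 1)) O :=
  degU O X.S (K₀ := X.psi0.ker) (X.raise hi) (X.zero_dvd_lvl i) (kExp (p := p) (R := R) (n := n))

/-- The transposed map on all classes. -/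
def degSM : HomMod O X.S (X.K (i + 1)) O →ₗ[O] HomMod O X.S (X.K i) O × HomMod O X.S (X.K i) O :=
  degStarU O X.S (K₀ := X.psi0.ker) (X.raise hi) (X.zero_dvd_lvl i)
    (kExp (p := p) (R := R) (n := n))

/-- The degeneracy map of `Γ₀`. -/
def degB : HomMod O X.S (⊤ : Subgroup (ZMod (X.lvl i))ˣ) O ×
    HomMod O X.S (⊤ : Subgroup (ZMod (X.lvl i))ˣ) O →ₗ[O]
      HomMod O X.S (⊤ : Subgroup (ZMod (X.lvl (i + 1)))ˣ) O :=
  Lift.degH O X.S (X.raise hi) (⊤ : Subgroup (ZMod (X.lvl i))ˣ) (kExp (p := p) (R := R) (n := n))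

/-- The transposed map of `Γ₀`. -/
def degSB : HomMod O X.S (⊤ : Subgroup (ZMod (X.lvl (i + 1)))ˣ) O →ₗ[O]
    HomMod O X.S (⊤ : Subgroup (ZMod (X.lvl i))ˣ) O ×
      HomMod O X.S (⊤ : Subgroup (ZMod (X.lvl i))ˣ) O :=
  Lift.degStarH O X.S (X.raise hi) (⊤ : Subgroup (ZMod (X.lvl i))ˣ)
    (kExp (p := p) (R := R) (n := n))

omit [Finite (ResidueField O)] [CharZero O] [CharP (ResidueField O) p] in
theorem lowerOp_locAt :
    Lift.lowerOp O (X.lvl i) (F.v i) X.S (X.locAt (show i + 1 ≤ F.t from hi)) = X.locAt hi.le :=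
  lowerOp_opTo (X.lvl_dvd hi) _

omit hi in
/-- The class of a vector. -/
abbrev rv (x : X.LMod hj) : HomMod O X.S (X.K j) O := (x : X.modL hj).1

omit [IsAdicComplete (maximalIdeal O) O] [Finite (ResidueField O)] [CharZero O]
    [CharP (ResidueField O) p] in
theorem degM_smul (b : OpRing O X.top X.S)
    (φ : HomMod O X.S (X.K i) O × HomMod O X.S (X.K i) O) :
    X.degM hi (opTo O X.S (X.lvl_dvd hi.le) b • φ) =
      opTo O X.S (X.lvl_dvd (show i + 1 ≤ F.t from hi)) b • X.degM hi φ :=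
  degU_smul (K₀ := X.psi0.ker) (X.raise hi) (X.zero_dvd_lvl i) (X.v_mem_S hi) _ (X.lvl_dvd hi) b φ

omit [IsAdicComplete (maximalIdeal O) O] [Finite (ResidueField O)] [CharZero O]
    [CharP (ResidueField O) p] in
theorem degSM_smul (b : OpRing O X.top X.S) (x : HomMod O X.S (X.K (i + 1)) O) :
    X.degSM hi (opTo O X.S (X.lvl_dvd (show i + 1 ≤ F.t from hi)) b • x) =
      opTo O X.S (X.lvl_dvd hi.le) b • X.degSM hi x :=
  degStarU_smul (K₀ := X.psi0.ker) (X.raise hi) (X.zero_dvd_lvl i) (X.v_mem_S hi) _ (X.lvl_dvd hi) b x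

omit [Finite (ResidueField O)] [CharZero O] [CharP (ResidueField O) p] in
theorem degM_mem (u : X.LMod hi.le × X.LMod hi.le) :
    X.degM hi (X.rv hi.le u.1, X.rv hi.le u.2) ∈ X.modL (show i + 1 ≤ F.t from hi) :=
  degU_mem_localPart (K₀ := X.psi0.ker) (X.raise hi) (X.zero_dvd_lvl i) (X.v_mem_S hi) _
    (X.lvl_dvd hi) (u.1 : X.modL hi.le).2 (u.2 : X.modL hi.le).2

omit [Finite (ResidueField O)] [CharZero O] [CharP (ResidueField O) p] in
theorem degSM_mem (x : X.LMod (show i + 1 ≤ F.t from hi)) :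
    (X.degSM hi (X.rv _ x)).1 ∈ X.modL hi.le ∧ (X.degSM hi (X.rv _ x)).2 ∈ X.modL hi.le :=
  degStarU_mem_localPart (K₀ := X.psi0.ker) (X.raise hi) (X.zero_dvd_lvl i) (X.v_mem_S hi) _
    (X.lvl_dvd hi) (x : X.modL (show i + 1 ≤ F.t from hi)).2

/-- The degeneracy map, over the algebra of the top level. -/
def degA : X.LMod hi.le × X.LMod hi.le →ₗ[X.Alg] X.LMod (show i + 1 ≤ F.t from hi) where
  toFun u := (⟨_, X.degM_mem hi u⟩ : X.modL (show i + 1 ≤ F.t from hi))
  map_add' u w := Subtype.ext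
    (map_add (X.degM hi) (X.rv _ u.1, X.rv _ u.2) (X.rv _ w.1, X.rv _ w.2))
  map_smul' a u := by
    obtain ⟨b, rfl⟩ := X.toAlg_surjective a
    refine Subtype.ext ?_
    refine Eq.trans ?_ (X.coe_toAlg_smul _ b _).symm
    show X.degM hi (X.rv hi.le (X.toAlg b • u.1), X.rv hi.le (X.toAlg b • u.2)) = _
    rw [show X.rv hi.le (X.toAlg b • u.1) = _ from X.coe_toAlg_smul hi.le b u.1,
      show X.rv hi.le (X.toAlg b • u.2) = _ from X.coe_toAlg_smul hi.le b u.2]
    exact X.degM_smul hi b (X.rv _ u.1, X.rv _ u.2)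

/-- The transposed map, over the algebra of the top level. -/
def degSA : X.LMod (show i + 1 ≤ F.t from hi) →ₗ[X.Alg] X.LMod hi.le × X.LMod hi.le where
  toFun x := ((⟨_, (X.degSM_mem hi x).1⟩ : X.modL hi.le),
    (⟨_, (X.degSM_mem hi x).2⟩ : X.modL hi.le))
  map_add' x y := Prod.ext
    (Subtype.ext (congrArg Prod.fst (map_add (X.degSM hi) (X.rv _ x) (X.rv _ y))))
    (Subtype.ext (congrArg Prod.snd (map_add (X.degSM hi) (X.rv _ x) (X.rv _ y))))
  map_smul' a x := by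
    obtain ⟨b, rfl⟩ := X.toAlg_surjective a
    have h := (congrArg (X.degSM hi) (X.coe_toAlg_smul _ b x)).trans (X.degSM_smul hi b (X.rv _ x))
    refine Prod.ext (Subtype.ext ?_) (Subtype.ext ?_)
    · let z : X.LMod hi.le := (⟨_, (X.degSM_mem hi x).1⟩ : X.modL hi.le)
      show _ = X.rv hi.le (X.toAlg b • z)
      rw [show X.rv hi.le (X.toAlg b • z) = _ from X.coe_toAlg_smul hi.le b z]
      exact congrArg Prod.fst h
    · let z : X.LMod hi.le := (⟨_, (X.degSM_mem hi x).2⟩ : X.modL hi.le)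
      show _ = X.rv hi.le (X.toAlg b • z)
      rw [show X.rv hi.le (X.toAlg b • z) = _ from X.coe_toAlg_smul hi.le b z]
      exact congrArg Prod.snd h

/-- **The degeneracy map.** -/
def deg : X.LMod hi.le × X.LMod hi.le →ₗ[X.Ring] X.LMod (show i + 1 ≤ F.t from hi) where
  toFun := X.degA hi
  map_add' := map_add _
  map_smul' a u := (X.degA hi).map_smul (X.pr a) u

/-- **The transposed degeneracy map.** -/
def degS : X.LMod (show i + 1 ≤ F.t from hi) →ₗ[X.Ring] X.LMod hi.le × X.LMod hi.le where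
  toFun := X.degSA hi
  map_add' := map_add _
  map_smul' a x := (X.degSA hi).map_smul (X.pr a) x

theorem rv_degS (x : X.LMod (show i + 1 ≤ F.t from hi)) :
    (X.rv _ (X.degS hi x).1, X.rv _ (X.degS hi x).2) = X.degSM hi (X.rv _ x) := rfl

theorem deg_smul (c : DiaSeries R O) (u : X.LMod hi.le × X.LMod hi.le) :
    X.deg hi (c • u) = c • X.deg hi u := (X.degA hi).map_smul (X.dia c) u

theorem degS_smul (c : DiaSeries R O) (x : X.LMod (show i + 1 ≤ F.t from hi)) :
    X.degS hi (c • x) = c • X.degS hi x := (X.degSA hi).map_smul (X.dia c) x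

omit [IsAdicComplete (maximalIdeal O) O] [Finite (ResidueField O)] [CharZero O]
    [CharP (ResidueField O) p] in
theorem degSM_degM [Fact (F.v i).Prime]
    (φ : HomMod O X.S (X.K i) O × HomMod O X.S (X.K i) O) :
    X.degSM hi (X.degM hi φ) =
      ((F.v i + 1) • φ.1 + toHomMod (Lift.symT (X.raise hi) O (X.K i)
        (kExp (p := p) (R := R) (n := n)) (toHomMod.symm φ.2)),
        toHomMod (Lift.symT (X.raise hi) O (X.K i)
          (kExp (p := p) (R := R) (n := n)) (toHomMod.symm φ.1)) + (F.v i + 1) • φ.2) := by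
  refine degStarU_degU (O := O) (S := X.S) (K₀ := X.psi0.ker) (X.raise hi) (X.zero_dvd_lvl i) ?_ φ
  show Lift.qUnit (X.raise hi) ^ (2 * kExp (p := p) (R := R) (n := n) + 1) ∈ X.K i
  rw [mem_K, map_pow, kExp, halfInvExp]
  obtain ⟨m, hm⟩ := odd_card_diaGroup (p := p) (R := R) (n := n) Fact.out
  rw [show 2 * ((Nat.card (DiaGroup p R n) - 1) / 2) + 1 = Nat.card (DiaGroup p R n) by omega,
    pow_card_eq_one']

/-- **The composite at a prime different from `p`.** -/
theorem degS_deg (hvp : F.v i ≠ p) {A : ValuationSubring (AlgebraicClosure ℚ)}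
    (hA : A.LiesOverPrime (F.v i)) {Fr : AbsGal} (hFr : A.IsFrobeniusAt Fr (F.v i)) :
    X.degS hi ∘ₗ X.deg hi =
      Lift.crossMap ((F.v i : X.Ring) + 1) (X.rep Fr).trace := by
  have : Fact (F.v i).Prime := ⟨F.v_prime i⟩
  refine LinearMap.ext fun u => ?_
  have hc : ∀ x : X.LMod hi.le, (((F.v i : X.Ring) + 1) • x : X.LMod hi.le) = (F.v i + 1) • x :=
    fun x => by rw [← Nat.cast_add_one, Nat.cast_smul_eq_nsmul]
  have hT : ∀ x : X.LMod hi.le, X.rv _ ((X.rep Fr).trace • x) =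
      toHomMod (Lift.symT (X.raise hi) O (X.K i) (kExp (p := p) (R := R) (n := n))
        (toHomMod.symm (X.rv _ x))) := fun x => by
    rw [ring_smul, pr_trace]
    exact X.trace_frob_act hi.le (X.raise hi) hvp hA hFr x
  rw [LinearMap.comp_apply, Lift.crossMap_apply, hc, hc]
  have h0 : (X.rv _ (X.degS hi (X.deg hi u)).1, X.rv _ (X.degS hi (X.deg hi u)).2) = _ :=
    (X.rv_degS hi _).trans (X.degSM_degM hi (X.rv _ u.1, X.rv _ u.2))
  rw [← hT, ← hT] at h0
  exact Prod.ext (Subtype.ext (congrArg Prod.fst h0)) (Subtype.ext (congrArg Prod.snd h0))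

/-! ### Reduction to `Γ₀` -/

theorem cores_deg (u : X.LMod hi.le × X.LMod hi.le) :
    (X.cores (show i + 1 ≤ F.t from hi) (X.deg hi u)).1 =
      X.degB hi ((X.cores hi.le u.1).1, (X.cores hi.le u.2).1) := by
  have : NeZero (X.lvl i * F.v i) := inferInstanceAs (NeZero (X.lvl (i + 1)))
  have : Fact (F.v i).Prime := ⟨F.v_prime i⟩
  have := Fintype.ofFinite ((ZMod (X.lvl i))ˣ ⧸ X.K i)
  have := Fintype.ofFinite ((ZMod (X.lvl (i + 1)))ˣ ⧸ X.K (i + 1))
  have iL : Fintype ((ZMod (X.lvl i * F.v i))ˣ ⧸ liftSub (F.v i) (X.K i)) := Fintype.ofFinite _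
  refine (X.coe_cores _ _).trans ?_
  rw [coe_cores, coe_cores]
  refine (coresLin_castK (O := O) (S := X.S) (M := X.lvl i * F.v i)
    (liftSub_kUp X.psi0.ker (X.zero_dvd_lvl i) (F.v i))
    (i₁ := iL)
    (Lift.degH O X.S (X.raise hi) (X.K i) (kExp (p := p) (R := R) (n := n))
      (X.rv _ u.1, X.rv _ u.2))).trans ?_
  have h1 := Lift.coresTop_degMap (X.raise hi) O (K := X.K i) (kExp (p := p) (R := R) (n := n))
    (toHomMod.symm (X.rv _ u.1), toHomMod.symm (X.rv _ u.2))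
  refine (Eq.trans ?_ (congrArg
    (fun z => (toHomMod (O := O) (S := X.S) (K := (⊤ : Subgroup (ZMod (X.lvl i * F.v i))ˣ))
      (A := O)) z) h1)).trans ?_
  · rfl
  · rfl

theorem cores_degS (x : X.LMod (show i + 1 ≤ F.t from hi)) :
    X.degSB hi (X.cores (show i + 1 ≤ F.t from hi) x).1 =
      ((X.cores hi.le (X.degS hi x).1).1, (X.cores hi.le (X.degS hi x).2).1) := by
  have : NeZero (X.lvl i * F.v i) := inferInstanceAs (NeZero (X.lvl (i + 1)))
  have : Fact (F.v i).Prime := ⟨F.v_prime i⟩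
  have := Fintype.ofFinite ((ZMod (X.lvl i))ˣ ⧸ X.K i)
  have := Fintype.ofFinite ((ZMod (X.lvl (i + 1)))ˣ ⧸ X.K (i + 1))
  have : Fintype ((ZMod (X.lvl i * F.v i))ˣ ⧸ liftSub (F.v i) (X.K i)) := Fintype.ofFinite _
  have : Fintype ((ZMod (X.lvl i * F.v i))ˣ ⧸ liftSub (F.v i) (kUp X.psi0.ker (X.zero_dvd_lvl i))) :=
    Fintype.ofFinite _
  have : Fintype ((ZMod (X.lvl i * F.v i))ˣ ⧸ kUp X.psi0.ker ((X.zero_dvd_lvl i).mul_right (F.v i))) :=
    Fintype.ofFinite _
  set z : HomMod O X.S (liftSub (F.v i) (X.K i)) O :=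
    (castK O X.S (M := X.lvl i * F.v i) (liftSub_kUp X.psi0.ker (X.zero_dvd_lvl i) (F.v i))).symm
      (X.rv _ x)
  have h1 : (X.cores (show i + 1 ≤ F.t from hi) x).1 = coresLin X.S (liftSub (F.v i) (X.K i)) O z :=
    (X.coe_cores _ _).trans (((coresLin_castK (O := O) (S := X.S) (M := X.lvl i * F.v i)
      (liftSub_kUp X.psi0.ker (X.zero_dvd_lvl i) (F.v i)) z).symm.trans
        (congrArg _ (LinearEquiv.apply_symm_apply _ _))).symm)
  rw [h1, coe_cores, coe_cores]
  exact Lift.degStar_coresTop (X.raise hi) O (K := X.K i) _ (toHomMod.symm z)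

omit [IsAdicComplete (maximalIdeal O) O] [Finite (ResidueField O)] [CharZero O] [Fact (p ≠ 2)]
    [CharP (ResidueField O) p] in
/-- A prime for Ihara's lemma. -/
theorem exists_auxPrime : ∃ ℓ : ℕ, AuxPrime (F.v i) (X.lvl i) ℓ ∧ ℓ ∉ X.S ∧
    F.abar ℓ ≠ 1 + (ℓ : ResidueField O) := by
  have hne : levelM (F.v i) (X.lvl i) * (X.lvl i * F.v i) ≠ 0 := by
    refine mul_ne_zero ?_ (NeZero.ne (X.lvl (i + 1)))
    unfold levelM
    split_ifs
    · exact NeZero.ne _
    · exact mul_ne_zero (pow_ne_zero _ two_ne_zero) (NeZero.ne _)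
  obtain ⟨ℓ, hℓ, hℓS, hd, hab⟩ := F.eis _ hne X.S
  rw [Nat.cast_mul] at hd
  exact ⟨ℓ, ⟨hℓ, fun h => hℓS (X.mem_S_of_dvd_lvl (j := i + 1) hℓ hi h),
    (dvd_mul_right _ _).trans hd, (dvd_mul_left _ _).trans hd⟩, hℓS, hab⟩

/-- **Ihara's lemma for the levels.** -/
theorem deg_inj (u : X.LMod hi.le × X.LMod hi.le)
    (hu : X.deg hi u ∈ maximalIdeal (DiaSeries R O) •
      (⊤ : Submodule (DiaSeries R O) (X.LMod (show i + 1 ≤ F.t from hi)))) :
    u ∈ maximalIdeal (DiaSeries R O) •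
      (⊤ : Submodule (DiaSeries R O) (X.LMod hi.le × X.LMod hi.le)) := by
  obtain ⟨ϖ, hϖ⟩ := IsDiscreteValuationRing.exists_irreducible O
  obtain ⟨ℓ, ha, hℓS, hab⟩ := X.exists_auxPrime hi
  have : NeZero (X.lvl i * F.v i) := inferInstanceAs (NeZero (X.lvl (i + 1)))
  have hlow := X.lowerOp_locAt hi
  obtain ⟨y, hy⟩ := (X.mem_maximal_iff _ hϖ.maximalIdeal_eq _).1 hu
  have h0 : X.degB hi ((X.cores hi.le u.1).1, (X.cores hi.le u.2).1) = ϖ • y.1 :=
    (X.cores_deg hi u).symm.trans (congrArg Subtype.val hy)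
  obtain ⟨χ, m1, m2, hχ⟩ := Lift.exists_eq_smul_of_degH (X.raise hi) ha Fact.out Fact.out hℓS hab hϖ
    (hlow.symm ▸ X.isLocalizer_top hi.le) (kExp (p := p) (R := R) (n := n))
    (φ := ((X.cores hi.le u.1).1, (X.cores hi.le u.2).1))
    (hlow.symm ▸ (X.cores hi.le u.1).2) (hlow.symm ▸ (X.cores hi.le u.2).2) h0
  have m1' : χ.1 ∈ X.baseL hi.le := by
    show χ.1 ∈ localPart O (X.locAt hi.le) _
    rw [← hlow]; exact m1
  have m2' : χ.2 ∈ X.baseL hi.le := by
    show χ.2 ∈ localPart O (X.locAt hi.le) _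
    rw [← hlow]; exact m2
  exact prod_mem_maximal
    ((X.mem_maximal_iff hi.le hϖ.maximalIdeal_eq _).2
      ⟨⟨χ.1, m1'⟩, Subtype.ext (congrArg Prod.fst hχ)⟩)
    ((X.mem_maximal_iff hi.le hϖ.maximalIdeal_eq _).2
      ⟨⟨χ.2, m2'⟩, Subtype.ext (congrArg Prod.snd hχ)⟩)

/-- **Surjectivity of the transposed map modulo the maximal ideal.** -/
theorem degS_surj (w : X.LMod hi.le × X.LMod hi.le) :
    ∃ x, X.degS hi x - w ∈ maximalIdeal (DiaSeries R O) •
      (⊤ : Submodule (DiaSeries R O) (X.LMod hi.le × X.LMod hi.le)) := by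
  obtain ⟨ϖ, hϖ⟩ := IsDiscreteValuationRing.exists_irreducible O
  obtain ⟨ℓ, ha, hℓS, hab⟩ := X.exists_auxPrime hi
  have : NeZero (X.lvl i * F.v i) := inferInstanceAs (NeZero (X.lvl (i + 1)))
  have hlow := X.lowerOp_locAt hi
  obtain ⟨x₀, hx₀, χ, m1, m2, hχ⟩ := Lift.exists_degStarH_sub_eq_smul (X.raise hi) ha Fact.out
    Fact.out hℓS hab hϖ (X.v_mem_S hi) (e := X.locAt (show i + 1 ≤ F.t from hi))
    (X.isLocalizer_top (show i + 1 ≤ F.t from hi)) (hlow.symm ▸ X.isLocalizer_top hi.le)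
    (kExp (p := p) (R := R) (n := n)) (w := ((X.cores hi.le w.1).1, (X.cores hi.le w.2).1))
    (hlow.symm ▸ (X.cores hi.le w.1).2) (hlow.symm ▸ (X.cores hi.le w.2).2)
  obtain ⟨x, hx⟩ := X.cores_surjective (show i + 1 ≤ F.t from hi) ⟨x₀, hx₀⟩
  refine ⟨x, ?_⟩
  have h1 := ((congrArg (X.degSB hi) (congrArg Subtype.val hx)).symm.trans (X.cores_degS hi x))
  have h2 : ((X.cores hi.le (X.degS hi x).1).1, (X.cores hi.le (X.degS hi x).2).1) -
      ((X.cores hi.le w.1).1, (X.cores hi.le w.2).1) = ϖ • χ := h1 ▸ hχ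
  have m1' : χ.1 ∈ X.baseL hi.le := by
    show χ.1 ∈ localPart O (X.locAt hi.le) _
    rw [← hlow]; exact m1
  have m2' : χ.2 ∈ X.baseL hi.le := by
    show χ.2 ∈ localPart O (X.locAt hi.le) _
    rw [← hlow]; exact m2
  exact prod_mem_maximal
    ((X.mem_maximal_iff hi.le hϖ.maximalIdeal_eq _).2
      ⟨⟨χ.1, m1'⟩, (map_sub _ _ _).trans (Subtype.ext (congrArg Prod.fst h2))⟩)
    ((X.mem_maximal_iff hi.le hϖ.maximalIdeal_eq _).2
      ⟨⟨χ.2, m2'⟩, (map_sub _ _ _).trans (Subtype.ext (congrArg Prod.snd h2))⟩)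

/-- The old classes do not fill the level of `Γ₀` modulo the maximal ideal. -/
def OldNotFull : Prop :=
  ∃ y : X.baseL (show i + 1 ≤ F.t from hi), ∀ ϖ : O, Irreducible ϖ →
    ∀ (χ : X.baseL hi.le × X.baseL hi.le) (z : X.baseL (show i + 1 ≤ F.t from hi)),
      y.1 - X.degB hi (χ.1.1, χ.2.1) ≠ ϖ • z.1

theorem exists_not_mem (h : X.OldNotFull hi) :
    ∃ x : X.LMod (show i + 1 ≤ F.t from hi), ∀ u, x - X.deg hi u ∉
      maximalIdeal (DiaSeries R O) •
        (⊤ : Submodule (DiaSeries R O) (X.LMod (show i + 1 ≤ F.t from hi))) := by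
  obtain ⟨y, hy⟩ := h
  obtain ⟨ϖ, hϖ⟩ := IsDiscreteValuationRing.exists_irreducible O
  obtain ⟨x, hx⟩ := X.cores_surjective _ y
  refine ⟨x, fun u hu => ?_⟩
  obtain ⟨z, hz⟩ := (X.mem_maximal_iff _ hϖ.maximalIdeal_eq _).1 hu
  rw [map_sub, hx] at hz
  refine hy ϖ hϖ (X.cores hi.le u.1, X.cores hi.le u.2) z ?_
  rw [← cores_deg]
  exact congrArg Subtype.val hz

end Aux

end Fermat.Agent.RT.Lift59.Levels

end
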