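import Fermat.Agent.RT.GammaH.Complex

/-!
# Operators vanishing at all systems of a localised module

The operators may include more Hecke operators than the ones cutting out the localisation. An
operator whose value is `0` at every parabolic eigenclass in the complex span of the localised
module kills that module, by semisimplicity.
-/

set_option autoImplicit false

noncomputable section

namespace Fermat.Agent.RT.Lift59.Levels

open MvPolynomial IsLocalRing
open Fermat.Agent.RT.GammaH
open ModularCurve.Period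

variable {O : Type} [CommRing O] {L : ℕ} {S S' : Finset ℕ} {K : Subgroup (ZMod L)ˣ}

variable (O L) in
/-- Operators away from `S` as operators away from a smaller set. -/
def extOp (h : S' ⊆ S) : OpRing O L S →ₐ[O] OpRing O L S' :=
  rename (Sum.map id fun ℓ : {ℓ : ℕ // ℓ.Prime ∧ ℓ ∉ S} => ⟨ℓ.1, ℓ.2.1, fun hc => ℓ.2.2 (h hc)⟩)

variable (O S S' K) in
/-- The same homomorphisms, for another set of operators. -/
def reSet (A : Type) [AddCommGroup A] [Module O A] :
    HomMod O S K A ≃ₗ[O] HomMod O S' K A :=
  toHomMod.symm.trans toHomMod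

theorem extOp_smul (h : S' ⊆ S) {A : Type} [AddCommGroup A] [Module O A] (a : OpRing O L S)
    (φ : HomMod O S K A) :
    extOp O L h a • reSet O S S' K A φ = reSet O S S' K A (a • φ) := by
  induction a using MvPolynomial.induction_on generalizing φ with
  | C c => rw [extOp, rename_C, ← algebraMap_eq, ← algebraMap_eq, algebraMap_smul, algebraMap_smul,
      map_smul]
  | add a b ha hb => rw [map_add, add_smul, add_smul, ha, hb, map_add]
  | mul_X a i ih =>
    rw [map_mul, mul_smul, mul_smul, ← ih]
    congr 1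
    rcases i with u | ℓ
    · simp only [extOp, rename_X, Sum.map_inl, id]
      rw [X_inl_smul, X_inl_smul]
      rfl
    · have : Fact ℓ.1.Prime := ⟨ℓ.2.1⟩
      simp only [extOp, rename_X, Sum.map_inr]
      rw [X_inr_smul, X_inr_smul]
      rfl

theorem reSet_mem (h : S' ⊆ S) {e : OpRing O L S} {x : HomMod O S K O}
    (hx : x ∈ localPart O e (HomMod O S K O)) :
    reSet O S S' K O x ∈ localPart O (extOp O L h e) (HomMod O S' K O) := by
  rw [mem_localPart, extOp_smul, mem_localPart.1 hx]

theorem exists_reSet_eq (h : S' ⊆ S) {e : OpRing O L S} {x : HomMod O S' K O}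
    (hx : x ∈ localPart O (extOp O L h e) (HomMod O S' K O)) :
    ∃ y ∈ localPart O e (HomMod O S K O), reSet O S S' K O y = x := by
  obtain ⟨y, rfl⟩ := (reSet O S S' K O).surjective x
  refine ⟨y, ?_, rfl⟩
  have h1 := mem_localPart.1 hx
  rw [extOp_smul] at h1
  exact (reSet O S S' K O).injective h1

variable [IsDomain O] [IsPrincipalIdealRing O] [IsLocalRing O] [Algebra O ℂ] [NeZero L]

omit [IsPrincipalIdealRing O] [IsDomain O] [IsLocalRing O] in
/-- **An operator vanishing at every system kills the localised module.** -/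
theorem smul_eq_zero_of_eigen (hinj : Function.Injective (algebraMap O ℂ)) (hneg : -1 ∈ K)
    (hL : Squarefree L) (hodd : Odd (Nat.card ((ZMod L)ˣ ⧸ K)))
    (hS : ∀ v : ℕ, v.Prime → v ∣ L → v ∈ S) {e P : OpRing O L S}
    (hP : ∀ x ∈ localPart O e (HomMod O S K O), P • x = 0 → x = 0)
    (hpar : ∀ φ : HomMod O S K ℂ, IsParabolicHom (gammaH L K) (toHomMod.symm (P • φ)))
    {a : OpRing O L S}
    (ha : ∀ (θ : OpRing O L S →ₐ[O] ℂ) (φ : HomC K), φ ≠ 0 →
      φ ∈ parabolicHoms ℂ (gammaH L K) ℂ → (∀ b, opC O S K b φ = θ b • φ) →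
      (∀ b, localAct O e (HomMod O S K O) b = 0 → θ b = 0) → θ a = 0)
    {x : HomMod O S K O} (hx : x ∈ localPart O e (HomMod O S K O)) : a • x = 0 := by
  classical
  have hfd := finiteDimensional_parabolicHoms (M := L) hneg
  set s : Set (HomC K) := (fun y => opC O S K P (toHomC y)) ''
    {y : HomMod O S K O | y ∈ localPart O e (HomMod O S K O)} with hs
  set W := Submodule.span ℂ s with hW
  have hWpar : W ≤ parabolicHoms ℂ (gammaH L K) ℂ := Submodule.span_le.2 <| by
    rintro _ ⟨y, -, rfl⟩
    exact hpar (toHomMod (toHomC y))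
  have hWinv : ∀ b : OpRing O L S, ∀ w ∈ W, opC O S K b w ∈ W := fun b w hw => by
    induction hw using Submodule.span_induction with
    | mem z hz =>
      obtain ⟨y, hy, rfl⟩ := hz
      refine Submodule.subset_span ⟨b • y, smul_mem_localPart (O := O) b hy, ?_⟩
      show opC O S K P (toHomC (b • y)) = opC O S K b (opC O S K P (toHomC y))
      rw [← toHomC_smul, ← toHomC_smul, ← toHomC_smul, smul_comm]
    | zero => rw [map_zero]; exact zero_mem _
    | add u v _ _ hu hv => rw [map_add]; exact add_mem hu hv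
    | smul c u _ hu => rw [map_smul]; exact Submodule.smul_mem _ c hu
  suffices h0 : W.map (opC O S K a) = ⊥ by
    have h1 : opC O S K a (opC O S K P (toHomC x)) = 0 := by
      have := Submodule.mem_map_of_mem (f := opC O S K a)
        (show opC O S K P (toHomC x) ∈ W from Submodule.subset_span ⟨x, hx, rfl⟩)
      rwa [h0, Submodule.mem_bot] at this
    rw [← toHomC_smul, ← toHomC_smul, smul_comm] at h1
    exact hP _ (smul_mem_localPart a hx) (toHomC_injective hinj (h1.trans (map_zero toHomC).symm))
  by_contra hne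
  set W₁ := W.map (opC O S K a) with hW₁
  have hW₁le : W₁ ≤ W := Submodule.map_le_iff_le_comap.2 fun w hw => hWinv a w hw
  have hW₁inv : ∀ b : OpRing O L S, ∀ w ∈ W₁, opC O S K b w ∈ W₁ := by
    rintro b _ ⟨w, hw, rfl⟩
    refine ⟨opC O S K b w, hWinv b w hw, ?_⟩
    rw [← Module.End.mul_apply, ← map_mul, mul_comm, map_mul, Module.End.mul_apply]
  obtain ⟨θ, v, hvW, hv, heig, hθ⟩ := exists_system hne hW₁inv hW₁le
  have hθa := ha θ v hv (hWpar (hW₁le hvW)) heig hθ
  obtain ⟨w, hw, hwv⟩ := hvW
  have h2 : opC O S K a (opC O S K a w) = 0 := by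
    rw [hwv, show opC O S K a v = θ a • v from heig a, hθa, zero_smul]
  have h3 : (opPar hneg a ^ 2) ⟨w, hWpar hw⟩ = 0 := by
    refine Subtype.ext ?_
    rw [← opPar_pow, coe_opPar, pow_two, map_mul, Module.End.mul_apply]
    exact h2
  have h4 := congrArg (Subtype.val (p := fun z => z ∈ parabolicHoms ℂ (gammaH L K) ℂ))
    (eq_zero_of_pow_apply (opPar_isSemisimple hneg hL (hasRoots_of_odd hodd) hS a) h3)
  rw [coe_opPar] at h4
  exact hv (hwv.symm.trans h4)

end Fermat.Agent.RT.Lift59.Levels

end
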