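import Fermat.Agent.RT.Lift.OldRoot
import Fermat.Agent.RT.Lift.Bound
import Fermat.Agent.GaloisReps.Characters
import Fermat.Agent.IntegralStructure.Main

/-!
# Separating finitely many systems of eigenforms

The prime coefficients of the eigenforms of a level form a finite set stable under endomorphisms of
`ℂ`. A polynomial in them with coefficients in `O` vanishes at finitely many systems and is a
nonzero constant at finitely many others, none of which is a conjugate of one of the first.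
-/

set_option autoImplicit false

noncomputable section

open CongruenceSubgroup ModularFormClass

namespace Fermat.Agent.RT.Lift59.Levels

open GaloisReps (FullHecke)

/-- The coefficients at primes. -/
def primeCoeff {N : ℕ} (f : CuspForm (Gamma0 N) 2) : ℕ → ℂ := fun ℓ =>
  if ℓ.Prime then qCoeff f ℓ else 0

theorem primeCoeff_prime {N : ℕ} (f : CuspForm (Gamma0 N) 2) {ℓ : ℕ} (hℓ : ℓ.Prime) :
    primeCoeff f ℓ = qCoeff f ℓ := if_pos hℓ

/-- The systems of the normalised eigenforms of a level. -/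
def eigenSys (N : ℕ) : Set (ℕ → ℂ) :=
  {a | ∃ f : CuspForm (Gamma0 N) 2, f.IsNormalizedEigenform ∧ primeCoeff f = a}

theorem finite_fullHecke_hom (N : ℕ) [NeZero N] : Finite (FullHecke N →+* ℂ) := by
  have : Module.Finite ℤ (FullHecke N) := IntegralStructure.heckeAlgebra_finite N 2 ∅
  obtain ⟨r, s, hs⟩ := Module.Finite.exists_fin (R := ℤ) (M := FullHecke N)
  have hint : ∀ i, ∃ P : Polynomial ℤ, P.Monic ∧ Polynomial.aeval (s i) P = 0 := fun i =>
    Algebra.IsIntegral.isIntegral (R := ℤ) (s i)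
  choose P hP hP0 using hint
  have hmem : ∀ (θ : FullHecke N →+* ℂ) i, θ (s i) ∈ (P i).rootSet ℂ := fun θ i => by
    rw [Polynomial.mem_rootSet]
    refine ⟨(hP i).ne_zero, ?_⟩
    rw [show θ (s i) = θ.toIntAlgHom (s i) from rfl, Polynomial.aeval_algHom_apply, hP0, map_zero]
  refine Finite.of_injective
    (fun θ (i : Fin r) => (⟨θ (s i), hmem θ i⟩ : (P i).rootSet ℂ)) fun θ θ' h => ?_
  refine RingHom.ext fun x => ?_
  have hx : x ∈ Submodule.span ℤ (Set.range s) := hs ▸ Submodule.mem_top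
  induction hx using Submodule.span_induction with
  | mem y hy => obtain ⟨i, rfl⟩ := hy; exact congrArg Subtype.val (congrFun h i)
  | zero => rw [map_zero, map_zero]
  | add y z _ _ hy hz => rw [map_add, map_add, hy, hz]
  | smul c y _ hy => rw [map_zsmul, map_zsmul, hy]

theorem finite_eigenSys (N : ℕ) [NeZero N] : (eigenSys N).Finite := by
  have := finite_fullHecke_hom N
  refine (Set.finite_range fun (θ : FullHecke N →+* ℂ) (ℓ : ℕ) =>
    if hℓ : ℓ.Prime then θ (HeckeDuality.heckeOp N 2 ℓ hℓ) else 0).subset ?_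
  rintro a ⟨f, hf, rfl⟩
  obtain ⟨θ, hθ⟩ := GaloisReps.exists_eigenform_character hf
  refine ⟨(integralClosure ℤ ℂ).val.toRingHom.comp θ, funext fun ℓ => ?_⟩
  by_cases hℓ : ℓ.Prime
  · rw [primeCoeff_prime f hℓ]
    simp only [dif_pos hℓ]
    exact hθ ℓ hℓ
  · simp only [dif_neg hℓ, primeCoeff, if_neg hℓ]

theorem isIntegral_eigenSys {N : ℕ} [NeZero N] {a : ℕ → ℂ} (ha : a ∈ eigenSys N) (ℓ : ℕ) :
    IsIntegral ℤ (a ℓ) := by
  obtain ⟨f, hf, rfl⟩ := ha
  unfold primeCoeff
  split_ifs with hℓ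
  · obtain ⟨θ, hθ⟩ := GaloisReps.exists_eigenform_character hf
    rw [← hθ ℓ hℓ]
    exact (θ _).2
  · exact isIntegral_zero

/-- Conjugates of eigenforms are eigenforms. -/
theorem conj_mem_eigenSys {N : ℕ} [NeZero N] (σ : ℂ →+* ℂ) {a : ℕ → ℂ} (ha : a ∈ eigenSys N) :
    (fun ℓ => σ (a ℓ)) ∈ eigenSys N := by
  obtain ⟨f, hf, rfl⟩ := ha
  obtain ⟨g, hg⟩ := IntegralStructure.exists_conj_cuspForm σ f
  have hc : ∀ n, qCoeff g n = σ (qCoeff f n) := fun n => by
    simp only [qCoeff, hg, PowerSeries.coeff_map]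
  refine ⟨g, ⟨?_, fun m n h => ?_, fun p r hp h => ?_, fun p r hp h => ?_⟩, funext fun ℓ => ?_⟩
  · rw [hc, hf.qCoeff_one, map_one]
  · rw [hc, hc, hc, hf.qCoeff_mul_of_coprime m n h, map_mul]
  · rw [hc, hc, hc, hc, hf.qCoeff_prime_pow_of_not_dvd p r hp h, map_sub, map_mul, map_mul,
      map_natCast]
  · rw [hc, hc, hc, hf.qCoeff_prime_pow_of_dvd p r hp h, map_mul]
  · unfold primeCoeff
    split_ifs
    · exact hc ℓ
    · exact (map_zero σ).symm

/-- A system with `a_v ^ 2 = 1` at a level `v R` and a conjugate of it differ from every system of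
level `R` at a prime outside any finite set. -/
theorem exists_ne_of_new {R v : ℕ} [NeZero R] (hv : v.Prime) (hvR : ¬ v ∣ R) {a b : ℕ → ℂ}
    (ha : a ∈ eigenSys (R * v)) (hav : a v ^ 2 = 1) (hb : b ∈ eigenSys R) (σ : ℂ →+* ℂ)
    (T : Finset ℕ) : ∃ ℓ : ℕ, ℓ.Prime ∧ ℓ ∉ T ∧ σ (a ℓ) ≠ b ℓ := by
  by_contra! hall
  have : NeZero (R * v) := ⟨mul_ne_zero (NeZero.ne R) hv.ne_zero⟩
  have : NeZero (v * R) := ⟨mul_ne_zero hv.ne_zero (NeZero.ne R)⟩
  have hσ := conj_mem_eigenSys σ ha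
  rw [mul_comm] at hσ
  obtain ⟨f, hf, hfa⟩ := hσ
  obtain ⟨g, hg, rfl⟩ := hb
  have hfv : qCoeff f v = σ (a v) := by
    rw [← primeCoeff_prime f hv, hfa]
  have heq : ∀ ℓ : ℕ, ℓ.Prime → ℓ ∉ T → qCoeff g ℓ = qCoeff f ℓ := fun ℓ hℓ hℓT => by
    rw [← primeCoeff_prime g hℓ, ← primeCoeff_prime f hℓ, hfa]
    exact (hall ℓ hℓ hℓT).symm
  have hroot := Lift.qCoeff_root_of_old hv hvR dvd_rfl hf hg T heq
  have h1 : qCoeff f v ^ 2 = 1 := by rw [hfv, ← map_pow, hav, map_one]
  rcases sq_eq_one_iff.1 h1 with h1 | h1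
  · exact GammaH.qCoeff_ne_mul_succ hv hvR hg (Or.inl rfl)
      (by rw [h1] at hroot; linear_combination -hroot)
  · exact GammaH.qCoeff_ne_mul_succ hv hvR hg (Or.inr rfl)
      (by rw [h1] at hroot; linear_combination hroot)

/-! ### Polynomials separating systems -/

variable {O : Type} [CommRing O] [IsDomain O] [Algebra O ℂ]

/-- `O[x]` has a polynomial with nonzero constant term vanishing at finitely many nonzero integral
elements. -/
theorem exists_poly_vanishing {ι : Type} (s : Finset ι) (y : ι → ℂ)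
    (hy : ∀ i ∈ s, y i ≠ 0 ∧ IsIntegral O (y i)) :
    ∃ g : Polynomial O, g.coeff 0 ≠ 0 ∧ ∀ i ∈ s, Polynomial.aeval (y i) g = 0 := by
  classical
  induction s using Finset.induction_on with
  | empty => exact ⟨1, by simp, by simp⟩
  | insert i s hi ih =>
    obtain ⟨g, hg, hgs⟩ := ih fun j hj => hy j (Finset.mem_insert_of_mem hj)
    obtain ⟨hne, hint⟩ := hy i (Finset.mem_insert_self i s)
    obtain ⟨q, hq, hqy⟩ := hint.isAlgebraic.exists_nonzero_coeff_and_aeval_eq_zero
      (mem_nonZeroDivisors_of_ne_zero hne)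
    refine ⟨q * g, ?_, fun j hj => ?_⟩
    · rw [Polynomial.mul_coeff_zero]; exact mul_ne_zero hq hg
    · rw [map_mul]
      rcases Finset.mem_insert.1 hj with rfl | hj
      · rw [hqy, zero_mul]
      · rw [hgs j hj, mul_zero]

/-- `ℂ`, as the target of a second embedding. -/
def CxTwin : Type := ℂ

instance : Field CxTwin := inferInstanceAs (Field ℂ)

instance : IsAlgClosed CxTwin := inferInstanceAs (IsAlgClosed ℂ)

variable [Algebra.IsAlgebraic O ℂ] {P : Type}

omit [IsDomain O] [Algebra.IsAlgebraic O ℂ] in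
theorem isIntegral_eval {a : P → ℂ} (ha : ∀ i, IsIntegral O (a i)) (Q : MvPolynomial P O) :
    IsIntegral O (MvPolynomial.aeval a Q) := by
  have h : MvPolynomial.aeval a Q ∈ (MvPolynomial.aeval a).range := ⟨Q, rfl⟩
  rw [← Algebra.adjoin_range_eq_range_aeval] at h
  exact (Algebra.adjoin_le (S := integralClosure O ℂ) (Set.range_subset_iff.2 ha)) h

theorem exists_eval_ne (hinj : Function.Injective (algebraMap O ℂ)) {a b : P → ℂ}
    (ha : ∀ i, IsIntegral O (a i)) (hsep : ∀ σ : ℂ →ₐ[O] ℂ, ∃ i, σ (a i) ≠ b i) :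
    ¬ RingHom.ker (MvPolynomial.aeval (R := O) a : MvPolynomial P O →+* ℂ) ≤
      RingHom.ker (MvPolynomial.aeval (R := O) b : MvPolynomial P O →+* ℂ) := by
  intro hle
  let eA : MvPolynomial P O →ₐ[O] ℂ := MvPolynomial.aeval a
  let eB : MvPolynomial P O →ₐ[O] ℂ := MvPolynomial.aeval b
  have hI : ∀ x ∈ RingHom.ker eA, eB x = 0 := fun x hx => hle hx
  let τ : eA.range →ₐ[O] ℂ :=
    (Ideal.Quotient.liftₐ (RingHom.ker eA) eB hI).comp
      (Ideal.quotientKerEquivRange eA).symm.toAlgHom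
  have hτ : ∀ i, τ ⟨a i, ⟨MvPolynomial.X i, MvPolynomial.aeval_X _ _⟩⟩ = b i := fun i => by
    have h1 : (Ideal.quotientKerEquivRange eA).symm
        ⟨a i, ⟨MvPolynomial.X i, MvPolynomial.aeval_X _ _⟩⟩ =
          Ideal.Quotient.mk (RingHom.ker eA) (MvPolynomial.X i) := by
      rw [AlgEquiv.symm_apply_eq]
      exact Subtype.ext (MvPolynomial.aeval_X a i).symm
    show Ideal.Quotient.liftₐ (RingHom.ker eA) eB hI ((Ideal.quotientKerEquivRange eA).symm _) = b i
    rw [h1]
    exact MvPolynomial.aeval_X b i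
  have hrange : eA.range ≤ integralClosure O ℂ := by
    rintro _ ⟨P', rfl⟩
    exact isIntegral_eval ha P'
  have : Algebra.IsIntegral O eA.range :=
    ⟨fun x => (isIntegral_algHom_iff eA.range.val Subtype.val_injective).1 (hrange x.2)⟩
  have hker : Function.Injective τ := by
    refine (RingHom.injective_iff_ker_eq_bot (τ : eA.range →+* ℂ)).2 ?_
    have := RingHom.ker_isPrime (τ : eA.range →+* ℂ)
    refine Ideal.eq_bot_of_comap_eq_bot (R := O) ((Submodule.eq_bot_iff _).2 fun c hc => hinj ?_)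
    rw [map_zero, ← τ.commutes c]
    exact hc
  let : Algebra eA.range CxTwin := (show eA.range →+* CxTwin from τ.toRingHom).toAlgebra
  have : Module.IsTorsionFree eA.range CxTwin :=
    Module.isTorsionFree_iff_algebraMap_injective.2 hker
  have : Algebra.IsAlgebraic eA.range ℂ :=
    Algebra.IsAlgebraic.extendScalars (R := O) fun x y hxy => hinj (congrArg Subtype.val hxy)
  let L : ℂ →ₐ[eA.range] CxTwin := IsAlgClosed.lift
  let σ : ℂ →ₐ[O] ℂ :=
    { (show ℂ →+* ℂ from L.toRingHom) with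
      commutes' := fun c => by
        show L (algebraMap eA.range ℂ (algebraMap O eA.range c)) = _
        rw [AlgHom.commutes]
        exact τ.commutes c }
  obtain ⟨i, hi⟩ := hsep σ
  refine hi ?_
  rw [← hτ i]
  show L (algebraMap eA.range ℂ ⟨a i, ⟨MvPolynomial.X i, MvPolynomial.aeval_X _ _⟩⟩) = _
  rw [AlgHom.commutes]
  rfl

/-- **A polynomial vanishing at the first systems and constant on the second ones.** -/
theorem exists_separating (hinj : Function.Injective (algebraMap O ℂ)) (A B : Finset (P → ℂ))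
    (hA : ∀ a ∈ A, ∀ i, IsIntegral O (a i)) (hB : ∀ b ∈ B, ∀ i, IsIntegral O (b i))
    (hsep : ∀ a ∈ A, ∀ b ∈ B, ∀ σ : ℂ →ₐ[O] ℂ, ∃ i, σ (a i) ≠ b i) :
    ∃ (c : O) (Q : MvPolynomial P O), c ≠ 0 ∧
      (∀ a ∈ A, MvPolynomial.aeval a Q = 0) ∧
      ∀ b ∈ B, MvPolynomial.aeval b Q = algebraMap O ℂ c := by
  classical
  let kerOf : (P → ℂ) → Ideal (MvPolynomial P O) := fun a =>
    RingHom.ker (MvPolynomial.aeval (R := O) a : MvPolynomial P O →+* ℂ)
  obtain ⟨q, hqA, hqB⟩ : ∃ q ∈ A.inf kerOf, ∀ b ∈ B, q ∉ kerOf b := by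
    by_contra! hall
    have hsub : ((A.inf kerOf : Ideal _) : Set (MvPolynomial P O)) ⊆
        ⋃ b ∈ (B : Set (P → ℂ)), (kerOf b : Set (MvPolynomial P O)) := fun q hq => by
      obtain ⟨b, hb, hqb⟩ := hall q hq
      exact Set.mem_biUnion hb hqb
    rcases B.eq_empty_or_nonempty with rfl | ⟨b₀, hb₀⟩
    · simpa using hsub (zero_mem _)
    obtain ⟨b, hb, hle⟩ := (Ideal.subset_union_prime b₀ b₀
      fun b _ _ _ => RingHom.ker_isPrime _).1 hsub
    obtain ⟨a, ha, hab⟩ := (Ideal.IsPrime.inf_le' (RingHom.ker_isPrime _)).1 hle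
    exact exists_eval_ne hinj (hA a ha) (hsep a ha b hb) hab
  have hint : ∀ b ∈ B, IsIntegral O (MvPolynomial.aeval b q) := fun b hb =>
    isIntegral_eval (hB b hb) q
  obtain ⟨g, hg, hgB⟩ := exists_poly_vanishing B (fun b => MvPolynomial.aeval b q)
    fun b hb => ⟨hqB b hb, hint b hb⟩
  refine ⟨g.coeff 0, MvPolynomial.C (g.coeff 0) - Polynomial.aeval q g, hg, fun a ha => ?_,
    fun b hb => ?_⟩
  · have h0 : MvPolynomial.aeval a q = 0 := Finset.inf_le (f := kerOf) ha hqA
    rw [map_sub, ← Polynomial.aeval_algHom_apply, h0, MvPolynomial.aeval_C,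
      Polynomial.coeff_zero_eq_aeval_zero', sub_self]
  · rw [map_sub, ← Polynomial.aeval_algHom_apply, hgB b hb, sub_zero, MvPolynomial.aeval_C]

end Fermat.Agent.RT.Lift59.Levels

end
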