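import Fermat.Agent.RT.Assembly.LevelChar

/-!
# The character of a level of the lifting argument

`ψ : (ℤ/L)ˣ → (ℤ/p ^ n) ^ R` through the auxiliary primes only, normalised so that the
`halfInvExp`-power of the image of a generator at the `i`-th prime is the `i`-th generator.
-/

set_option autoImplicit false

noncomputable section

namespace Fermat.Agent.RT.Lift59.Levels

open Fermat.Agent.RT.Assembly
open scoped Classical

/-- The group of a level with `R` auxiliary primes of depth `n`. -/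
abbrev DiaGroup (p R n : ℕ) : Type := LevelGroup Empty p R n

variable {p R n : ℕ} [Fact p.Prime]

theorem isPGroup_diaGroup : IsPGroup p (DiaGroup p R n) := isPGroup_levelGroup p n

theorem odd_card_diaGroup (hp2 : p ≠ 2) : Odd (Nat.card (DiaGroup p R n)) := by
  rw [card_levelGroup]
  exact ((Fact.out : p.Prime).odd_of_ne_two hp2).pow

/-- The standard generator at the `i`-th auxiliary prime. -/
def diaGen (i : Fin R) : DiaGroup p R n := levelGen (V := Empty) p n (Sum.inr i)

theorem diaGroup_eq_prod (δ : DiaGroup p R n) :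
    δ = ∏ i, diaGen i ^ (δ.toAdd.2 i).val := by
  apply Multiplicative.toAdd.injective
  rw [toAdd_prod]
  refine Prod.ext (funext fun v => v.elim) (funext fun i => ?_)
  rw [Prod.snd_sum, Finset.sum_apply, Finset.sum_eq_single i]
  · rw [toAdd_pow, diaGen, levelGen, toAdd_ofAdd, Prod.smul_snd, Pi.smul_apply,
      show ((0 : Empty → ZMod p), (Pi.single i 1 : Fin R → ZMod (p ^ n))).2 = Pi.single i 1 from rfl,
      Pi.single_eq_same,
      nsmul_one, ZMod.natCast_zmod_val]
  · intro j _ hj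
    simp [diaGen, levelGen, nsmul_eq_mul, Pi.single_eq_of_ne hj.symm]
  · simp

theorem diaGen_pow_eq_one (i : Fin R) : (diaGen i : DiaGroup p R n) ^ p ^ n = 1 := by
  apply Multiplicative.toAdd.injective
  rw [toAdd_pow, toAdd_one]
  refine Prod.ext (funext fun v => v.elim) (funext fun j => ?_)
  show (p ^ n) • (Pi.single i 1 : Fin R → ZMod (p ^ n)) j = 0
  rw [nsmul_eq_mul, ZMod.natCast_self, zero_mul]

/-- An element inverting `halfInvExp` on the group. -/
theorem exists_halfInv (hp2 : p ≠ 2) :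
    ∃ c : ZMod (p ^ n), R = 0 ∨ (halfInvExp (DiaGroup p R n) : ZMod (p ^ n)) * c = 1 := by
  have hp : p.Prime := Fact.out
  rcases Nat.eq_zero_or_pos R with hR | hR
  · exact ⟨0, Or.inl hR⟩
  rcases Nat.eq_zero_or_pos n with hn | hn
  · subst hn
    exact ⟨0, Or.inr (Subsingleton.elim (α := ZMod (p ^ 0)) (h :=
      by rw [pow_zero]; infer_instance) _ _)⟩
  have hcp : (halfInvExp (DiaGroup p R n)).Coprime p := by
    rw [Nat.coprime_comm, hp.coprime_iff_not_dvd]
    intro h
    obtain ⟨k, hk⟩ : p ∣ Nat.card (DiaGroup p R n) := by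
      rw [card_levelGroup]
      refine dvd_pow_self p ?_
      have := Nat.mul_pos hn hR
      omega
    obtain ⟨t, ht⟩ := odd_card_diaGroup (p := p) (R := R) (n := n) hp2
    rw [halfInvExp, ht, Nat.add_sub_cancel, Nat.mul_div_cancel_left _ two_pos] at h
    have h1 : p ∣ 1 :=
      (Nat.dvd_add_right (dvd_mul_of_dvd_right h 2)).mp (ht ▸ ⟨k, hk⟩)
    exact hp.one_lt.ne' (Nat.dvd_one.mp h1)
  refine ⟨((ZMod.unitOfCoprime _ (hcp.pow_right n))⁻¹ : (ZMod (p ^ n))ˣ), Or.inr ?_⟩
  rw [← ZMod.coe_unitOfCoprime _ (hcp.pow_right n)]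
  exact Units.mul_inv _

/-- **The character of a level.** -/
theorem exists_psiQ (hp2 : p ≠ 2) {L : ℕ} (hL : Squarefree L) (q : Fin R → ℕ)
    (hq : ∀ i, (q i).Prime) (hinj : Function.Injective q) (hdvd : ∀ i, q i ∣ L)
    (hQ : ∀ i, p ^ n ∣ q i - 1) (a : ∀ i, (ZMod (q i))ˣ) (ha : ∀ i, orderOf (a i) = q i - 1) :
    ∃ ψ : (ZMod L)ˣ →* DiaGroup p R n, Function.Surjective ψ ∧
      (∀ i, ∀ u : (ZMod L)ˣ, ((u : ZMod L).cast : ZMod (L / q i)) = 1 →
        ZMod.unitsMap (hdvd i) u = a i →
          ψ u ^ halfInvExp (DiaGroup p R n) = diaGen i) ∧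
      ∀ u : (ZMod L)ˣ, (∀ i, ZMod.unitsMap (hdvd i) u = 1) → ψ u = 1 := by
  obtain ⟨c, hc⟩ := exists_halfInv (p := p) (R := R) (n := n) hp2
  have hf : ∀ i, ∃ f : (ZMod (q i))ˣ →* Multiplicative (ZMod (p ^ n)),
      f (a i) = Multiplicative.ofAdd c := fun i =>
    haveI : Fact (q i).Prime := ⟨hq i⟩
    exists_logHom (hQ i) (ha i) c
  choose f hfa using hf
  let ψ : (ZMod L)ˣ →* DiaGroup p R n :=
    { toFun := fun u => Multiplicative.ofAdd
        ((fun v : Empty => v.elim : Empty → ZMod p),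
          fun i => (f i (ZMod.unitsMap (hdvd i) u)).toAdd)
      map_one' := by
        refine (congrArg Multiplicative.ofAdd ?_).trans ofAdd_zero
        exact Prod.ext (funext fun v => v.elim) (funext fun i => by simp)
      map_mul' := fun u u' => by
        rw [← ofAdd_add]
        exact congrArg Multiplicative.ofAdd
          (Prod.ext (funext fun v => v.elim) (funext fun i => by simp)) }
  have hone : ∀ i j, i ≠ j → ∀ u : (ZMod L)ˣ, ((u : ZMod L).cast : ZMod (L / q j)) = 1 →
      ZMod.unitsMap (hdvd i) u = 1 := by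
    intro i j hij u hu
    have hd : q i ∣ L / q j := Nat.dvd_div_of_mul_dvd
      (((Nat.coprime_primes (hq j) (hq i)).mpr fun e => hij (hinj e).symm).mul_dvd_of_dvd_of_dvd
        (hdvd j) (hdvd i))
    have h1 : ZMod.unitsMap (Nat.div_dvd_of_dvd (hdvd j)) u = 1 :=
      Units.ext (by rw [ZMod.unitsMap_val]; exact hu)
    rw [← ZMod.unitsMap_comp hd (Nat.div_dvd_of_dvd (hdvd j)), MonoidHom.comp_apply, h1, map_one]
  have hgen : ∀ i, ∀ u : (ZMod L)ˣ, ((u : ZMod L).cast : ZMod (L / q i)) = 1 →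
      ZMod.unitsMap (hdvd i) u = a i →
        ψ u ^ halfInvExp (DiaGroup p R n) = diaGen i := by
    intro i u hu hua
    apply Multiplicative.toAdd.injective
    rw [toAdd_pow]
    refine Prod.ext (funext fun v => v.elim) (funext fun j => ?_)
    show halfInvExp (DiaGroup p R n) • (f j (ZMod.unitsMap (hdvd j) u)).toAdd =
      (Pi.single i 1 : Fin R → ZMod (p ^ n)) j
    rcases eq_or_ne j i with rfl | hji
    · rw [hua, hfa, toAdd_ofAdd, Pi.single_eq_same, nsmul_eq_mul]
      exact hc.resolve_left fun hR => (Fin.pos j).ne' hR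
    · rw [hone j i hji u hu, map_one, toAdd_one, smul_zero, Pi.single_eq_of_ne hji]
  refine ⟨ψ, fun δ => ?_, hgen, fun u hu => ?_⟩
  · have hmem : ∀ i, (diaGen i : DiaGroup p R n) ∈ MonoidHom.range ψ := fun i => by
      obtain ⟨u, hu, hua⟩ := exists_unit_crt (hdvd i)
        ((hq i).coprime_iff_not_dvd.mpr fun hd => (hq i).not_isUnit
          (hL _ ((Nat.dvd_div_iff_mul_dvd (hdvd i)).1 hd))) (a i)
      exact ⟨u ^ _, by rw [map_pow, hgen i u hu hua]⟩
    rw [diaGroup_eq_prod δ]
    exact Subgroup.prod_mem _ fun i _ => Subgroup.pow_mem _ (hmem i) _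
  · show Multiplicative.ofAdd _ = 1
    rw [← ofAdd_zero]
    exact congrArg _ (Prod.ext (funext fun v => v.elim) (funext fun i => by
      show (f i (ZMod.unitsMap (hdvd i) u)).toAdd = 0
      rw [hu i, map_one, toAdd_one]))

end Fermat.Agent.RT.Lift59.Levels

end
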