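import Fermat.Agent.RT.Lift.Local

/-!
# The levels between a base level and a top level

For `L₀ ∣ M ∣ T` the operators of level `T` act at level `M` through `opTo`, and the subgroup of
level `M` is the pull back `kUp K₀` of one at level `L₀`. One operator cuts out the localisations
at all levels, and an operator killing the localised module of level `M v` kills the one of level
`M`, as restriction is injective.
-/

set_option autoImplicit false

noncomputable section

namespace Fermat.Agent.RT.Lift59.Levels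

open IsLocalRing MvPolynomial
open Fermat.Agent.RT.GammaH Fermat.Agent.RT.Lift
open Fermat.Agent.LevelRaising (RaiseData)
open scoped MatrixGroups

variable {O : Type} [CommRing O] {S : Finset ℕ} {T M : ℕ}

variable (O S) in
/-- The operators of level `T` as operators of a level dividing `T`. -/
def opTo (hMT : M ∣ T) : OpRing O T S →ₐ[O] OpRing O M S :=
  rename (Sum.map (ZMod.unitsMap hMT) id)

theorem opTo_surjective [NeZero T] (hMT : M ∣ T) : Function.Surjective (opTo O S hMT) :=
  rename_surjective _ (Sum.map_surjective.2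
    ⟨ZMod.unitsMap_surjective hMT, Function.surjective_id⟩)

theorem opTo_self (a : OpRing O M S) : opTo O S (dvd_refl M) a = a := by
  have : Sum.map (ZMod.unitsMap (dvd_refl M)) id = (id : OpIdx M S → OpIdx M S) := by
    funext i
    rcases i with u | ℓ
    · show Sum.inl (ZMod.unitsMap (dvd_refl M) u) = _
      rw [ZMod.unitsMap_self]
      rfl
    · rfl
  rw [opTo, this, rename_id]
  rfl

theorem lowerOp_opTo {v : ℕ} (hT : M * v ∣ T) (a : OpRing O T S) :
    lowerOp O M v S (opTo O S hT a) = opTo O S ((dvd_mul_right M v).trans hT) a := by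
  rw [lowerOp, opTo, opTo, rename_rename]
  congr 2
  funext i
  rcases i with u | ℓ
  · show Sum.inl (((ZMod.unitsMap (dvd_mul_right M v)).comp (ZMod.unitsMap hT)) u) = _
    rw [ZMod.unitsMap_comp]
    rfl
  · rfl

section Residual

variable [IsLocalRing O] {abar : ℕ → ResidueField O}

theorem opRes_opTo (hMT : M ∣ T) (a : OpRing O T S) :
    opRes S abar M (opTo O S hMT a) = opRes S abar T a := by
  have : (opRes S abar M).comp (opTo O S hMT) = opRes S abar T :=
    MvPolynomial.algHom_ext fun i => by rcases i with u | ℓ <;> simp [opTo, opRes]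
  exact DFunLike.congr_fun this a

theorem opTo_mem_resIdeal (hMT : M ∣ T) {a : OpRing O T S} :
    opTo O S hMT a ∈ resIdeal S abar M ↔ a ∈ resIdeal S abar T := by
  rw [mem_resIdeal, mem_resIdeal, opRes_opTo]

variable [IsDomain O] [IsDiscreteValuationRing O] [IsAdicComplete (maximalIdeal O) O]

set_option linter.overlappingInstances false in
variable (S abar) in
/-- One operator cuts out the localisations of a finite family of levels. -/
theorem exists_isLocalizer_family [NeZero T] {κ : Type} [Fintype κ] (N : κ → ℕ)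
    (hN : ∀ i, N i ∣ T) (K : ∀ i, Subgroup (ZMod (N i))ˣ) :
    ∃ e : OpRing O T S,
      ∀ i, IsLocalizer (resIdeal S abar (N i)) (HomMod O S (K i) O) (opTo O S (hN i) e) := by
  classical
  have hne : ∀ i, NeZero (N i) := fun i => ⟨fun h0 => NeZero.ne T
    (Nat.eq_zero_of_zero_dvd (h0 ▸ hN i))⟩
  let : ∀ i, Module (OpRing O T S) (HomMod O S (K i) O) := fun i =>
    Module.compHom _ (opTo O S (hN i)).toRingHom
  have : ∀ i, IsScalarTower O (OpRing O T S) (HomMod O S (K i) O) := fun i => ⟨fun c a x => by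
    show opTo O S (hN i) (c • a) • x = c • (opTo O S (hN i) a • x)
    rw [map_smul, smul_assoc]⟩
  obtain ⟨e, he⟩ := exists_isLocalizer (O := O) (resIdeal S abar T) (∀ i, HomMod O S (K i) O)
  refine ⟨e, fun i => ?_⟩
  have hi : IsLocalizer (resIdeal S abar T) (HomMod O S (K i) O) e :=
    he.of_injective (LinearMap.single (OpRing O T S) (fun j => HomMod O S (K j) O) i)
      (fun a b hab => by simpa using congrFun hab i)
  refine ⟨?_, fun x => hi.idem x, fun t ht => ?_⟩
  · rw [← map_one (opTo O S (hN i)), ← map_sub, opTo_mem_resIdeal]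
    exact hi.sub_one_mem
  · obtain ⟨t, rfl⟩ := opTo_surjective (hN i) t
    obtain ⟨t', ht'⟩ := hi.invert t fun hc => ht ((opTo_mem_resIdeal (hN i)).2 hc)
    refine ⟨opTo O S (hN i) t', fun x => ?_⟩
    rw [← map_mul, ← map_mul]
    exact ht' x

end Residual

/-! ### The subgroups -/

variable {L₀ : ℕ}

/-- The pull back to level `M` of a subgroup of level `L₀`. -/
def kUp (K₀ : Subgroup (ZMod L₀)ˣ) (h : L₀ ∣ M) : Subgroup (ZMod M)ˣ :=
  K₀.comap (ZMod.unitsMap h)

theorem liftSub_kUp (K₀ : Subgroup (ZMod L₀)ˣ) (h : L₀ ∣ M) (v : ℕ) :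
    liftSub v (kUp K₀ h) = kUp K₀ (h.mul_right v) := by
  rw [liftSub, kUp, kUp, Subgroup.comap_comap, ZMod.unitsMap_comp]

variable (O S) in
/-- Transport along an equality of subgroups. -/
def castK {K K' : Subgroup (ZMod M)ˣ} (h : K = K') :
    HomMod O S K O ≃ₗ[OpRing O M S] HomMod O S K' O := by
  subst h; exact LinearEquiv.refl _ _

/-! ### Injectivity of restriction -/

theorem eq_zero_of_res_eq_zero {A : Type} [AddCommGroup A] [Module O A] [IsAddTorsionFree A]
    {Γ' Γ : Subgroup SL(2, ℤ)} [hfi : Γ'.FiniteIndex] (hle : Γ' ≤ Γ) {φ : Additive Γ →+ A}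
    (h : res O hle φ = 0) : φ = 0 := by
  refine AddMonoidHom.ext fun x => ?_
  obtain ⟨γ, rfl⟩ := Additive.ofMul.surjective x
  obtain ⟨k, hk, -, hmem⟩ := Subgroup.exists_pow_mem_of_index_ne_zero hfi.index_ne_zero (γ : SL(2, ℤ))
  have h0 := DFunLike.congr_fun h (Additive.ofMul ⟨_, hmem⟩)
  rw [res_apply, AddMonoidHom.zero_apply,
    show Subgroup.inclusion hle ⟨_, hmem⟩ = γ ^ k from Subtype.ext rfl, ofMul_pow, map_nsmul] at h0
  exact (smul_eq_zero.1 h0).resolve_left hk.ne'

/-! ### The degeneracy maps -/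

variable {K₀ : Subgroup (ZMod L₀)ˣ} {v : ℕ} (h : RaiseData v M) (h0 : L₀ ∣ M)

variable (O S) in
/-- The degeneracy map between the levels of a tower. -/
def degU (k : ℕ) :
    HomMod O S (kUp K₀ h0) O × HomMod O S (kUp K₀ h0) O →ₗ[O]
      HomMod O S (kUp K₀ (h0.mul_right v)) O :=
  ((castK O S (liftSub_kUp K₀ h0 v)).toLinearMap.restrictScalars O).comp
    (degH O S h (kUp K₀ h0) k)

variable (O S) in
/-- The transposed degeneracy map between the levels of a tower. -/
def degStarU (k : ℕ) :
    HomMod O S (kUp K₀ (h0.mul_right v)) O →ₗ[O]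
      HomMod O S (kUp K₀ h0) O × HomMod O S (kUp K₀ h0) O :=
  (degStarH O S h (kUp K₀ h0) k).comp
    ((castK O S (liftSub_kUp K₀ h0 v)).symm.toLinearMap.restrictScalars O)

theorem degU_smul (hv : v ∈ S) (k : ℕ) (hT : M * v ∣ T) (a : OpRing O T S)
    (φ : HomMod O S (kUp K₀ h0) O × HomMod O S (kUp K₀ h0) O) :
    degU O S h h0 k (opTo O S ((dvd_mul_right M v).trans hT) a • φ) =
      opTo O S hT a • degU O S h h0 k φ := by
  show castK O S _ (degH O S h _ k _) = opTo O S hT a • castK O S _ (degH O S h _ k φ)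
  rw [← lowerOp_opTo hT, degH_smul h hv, map_smul]

theorem degStarU_smul (hv : v ∈ S) (k : ℕ) (hT : M * v ∣ T) (a : OpRing O T S)
    (x : HomMod O S (kUp K₀ (h0.mul_right v)) O) :
    degStarU O S h h0 k (opTo O S hT a • x) =
      opTo O S ((dvd_mul_right M v).trans hT) a • degStarU O S h h0 k x := by
  show degStarH O S h _ k ((castK O S _).symm (opTo O S hT a • x)) = _
  rw [map_smul, degStarH_smul h hv, lowerOp_opTo hT]
  rfl

theorem degStarU_degU [Fact v.Prime] {k : ℕ} (hk : qUnit h ^ (2 * k + 1) ∈ kUp K₀ h0)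
    (φ : HomMod O S (kUp K₀ h0) O × HomMod O S (kUp K₀ h0) O) :
    degStarU O S h h0 k (degU O S h h0 k φ) =
      ((v + 1) • φ.1 + toHomMod (symT h O (kUp K₀ h0) k (toHomMod.symm φ.2)),
        toHomMod (symT h O (kUp K₀ h0) k (toHomMod.symm φ.1)) + (v + 1) • φ.2) := by
  show degStarH O S h _ k ((castK O S _).symm (castK O S _ (degH O S h _ k φ))) = _
  rw [LinearEquiv.symm_apply_apply]
  exact degStar_degMap h O hk φ

theorem degU_mem_localPart (hv : v ∈ S) (k : ℕ) (hT : M * v ∣ T) {e : OpRing O T S}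
    {φ : HomMod O S (kUp K₀ h0) O × HomMod O S (kUp K₀ h0) O}
    (h1 : φ.1 ∈ localPart O (opTo O S ((dvd_mul_right M v).trans hT) e) (HomMod O S (kUp K₀ h0) O))
    (h2 : φ.2 ∈ localPart O (opTo O S ((dvd_mul_right M v).trans hT) e) (HomMod O S (kUp K₀ h0) O)) :
    degU O S h h0 k φ ∈ localPart O (opTo O S hT e) (HomMod O S (kUp K₀ (h0.mul_right v)) O) := by
  rw [mem_localPart, ← degU_smul h h0 hv k hT]
  exact congrArg _ (Prod.ext h1 h2)

theorem degStarU_mem_localPart (hv : v ∈ S) (k : ℕ) (hT : M * v ∣ T) {e : OpRing O T S}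
    {x : HomMod O S (kUp K₀ (h0.mul_right v)) O}
    (hx : x ∈ localPart O (opTo O S hT e) (HomMod O S (kUp K₀ (h0.mul_right v)) O)) :
    (degStarU O S h h0 k x).1 ∈
        localPart O (opTo O S ((dvd_mul_right M v).trans hT) e) (HomMod O S (kUp K₀ h0) O) ∧
      (degStarU O S h h0 k x).2 ∈
        localPart O (opTo O S ((dvd_mul_right M v).trans hT) e) (HomMod O S (kUp K₀ h0) O) := by
  have h1 := degStarU_smul h h0 hv k hT e x
  rw [mem_localPart.1 hx] at h1
  exact ⟨(congrArg Prod.fst h1).symm, (congrArg Prod.snd h1).symm⟩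

theorem degU_fst_injective [IsAddTorsionFree O] [NeZero (M * v)] (k : ℕ)
    {φ : HomMod O S (kUp K₀ h0) O} (hφ : degU O S h h0 k (φ, 0) = 0) : φ = 0 := by
  have h1 : degH O S h (kUp K₀ h0) k (φ, 0) = 0 :=
    (castK O S (liftSub_kUp K₀ h0 v)).injective (hφ.trans (map_zero _).symm)
  refine eq_zero_of_res_eq_zero (O := O) (gammaH_lift_le (q := v) (K := kUp K₀ h0))
    (φ := toHomMod.symm φ) ?_
  rw [← resDeg_eq_res]
  have h2 : degMap h O (kUp K₀ h0) k (toHomMod.symm φ, 0) = 0 := h1
  rwa [degMap_apply, map_zero, map_zero, add_zero] at h2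

include h in
/-- **The operators killing the level `M v` kill the level `M`.** -/
theorem smul_eq_zero_of_mul [IsAddTorsionFree O] [NeZero (M * v)] (hv : v ∈ S) (hT : M * v ∣ T)
    {a e : OpRing O T S}
    (ha : ∀ x ∈ localPart O (opTo O S hT e) (HomMod O S (kUp K₀ (h0.mul_right v)) O),
      opTo O S hT a • x = 0)
    {φ : HomMod O S (kUp K₀ h0) O}
    (hφ : φ ∈ localPart O (opTo O S ((dvd_mul_right M v).trans hT) e) (HomMod O S (kUp K₀ h0) O))
    (hM : M ∣ T) : opTo O S hM a • φ = 0 := by
  refine degU_fst_injective h h0 0 ?_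
  have h1 := ha _ (degU_mem_localPart h h0 hv 0 hT (φ := (φ, 0)) hφ (zero_mem _))
  rw [← degU_smul h h0 hv 0 hT] at h1
  rw [← h1]
  congr 1
  exact Prod.ext rfl (smul_zero _).symm

end Fermat.Agent.RT.Lift59.Levels

end
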