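import Fermat.Agent.RT.Lift59.Levels.Data
import Fermat.Agent.RT.Lift59.Levels.Tower
import Fermat.Agent.RT.Lift59.Levels.Psi
import Fermat.Agent.RT.Lift.RankBound
import Fermat.Agent.RT.Level.Module

/-!
# The localised modules of the levels and the Hecke module of the top level

One operator of the top level cuts out the localisations at all levels; the localised module of
each level is free over the group of the auxiliary primes, of the rank of the one of `Γ₀`.
-/

set_option autoImplicit false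

noncomputable section

namespace Fermat.Agent.RT.Lift59.Levels

open IsLocalRing MvPolynomial
open Fermat.Agent.RT.GammaH Fermat.Agent.RT.Level

variable {O : Type} [CommRing O] [IsDomain O] [IsDiscreteValuationRing O] {p : ℕ}
  {F : Fixed O p} {R n : ℕ} (X : Aux F R n)

namespace Aux

/-- A generator modulo the `i`-th auxiliary prime. -/
def gen (i : Fin R) : (ZMod (X.q i))ˣ :=
  haveI : Fact (X.q i).Prime := ⟨X.q_prime i⟩
  (IsCyclic.exists_generator (α := (ZMod (X.q i))ˣ)).choose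

theorem orderOf_gen (i : Fin R) : orderOf (X.gen i) = X.q i - 1 := by
  have : Fact (X.q i).Prime := ⟨X.q_prime i⟩
  rw [orderOf_eq_card_of_forall_mem_zpowers (g := X.gen i)
    (IsCyclic.exists_generator (α := (ZMod (X.q i))ˣ)).choose_spec, Nat.card_eq_fintype_card,
    ZMod.card_units]

variable [Fact p.Prime] [Fact (p ≠ 2)]

/-- The character of the level without places. -/
def psi0 : (ZMod (X.lvl 0))ˣ →* DiaGroup p R n :=
  (exists_psiQ (p := p) (n := n) Fact.out (X.lvl_sqf (Nat.zero_le _)) X.q X.q_prime X.q_inj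
    X.q_dvd_zero X.q_cong X.gen X.orderOf_gen).choose

theorem psi0_spec : Function.Surjective X.psi0 ∧
    (∀ i, ∀ u : (ZMod (X.lvl 0))ˣ, ((u : ZMod (X.lvl 0)).cast : ZMod (X.lvl 0 / X.q i)) = 1 →
      ZMod.unitsMap (X.q_dvd_zero i) u = X.gen i →
        X.psi0 u ^ halfInvExp (DiaGroup p R n) = diaGen i) ∧
    ∀ u : (ZMod (X.lvl 0))ˣ, (∀ i, ZMod.unitsMap (X.q_dvd_zero i) u = 1) → X.psi0 u = 1 :=
  (exists_psiQ (p := p) (n := n) Fact.out (X.lvl_sqf (Nat.zero_le _)) X.q X.q_prime X.q_inj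
    X.q_dvd_zero X.q_cong X.gen X.orderOf_gen).choose_spec

/-- The character of the `j`-th level. -/
def psi (j : ℕ) : (ZMod (X.lvl j))ˣ →* DiaGroup p R n :=
  X.psi0.comp (ZMod.unitsMap (X.zero_dvd_lvl j))

/-- The subgroup of the `j`-th level. -/
abbrev K (j : ℕ) : Subgroup (ZMod (X.lvl j))ˣ := (X.psi j).ker

theorem mem_K {j : ℕ} (u : (ZMod (X.lvl j))ˣ) : u ∈ X.K j ↔ X.psi j u = 1 := Iff.rfl

theorem psi_surjective {j : ℕ} (_hj : j ≤ F.t) : Function.Surjective (X.psi j) :=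
  X.psi0_spec.1.comp (ZMod.unitsMap_surjective _)

theorem psi_unitsMap {j k : ℕ} (h : j ≤ k) (u : (ZMod (X.lvl k))ˣ) :
    X.psi j (ZMod.unitsMap (X.lvl_dvd h) u) = X.psi k u := by
  rw [psi, psi, MonoidHom.comp_apply, MonoidHom.comp_apply, ← MonoidHom.comp_apply
    (ZMod.unitsMap (X.zero_dvd_lvl j)), ZMod.unitsMap_comp]

/-- A unit congruent to `1` modulo every auxiliary prime has trivial image. -/
theorem psi_eq_one {j : ℕ} {u : (ZMod (X.lvl j))ˣ}
    (h : ∀ i, ((u : ZMod (X.lvl j)).cast : ZMod (X.q i)) = 1) : X.psi j u = 1 :=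
  X.psi0_spec.2.2 _ fun i => by
    rw [← MonoidHom.comp_apply, ZMod.unitsMap_comp]
    exact Units.ext (by rw [ZMod.unitsMap_val]; exact h i)

theorem neg_one_mem {j : ℕ} : -1 ∈ X.K j :=
  neg_one_mem_ker (X.psi j) Fact.out (isPGroup_diaGroup (p := p) (R := R) (n := n))

theorem odd_card_quotient {j : ℕ} (hj : j ≤ F.t) :
    Nat.card ((ZMod (X.lvl j))ˣ ⧸ X.K j) = Nat.card (DiaGroup p R n) ∧
      Odd (Nat.card ((ZMod (X.lvl j))ˣ ⧸ X.K j)) := by
  have h : Nat.card ((ZMod (X.lvl j))ˣ ⧸ X.K j) = Nat.card (DiaGroup p R n) :=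
    Nat.card_congr
      (QuotientGroup.quotientKerEquivOfSurjective (X.psi j) (X.psi_surjective hj)).toEquiv
  exact ⟨h, h ▸ odd_card_diaGroup Fact.out⟩

omit [Fact (Nat.Prime p)] [Fact (p ≠ 2)] in
theorem eisS : ∃ ℓ : ℕ, ℓ.Prime ∧ ℓ ∉ X.S ∧ F.abar ℓ ≠ 1 + (ℓ : ResidueField O) := by
  obtain ⟨ℓ, h1, h2, -, h3⟩ := F.eis 1 one_ne_zero X.S
  exact ⟨ℓ, h1, h2, h3⟩

omit [Fact (Nat.Prime p)] [Fact (p ≠ 2)] in
theorem threeS : 5 ≤ p ∨ ∃ r : ℕ, r.Prime ∧ r % 3 = 2 ∧ r ∉ X.S ∧ F.abar r ≠ 0 :=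
  F.three.imp id fun h => h X.S

omit [Fact (p ≠ 2)] in
theorem congrS {j : ℕ} (hj : j ≤ F.t) : IsCongruentLevel X.S F.abar (X.lvl j) := by
  obtain ⟨g, hg, φ, hφ⟩ := F.congr
  obtain ⟨G, hG, hGg⟩ := ConductorLevel.exists_raise (X.lvl_sqf hj)
    ((dvd_mul_right F.L _).trans (X.zero_dvd_lvl j)) hg
  refine ⟨G, hG, φ, fun ℓ hℓ hℓS a ha => ?_⟩
  exact hφ ℓ hℓ (fun h => hℓS (X.bad_subset_S h)) a
    (ha.trans (hGg ℓ hℓ fun hd => hℓS (X.mem_S_of_dvd_lvl hℓ hj hd)))

variable [IsAdicComplete (maximalIdeal O) O]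

/-- The operators cutting out all localisations. -/
private theorem exists_loc : ∃ o : OpRing O X.top X.S, ∀ (j : ℕ) (hj : j ≤ F.t),
    IsLocalizer (resIdeal X.S F.abar (X.lvl j)) (HomMod O X.S (X.K j) O)
        (opTo O X.S (X.lvl_dvd hj) o) ∧
      IsLocalizer (resIdeal X.S F.abar (X.lvl j))
        (HomMod O X.S (⊤ : Subgroup (ZMod (X.lvl j))ˣ) O) (opTo O X.S (X.lvl_dvd hj) o) :=
  let h := (exists_isLocalizer_family (O := O) X.S F.abar (T := X.top)
    (fun j : Fin (F.t + 1) ⊕ Fin (F.t + 1) => X.lvl (Sum.elim id id j : Fin (F.t + 1)))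
    (fun j => X.lvl_dvd (Nat.le_of_lt_succ (Sum.elim id id j : Fin (F.t + 1)).2))
    (fun j => Sum.rec (motive := fun j => Subgroup (ZMod (X.lvl (Sum.elim id id j : Fin (F.t + 1))))ˣ)
      (fun i => X.K (i : ℕ)) (fun _ => ⊤) j))
  ⟨h.choose, fun j hj => ⟨h.choose_spec (Sum.inl ⟨j, Nat.lt_succ_of_le hj⟩),
    h.choose_spec (Sum.inr ⟨j, Nat.lt_succ_of_le hj⟩)⟩⟩

/-- The operator cutting out all localisations. -/
def loc : OpRing O X.top X.S := X.exists_loc.choose

/-- The operator cutting out the localisation at the `j`-th level. -/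
def locAt {j : ℕ} (hj : j ≤ F.t) : OpRing O (X.lvl j) X.S := opTo O X.S (X.lvl_dvd hj) X.loc

theorem isLocalizer {j : ℕ} (hj : j ≤ F.t) :
    IsLocalizer (resIdeal X.S F.abar (X.lvl j)) (HomMod O X.S (X.K j) O) (X.locAt hj) :=
  (X.exists_loc.choose_spec j hj).1

theorem isLocalizer_top {j : ℕ} (hj : j ≤ F.t) :
    IsLocalizer (resIdeal X.S F.abar (X.lvl j))
      (HomMod O X.S (⊤ : Subgroup (ZMod (X.lvl j))ˣ) O) (X.locAt hj) :=
  (X.exists_loc.choose_spec j hj).2

/-- The localised module of the `j`-th level. -/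
abbrev modL {j : ℕ} (hj : j ≤ F.t) : Submodule O (HomMod O X.S (X.K j) O) :=
  localPart O (X.locAt hj) (HomMod O X.S (X.K j) O)

/-- The localised module of the `j`-th level of `Γ₀`. -/
abbrev baseL {j : ℕ} (hj : j ≤ F.t) :
    Submodule O (HomMod O X.S (⊤ : Subgroup (ZMod (X.lvl j))ˣ) O) :=
  localPart O (X.locAt hj) (HomMod O X.S (⊤ : Subgroup (ZMod (X.lvl j))ˣ) O)

/-- The rank of the `j`-th level. -/
def rk {j : ℕ} (hj : j ≤ F.t) : ℕ := Module.finrank O (X.baseL hj)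

variable [Finite (ResidueField O)] [CharZero O] [CharP (ResidueField O) p]

theorem exists_basis {j : ℕ} (hj : j ≤ F.t) : ∃ b : Fin (X.rk hj) → X.modL hj,
    Function.Bijective fun c : Fin (X.rk hj) × DiaGroup p R n →₀ O =>
      c.sum fun iq x => x • opDia O X.S (X.psi j) (X.locAt hj) (X.psi_surjective hj) iq.2 (b iq.1) := by
  classical
  have := Fintype.ofFinite (DiaGroup p R n)
  obtain ⟨e, h1, h2, hb⟩ := exists_freeData (ψ := X.psi j) (K := X.K j) X.S F.abar Fact.out X.threeS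
    (isPGroup_diaGroup (p := p) (R := R) (n := n)) (X.psi_surjective hj) X.mem_K (fun v hv hd => X.mem_S_of_dvd_lvl hv hj hd) X.eisS
  have e1 := Lift.localPart_eq (O := O) (resIdeal_ne_top X.S F.abar) h1 (X.isLocalizer hj)
  have e2 := Lift.localPart_eq (O := O) (resIdeal_ne_top X.S F.abar) h2 (X.isLocalizer_top hj)
  have e2' : Module.finrank O
      (localPart O e (HomMod O X.S (⊤ : Subgroup (ZMod (X.lvl j))ˣ) O)) = X.rk hj := by
    rw [e2]; rfl
  rw [e2'] at hb
  obtain ⟨b, hb⟩ := hb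
  let E : localPart O e (HomMod O X.S (X.K j) O) ≃ₗ[O] X.modL hj := LinearEquiv.ofEq _ _ e1
  refine ⟨fun i => E (b i), ?_⟩
  convert E.bijective.comp hb using 1
  funext c
  simp only [Function.comp_apply, map_finsuppSum, map_smul]
  exact Finsupp.sum_congr fun iq _ => congrArg (c iq • ·) (Subtype.ext rfl)

/-- The basis over the group ring. -/
def bas {j : ℕ} (hj : j ≤ F.t) : Fin (X.rk hj) → X.modL hj := (X.exists_basis hj).choose

theorem bas_bijective {j : ℕ} (hj : j ≤ F.t) :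
    Function.Bijective fun c : Fin (X.rk hj) × DiaGroup p R n →₀ O =>
      c.sum fun iq x =>
        x • opDia O X.S (X.psi j) (X.locAt hj) (X.psi_surjective hj) iq.2 (X.bas hj iq.1) :=
  (X.exists_basis hj).choose_spec

omit [Finite (ResidueField O)] [CharP (ResidueField O) p] in
theorem rk_pos {j : ℕ} (hj : j ≤ F.t) : 0 < X.rk hj := by
  have := Submodule.nontrivial_iff_ne_bot.2
    (ne_bot_of_isCongruentLevel (X.isLocalizer_top hj) (X.congrS hj))
  exact Module.finrank_pos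

omit [CharP (ResidueField O) p] [CharZero O] in
theorem residual_top (ℓ : ℕ) (hℓ : ℓ.Prime) (hℓS : ℓ ∉ X.S) (a : O)
    (ha : residue O a = F.abar ℓ) :
    ∃ k : ℕ, ∀ x : X.modL (le_refl F.t),
      ((opT O X.S (X.psi F.t) (X.locAt le_rfl) ℓ - a • (1 : Module.End O (X.modL le_rfl))) ^ k) x ∈
        maximalIdeal O • (⊤ : Submodule O (X.modL le_rfl)) := by
  set e := X.locAt (le_refl F.t)
  set r : OpRing O X.top X.S := MvPolynomial.X (Sum.inr ⟨ℓ, hℓ, hℓS⟩) - C a with hr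
  have hrm : r ∈ resIdeal X.S F.abar X.top := by
    rw [hr, mem_resIdeal, map_sub, opRes_inr, ← algebraMap_eq, AlgHom.commutes,
      ResidueField.algebraMap_eq, ha, sub_self]
  obtain ⟨k, hk⟩ := (X.isLocalizer le_rfl).exists_pow_smul_mem (O := O) hrm
    (resIdeal_ne_top X.S F.abar)
  refine ⟨k, fun x => ?_⟩
  have hact : localAct O e (HomMod O X.S (X.K F.t) O) r =
      opT O X.S (X.psi F.t) e ℓ - a • 1 := by
    rw [hr, map_sub, opT_eq ⟨hℓ, hℓS⟩, ← algebraMap_eq, AlgHom.commutes,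
      Algebra.algebraMap_eq_smul_one]
  rw [← hact, ← map_pow]
  have h1 := hk x.1 x.2
  have h2 : maximalIdeal O • X.modL le_rfl =
      (maximalIdeal O • (⊤ : Submodule O (X.modL le_rfl))).map (X.modL le_rfl).subtype := by
    rw [Submodule.map_smul'', Submodule.map_top, Submodule.range_subtype]
  rw [h2] at h1
  obtain ⟨y, hy, hyx⟩ := h1
  rwa [show localAct O e (HomMod O X.S (X.K F.t) O) (r ^ k) x = y from Subtype.ext hyx.symm]

omit [CharP (ResidueField O) p] in
set_option maxHeartbeats 800000 in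
theorem isReduced_top :
    IsReduced (opAlg O X.S (X.psi F.t) (X.locAt le_rfl) (X.psi_surjective le_rfl)) := by
  obtain ⟨σ, hσ⟩ := exists_injective_complex O
  let : Algebra O ℂ := σ.toAlgebra
  obtain ⟨ℓ, hℓ, hℓS, hEis⟩ := X.eisS
  obtain ⟨P, hP, hpar⟩ := exists_parabolicOp (K := X.K F.t) X.S F.abar (X.lvl_sqf le_rfl)
    X.neg_one_mem hℓ hℓS (fun h => hℓS (X.mem_S hℓ h)) hEis
  refine ⟨fun y ⟨k, hk⟩ => ?_⟩
  obtain ⟨a, rfl⟩ := toOpAlg_surjective (X.psi_surjective le_rfl) y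
  refine Subtype.ext (LinearMap.ext fun x => Subtype.ext ?_)
  refine smul_eq_zero_of_pow_smul X.neg_one_mem (X.lvl_sqf le_rfl)
    (hasRoots_of_odd (X.odd_card_quotient le_rfl).2)
    (fun v hv hd => X.mem_S hv hd) hσ (X.isLocalizer le_rfl) hP (fun z => hpar ℂ z) x.2 (n := k) ?_
  rw [← map_pow] at hk
  exact congrArg Subtype.val (LinearMap.congr_fun (congrArg Subtype.val hk) x)

/-- The Hecke module of the top level. -/
def heckeTop : HeckeModule X.top (X.psi F.t) X.S F.abar :=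
  haveI : Fintype (DiaGroup p R n) := Fintype.ofFinite _
  { M := Carrier O X.S (X.psi F.t) (X.locAt le_rfl)
    d := X.rk (le_refl F.t)
    basis := X.bas le_rfl
    T := opT O X.S (X.psi F.t) (X.locAt le_rfl)
    dia := opDia O X.S (X.psi F.t) (X.locAt le_rfl) (X.psi_surjective le_rfl)
    basis_bijective := X.bas_bijective le_rfl
    T_comm := opT_commute
    dia_comm := opT_commute_opDia (X.psi_surjective le_rfl)
    residual := X.residual_top
    isReduced := X.isReduced_top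
    eigen := exists_eigenData Fact.out X.threeS (X.lvl_sqf le_rfl) (isPGroup_diaGroup (p := p) (R := R) (n := n))
      (X.psi_surjective le_rfl) (fun _ hv hd => X.mem_S hv hd) X.eisS (X.isLocalizer le_rfl) }

/-- The Hecke algebra of the top level. -/
abbrev Alg : Type := X.heckeTop.algebra

/-- The operators of the top level, onto its algebra. -/
def toAlg : OpRing O X.top X.S →ₐ[O] X.Alg :=
  toOpAlg O X.S (X.psi F.t) (X.locAt le_rfl) (X.psi_surjective le_rfl)

theorem toAlg_surjective : Function.Surjective X.toAlg :=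
  toOpAlg_surjective (X.psi_surjective le_rfl)

theorem toAlg_inl (u : (ZMod X.top)ˣ) :
    X.toAlg (MvPolynomial.X (Sum.inl u)) = Glue.diaA X.heckeTop (X.psi F.t u) :=
  toOpAlg_inl (X.psi_surjective le_rfl) u

theorem toAlg_inr {ℓ : ℕ} (hℓ : ℓ.Prime) (hℓS : ℓ ∉ X.S) :
    X.toAlg (MvPolynomial.X (Sum.inr ⟨ℓ, hℓ, hℓS⟩)) = Glue.TA X.heckeTop hℓ hℓS :=
  toOpAlg_inr (X.psi_surjective le_rfl) ⟨hℓ, hℓS⟩

instance : IsLocalRing X.Alg :=
  Glue.isLocalRing_algebra X.heckeTop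
    (by rw [← residue_eq_zero_iff, map_natCast]; exact CharP.cast_eq_zero (ResidueField O) p)
    (isPGroup_diaGroup (p := p) (R := R) (n := n)) (X.rk_pos le_rfl)

end Aux

end Fermat.Agent.RT.Lift59.Levels

end
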