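import Fermat.Agent.RT.Glue.Main
import Fermat.Agent.GaloisReps.Attach

/-!
# A point of the top level seen through a newform of lower level

If the Frobenius values of a point of the glued representation at the primes outside `S` are the
coefficients of a newform `g`, then at every prime not dividing the level of `g` inertia does not
change the trace at the point and the trace of Frobenius is the coefficient of `g`.
-/

set_option autoImplicit false

noncomputable section

open IsLocalRing

namespace Fermat.Agent.RT.Lift59.Levels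

open GaloisReps (AbsGal FullHecke HeckeGaloisModel)
open Fermat.Agent.RT.Glue

variable {O : Type} [CommRing O] [IsDomain O] [IsDiscreteValuationRing O]
  [IsAdicComplete (maximalIdeal O) O] [Finite (ResidueField O)] [CharZero O]
  {p : ℕ} [Fact p.Prime]
  {T : ℕ} [NeZero T] {Δ : Type} [CommGroup Δ] [Finite Δ] {ψ : (ZMod T)ˣ →* Δ} {S : Finset ℕ}
  {abar : ℕ → ResidueField O}
  {H : HeckeModule T ψ S abar} {hS : ∀ q : ℕ, q.Prime → q ∣ T → q ∈ S} [IsLocalRing H.algebra]
  {D : ∀ (M : ℕ) [NeZero M], HeckeGaloisModel M p}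
  {pt : ∀ θ : H.algebra →ₐ[O] KBar O, Point (p := p) H hS θ.toRingHom} (G : Glued D pt)

omit [Finite Δ] in
set_option maxHeartbeats 800000 in
/-- **A point and a newform with the same Frobenius values.** -/
theorem trace_of_newform (hp : (p : O) ∈ maximalIdeal O) (hpS : p ∈ S) {M : ℕ} [NeZero M]
    {g : CuspForm (CongruenceSubgroup.Gamma0 M) 2} (hg : g.IsNewform) (hMT : M ∣ T ^ 2)
    [Algebra O ℂ] (E : KBar O ≃ₐ[O] ℂ) (θ : H.algebra →ₐ[O] ℂ)
    (hval : ∀ (ℓ : ℕ) (hℓ : ℓ.Prime) (hℓS : ℓ ∉ S),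
      θ (sA H hS hℓ hℓS) = ModularFormClass.qCoeff g ℓ) :
    (∀ q : ℕ, q.Prime → ¬ q ∣ M * p → ∀ A : ValuationSubring (AlgebraicClosure ℚ),
      A.LiesOverPrime q → ∀ σ ∈ A.inertiaSubgroupIn ℚ, ∀ τ : AbsGal,
        θ (G.R (τ * σ)).trace = θ (G.R τ).trace) ∧
    ∀ q : ℕ, q.Prime → ¬ q ∣ M * p → ∀ A : ValuationSubring (AlgebraicClosure ℚ),
      A.LiesOverPrime q → ∀ F : AbsGal, A.IsFrobeniusAt F q →
        θ (G.R F).trace = ModularFormClass.qCoeff g q := by
  classical
  have : Module.Finite ℤ (FullHecke M) := IntegralStructure.heckeAlgebra_finite M 2 ∅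
  obtain ⟨R, i1, i2, i3, i4, i5, i6, i7, i8, i9, j, θ', -, hjinj, hcomm, hθ'⟩ :=
    GaloisReps.exists_coeffExt O
      (E.symm.toRingEquiv.toRingHom.comp (ConductorLevel.eigenChar hg.1 ∅))
  have hpR : (p : R) ∈ maximalIdeal R := by
    rw [← map_natCast (algebraMap O R) p]
    exact map_nonunit (algebraMap O R) _ hp
  obtain ⟨ι⟩ := GaloisReps.exists_padicHom R hpR
  let θK : H.algebra →ₐ[O] KBar O := E.symm.toAlgHom.comp θ
  have hθK : ∀ x, θ x = E (θK x) := fun x => (E.apply_symm_apply _).symm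
  -- the value of the newform in `R`
  have hcoef : ∀ (q : ℕ) (hq : q.Prime), ¬ q ∣ M →
      E (j (θ' (HeckeDuality.heckeOp M 2 q hq))) = ModularFormClass.qCoeff g q := fun q hq hqM => by
    rw [← RingHom.comp_apply j θ', hθ', RingHom.comp_apply]
    show E (E.symm _) = _
    rw [E.apply_symm_apply, HeckeDuality.heckeOp, dif_neg hqM]
    exact ConductorLevel.eigenChar_T hg.1 hq hqM _
  let tr : AbsGal → R := fun σ =>
    LinearMap.trace R _ ((D M).eigenAction ι θ' σ)
  -- comparison with the point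
  have key : ∀ σ, θK (G.R σ).trace = j (tr σ) := fun σ => sub_eq_zero.1 <|
    eq_zero_of_forall_integral hp fun N => by
      obtain ⟨F, hF, hlev⟩ := exists_levelField (L := T) D N
      obtain ⟨ℓ, hℓ, hℓS, A, hA, s, hs, i, hi⟩ := GaloisReps.frobeniusDensity F inferInstance σ S
      have hfix := GaloisReps.inv_mul_fixes (g := s ^ i) (h := σ) fun x hx => (hi x hx).symm
      set P := pt θK
      obtain ⟨r₁, hr₁, he₁⟩ := P.trace_congr D (n := N) (g := s ^ i) (h := σ)
        (hlev _ hfix _ P.dvd)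
      rw [← G.trace_eq, P.trace_frobenius_pow D hpS hℓ hℓS hA hs i] at he₁
      obtain ⟨a, ha⟩ := (D M).eigenMatrix_congr ι θ' (hlev _ hfix _ hMT) 0 0
      obtain ⟨b, hb⟩ := (D M).eigenMatrix_congr ι θ' (hlev _ hfix _ hMT) 1 1
      have hℓM : ¬ ℓ ∣ M * p := fun h => (hℓ.dvd_mul.1 h).elim
        (fun h => hℓS (hS ℓ hℓ (hℓ.dvd_of_dvd_pow (h.trans hMT))))
        (fun h => hℓS (by rw [(Nat.prime_dvd_prime_iff_eq hℓ Fact.out).1 h]; exact hpS))
      have hpow : j (tr (s ^ i)) =
          θK (GaloisReps.powerTrace (sA H hS hℓ hℓS) (ℓ : H.algebra) i) := by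
        simp only [tr]
        rw [map_pow, GaloisReps.trace_pow_of_charpoly ((D M).finrank_eigenspace_domain θ') _ _ ℓ
          ((D M).charpoly_eigenAction_frobenius ι θ' GaloisReps.frobeniusDensity hpR hℓ hℓM hA hs) i,
          GaloisReps.map_powerTrace, ← AlgHom.coe_toRingHom θK, GaloisReps.map_powerTrace,
          map_natCast, map_natCast]
        congr 1
        refine E.injective ?_
        rw [hcoef ℓ hℓ fun h => hℓM (dvd_mul_of_dvd_left h p), AlgHom.coe_toRingHom, ← hθK,
          hval ℓ hℓ hℓS]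
      have htr : ∀ τ, tr τ = ((D M).eigenMatrix ι θ' τ).trace := fun τ => by
        simp only [tr]
        rw [LinearMap.trace_eq_matrix_trace R ((D M).eigenBasis θ')]
        rfl
      refine ⟨r₁ - j (a + b), hr₁.sub ?_, ?_⟩
      · exact (Algebra.IsIntegral.isIntegral (R := O) (a + b)).map
          ({ j with commutes' := fun c => RingHom.congr_fun hcomm c } : R →ₐ[O] KBar O)
      · have h2 : j (tr σ) - j (tr (s ^ i)) = (p : KBar O) ^ N * j (a + b) := by
          rw [htr, htr, Matrix.trace_fin_two, Matrix.trace_fin_two, ← map_natCast j, ← map_pow,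
            ← map_mul, ← map_sub, mul_add, ← ha, ← hb, add_sub_add_comm]
        rw [hpow] at h2
        change θK (G.R σ).trace - _ = _ at he₁
        linear_combination he₁ - h2
  refine ⟨fun q hq hqM A hA σ hσ τ => ?_, fun q hq hqM A hA F hF => ?_⟩
  · rw [hθK, hθK, key, key]
    have h1 : (D M).eigenAction ι θ' σ = 1 := by
      refine LinearMap.ext fun v => Subtype.ext ?_
      rw [GaloisReps.HeckeGaloisModel.coe_eigenAction, (D M).gal_unramified q hq hqM A hA σ hσ,
        Matrix.map_one ι (map_zero ι) (map_one ι), Matrix.one_mulVec, Module.End.one_apply]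
    simp only [tr]
    rw [map_mul, h1, mul_one]
  · rw [hθK, key, ← hcoef q hq fun h => hqM (dvd_mul_of_dvd_left h p)]
    simp only [tr]
    have h := GaloisReps.trace_pow_of_charpoly ((D M).finrank_eigenspace_domain θ') _ _ q
      ((D M).charpoly_eigenAction_frobenius ι θ' GaloisReps.frobeniusDensity hpR hq hqM hA hF) 1
    rw [pow_one] at h
    rw [h]
    rfl

end Fermat.Agent.RT.Lift59.Levels

end
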