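import Fermat.Agent.RT.Lift59.Levels.Act
import Fermat.Agent.RT.Lift59.Levels.Eigen
import Fermat.Agent.RT.Lift59.Mazur.Special
import Fermat.Agent.RT.Lift.RankBound

/-!
# A bound on the ranks which is uniform in the depth

No congruent newform is new at an auxiliary prime, so the rank of a level is at most `2 ^ R` times
the rank of all of `Hom(Γ₀, O)` at the level without auxiliary primes.
-/

set_option autoImplicit false

noncomputable section

namespace Fermat.Agent.RT.Lift59.Levels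

open IsLocalRing
open Fermat.Agent.RT.GammaH Fermat.Agent.RT.Level

variable {O : Type} [CommRing O] [IsDomain O] [IsDiscreteValuationRing O]
  [IsAdicComplete (maximalIdeal O) O] [Finite (ResidueField O)] [CharZero O]
  {p : ℕ} [Fact p.Prime] [Fact (p ≠ 2)] [CharP (ResidueField O) p]

/-- The bound on the ranks. -/
def rankBound (F : Fixed O p) (R : ℕ) : ℕ :=
  2 ^ R * ∑ j ∈ Finset.range (F.t + 1),
    Module.finrank O (HomMod O (∅ : Finset ℕ) (⊤ : Subgroup (ZMod (F.base j))ˣ) O)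

variable {F : Fixed O p} {R n : ℕ} (X : Aux F R n)

namespace Aux

omit [IsAdicComplete (maximalIdeal O) O] [Finite (ResidueField O)] [CharZero O] [Fact (p ≠ 2)] in
theorem notNewAt {j : ℕ} (hj : j ≤ F.t) {q : ℕ} (hq : q.Prime) (hqL : q ∣ X.lvl j)
    (hqN : ¬ q ∣ F.base j) : Lift.NotNewAt X.S F.abar (X.lvl j) q := by
  intro M g hM hqM hg hcongr
  have hqQ : q ∣ X.prodQ := by
    rw [X.lvl_eq] at hqL
    exact (hq.dvd_mul.1 hqL).resolve_left hqN
  obtain ⟨i, rfl⟩ := X.exists_eq_q hq hqQ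
  have hqp : X.q i ≠ p := fun h => X.q_not_dvd i ((dvd_of_eq h).trans (dvd_mul_left p _))
  have : NeZero M := ⟨fun h0 => X.lvl_ne_zero hj (Nat.eq_zero_of_zero_dvd (h0 ▸ hM))⟩
  have hsq : ¬ X.q i ^ 2 ∣ M := fun h =>
    hq.not_isUnit (X.lvl_sqf hj _ (by rw [← sq]; exact h.trans hM))
  obtain ⟨A, hA⟩ := Arith.exists_liesOverPrime hq
  obtain ⟨σ, hσ⟩ := Arith.exists_isFrobeniusAt hA hq
  exact X.q_reg i A hA σ hσ (MazurQ.trace_sq_of_special (p := p) F.ρbar X.frobS hg hcongr hq hqp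
    hqM hsq hA hσ)

theorem rk_le {j : ℕ} (hj : j ≤ F.t) : X.rk hj ≤ rankBound F R := by
  classical
  have : NeZero (F.base j) := ⟨(F.base_sqf hj).ne_zero⟩
  obtain ⟨e₀, he₀⟩ := exists_isLocalizer (O := O) (resIdeal X.S F.abar (F.base j))
    (HomMod O X.S (⊤ : Subgroup (ZMod (F.base j))ˣ) O)
  have h := Lift.finrank_le_pow (O := O) (S := X.S) (abar := F.abar) (N := F.base j) (X.lvl j)
    (by rw [X.lvl_eq]; exact dvd_mul_right _ _) (X.lvl_sqf hj)
    (fun v hv hd => X.mem_S_of_dvd_lvl hv hj hd) X.eisS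
    (fun q hq hd hn => X.notNewAt hj hq hd hn) (X.isLocalizer_top hj) he₀
  refine h.trans (Nat.mul_le_mul ?_ ?_)
  · refine Nat.pow_le_pow_right two_pos ?_
    rw [X.lvl_eq, Nat.mul_div_cancel_left _ (NeZero.pos _)]
    refine (Finset.card_le_card (t := Finset.univ.image X.q) fun w hw => ?_).trans
      (Finset.card_image_le.trans (by simp))
    obtain ⟨i, rfl⟩ := X.exists_eq_q (Nat.prime_of_mem_primeFactors hw)
      (Nat.dvd_of_mem_primeFactors hw)
    exact Finset.mem_image_of_mem _ (Finset.mem_univ i)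
  · refine (Submodule.finrank_le _).trans ?_
    rw [(reSet O X.S (∅ : Finset ℕ) (⊤ : Subgroup (ZMod (F.base j))ˣ) O).finrank_eq]
    exact Finset.single_le_sum
      (f := fun j => Module.finrank O (HomMod O (∅ : Finset ℕ) (⊤ : Subgroup (ZMod (F.base j))ˣ) O))
      (fun _ _ => Nat.zero_le _) (Finset.mem_range.2 (Nat.lt_succ_of_le hj))

end Aux

end Fermat.Agent.RT.Lift59.Levels

end
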