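import Fermat.Agent.RT.Lift59.Levels.Systems
import Fermat.Agent.RT.Lift59.Levels.Points

/-!
# The relations satisfied by the levels

At a prime prime to a level and to `p` inertia acts trivially on the level and the trace of
Frobenius acts as the symmetrised Hecke operator.
-/

set_option autoImplicit false

noncomputable section

namespace Fermat.Agent.RT.Lift59.Levels

open IsLocalRing MvPolynomial
open GaloisReps (AbsGal)
open Fermat.Agent.Deform (M2)
open Fermat.Agent.RT.GammaH Fermat.Agent.RT.Level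
open Fermat.Agent.RT.Glue (KBar sA diaA)
open Fermat.Agent.LevelRaising (RaiseData)

variable {O : Type} [CommRing O] [IsDomain O] [IsDiscreteValuationRing O]
  [IsAdicComplete (maximalIdeal O) O] [Finite (ResidueField O)] [CharZero O]
  {p : ℕ} [Fact p.Prime] [Fact (p ≠ 2)] [CharP (ResidueField O) p]

omit [Fact (p ≠ 2)] in
variable (O p) in
include p in
/-- An embedding of `O` into `ℂ` extending to an isomorphism of the algebraic closures. -/
theorem exists_complex : ∃ σ : O →+* ℂ, Function.Injective σ ∧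
    (letI := σ.toAlgebra; Nonempty (KBar O ≃ₐ[O] ℂ)) := by
  obtain ⟨ι₀⟩ := GaloisReps.exists_padicHom O (natCast_mem_max (p := p))
  obtain ⟨e⟩ := Glue.nonempty_ringEquiv_complex O ι₀
  refine ⟨e.toRingHom.comp (algebraMap O (KBar O)), e.injective.comp ?_, ?_⟩
  · rw [IsScalarTower.algebraMap_eq O (FractionRing O) (KBar O)]
    exact (algebraMap (FractionRing O) (KBar O)).injective.comp
      (IsFractionRing.injective O (FractionRing O))
  · let := (e.toRingHom.comp (algebraMap O (KBar O))).toAlgebra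
    exact ⟨AlgEquiv.ofRingEquiv (f := e) fun _ => rfl⟩

variable {F : Fixed O p} {R n : ℕ} (X : Aux F R n)

namespace Aux

variable {X}

theorem Sys.trace_eq [Algebra O ℂ] (E : KBar O ≃ₐ[O] ℂ) {j : ℕ} {hj : j ≤ F.t}
    {K : Subgroup (ZMod (X.lvl j))ˣ} {S' : Finset ℕ} {h : S' ⊆ X.S} (hK : X.LevK hj K)
    (hS' : ∀ w : ℕ, w.Prime → w ∣ X.lvl j → w ∈ S') (s : X.Sys hj h K) {v : ℕ} (hv : v.Prime)
    (hvj : ¬ v ∣ X.lvl j) (hvp : v ≠ p) {A : ValuationSubring (AlgebraicClosure ℚ)}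
    (hA : A.LiesOverPrime v) :
    (∀ σ ∈ A.inertiaSubgroupIn ℚ, ∀ τ : AbsGal,
      s.toTop hK (X.rhoT (τ * σ)).trace = s.toTop hK (X.rhoT τ).trace) ∧
    ∀ Fr : AbsGal, A.IsFrobeniusAt Fr v → ∀ (hvS : v ∉ S') (u : (ZMod (X.lvl j))ˣ),
      (u : ZMod (X.lvl j)) = v → s.toTop hK (X.rhoT Fr).trace =
        s.θ (MvPolynomial.X (Sum.inl (u ^ halfInvExp (DiaGroup p R n)))) *
          s.θ (MvPolynomial.X (Sum.inr ⟨v, hv, hvS⟩)) := by
  obtain ⟨M, g, hg, hM, htop, hval, -⟩ := s.exists_newform hK hS'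
  have : NeZero M := ⟨fun h0 => pow_ne_zero 2 (X.lvl_ne_zero hj)
    (Nat.eq_zero_of_zero_dvd (h0 ▸ hM))⟩
  have hvM : ¬ v ∣ M * p := fun hd => (hv.dvd_mul.1 hd).elim
    (fun hd => hvj (hv.dvd_of_dvd_pow (hd.trans hM)))
    (fun hd => hvp ((Nat.prime_dvd_prime_iff_eq hv Fact.out).1 hd))
  obtain ⟨hI, hF⟩ := trace_of_newform X.glued natCast_mem_max X.p_mem_S hg
    (hM.trans (pow_dvd_pow_of_dvd (X.lvl_dvd hj) 2)) E (s.toTop hK) htop
  refine ⟨fun σ hσ τ => ?_, fun Fr hFr hvS u hu => ?_⟩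
  · rw [trace_rhoT, trace_rhoT]
    exact hI v hv hvM A hA σ hσ τ
  · rw [trace_rhoT, hF v hv hvM A hA Fr hFr, hval v hv hvS u hu]
    congr 1
    rw [← s.coe_chi, ← s.coe_chi, map_pow, Units.val_pow_eq_pow_val]

variable (X) {j : ℕ} (hj : j ≤ F.t)

/-- **Inertia acts trivially on a level of order prime to the place.** -/
theorem unr_act {v : ℕ} (hv : v.Prime) (hvj : ¬ v ∣ X.lvl j) (hvp : v ≠ p)
    {A : ValuationSubring (AlgebraicClosure ℚ)} (hA : A.LiesOverPrime v) {σ : AbsGal}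
    (hσ : σ ∈ A.inertiaSubgroupIn ℚ) (a b : Fin 2) (x : X.LMod hj) :
    (X.rhoT σ - 1) a b • x = 0 := by
  obtain ⟨f, hf, ⟨E⟩⟩ := exists_complex O p
  let := f.toAlgebra
  have h1 : ∀ τ, (X.rhoT τ * (X.rhoT σ - 1)).trace • x = 0 := fun τ => by
    refine X.alg_smul_eq_zero_of_sys hj hf _ (fun s => ?_) x
    rw [mul_sub, mul_one, ← map_mul, Matrix.trace_sub, map_sub, sub_eq_zero]
    exact (s.trace_eq E (X.levK hj) (fun w hw hd => X.mem_S_of_dvd_lvl hw hj hd) hv hvj hvp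
      hA).1 σ hσ τ
  have h2 : ∀ M : M2 X.Alg, (M * (X.rhoT σ - 1)).trace • x = 0 := fun M => by
    have hM : M ∈ Submodule.span X.Alg (Set.range X.rhoT) :=
      X.span_rhoT ▸ Submodule.mem_top
    induction hM using Submodule.span_induction with
    | mem _ hY => obtain ⟨τ, rfl⟩ := hY; exact h1 τ
    | zero => rw [zero_mul, Matrix.trace_zero, zero_smul]
    | add Y Z _ _ hY hZ => rw [add_mul, Matrix.trace_add, add_smul, hY, hZ, add_zero]
    | smul c Y _ hY => rw [smul_mul_assoc, Matrix.trace_smul, smul_eq_mul, mul_smul, hY, smul_zero]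
  have h3 := h2 (Matrix.single b a 1)
  rwa [Matrix.trace_single_mul, one_smul] at h3

/-- **The trace of Frobenius acts as the symmetrised Hecke operator.** -/
theorem trace_frob_act {v : ℕ} (h : RaiseData v (X.lvl j)) [Fact v.Prime] (hvp : v ≠ p)
    {A : ValuationSubring (AlgebraicClosure ℚ)} (hA : A.LiesOverPrime v) {Fr : AbsGal}
    (hFr : A.IsFrobeniusAt Fr v) (x : X.LMod hj) :
    (((X.rhoT Fr).trace • x : X.LMod hj) : X.modL hj).1 =
      toHomMod (Lift.symT h O (X.K j) (halfInvExp (DiaGroup p R n))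
        (toHomMod.symm (x : X.modL hj).1)) := by
  obtain ⟨f, hf, ⟨E⟩⟩ := exists_complex O p
  let := f.toAlgebra
  obtain ⟨b, hb⟩ := X.toAlg_surjective (X.rhoT Fr).trace
  set S' := X.S.erase v
  have hsub : S' ⊆ X.S := Finset.erase_subset v _
  have hvS : v ∉ S' := Finset.notMem_erase v _
  have hS' : ∀ w : ℕ, w.Prime → w ∣ X.lvl j → w ∈ S' := fun w hw hd =>
    Finset.mem_erase.2 ⟨fun he => h.not_dvd (he ▸ hd), X.mem_S_of_dvd_lvl hw hj hd⟩
  set T : OpRing O (X.lvl j) S' :=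
    MvPolynomial.X (Sum.inl (Lift.qUnit h ^ halfInvExp (DiaGroup p R n))) *
      MvPolynomial.X (Sum.inr ⟨v, h.prime, hvS⟩) with hT
  have key := X.smul_eq_zero_of_sys hj hf (X.levK hj) hsub hS'
    (a := extOp O (X.lvl j) hsub (opTo O X.S (X.lvl_dvd hj) b) - T) (fun s => by
      rw [map_sub, hT, map_mul, ← s.toTop_toAlg (X.levK hj), hb, sub_eq_zero]
      exact (s.trace_eq E (X.levK hj) hS' h.prime h.not_dvd hvp hA).2 Fr hFr hvS _
        (ZMod.coe_unitOfCoprime _ _)) (x : X.modL hj).2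
  rw [sub_smul, extOp_smul, sub_eq_zero, hT, mul_smul, X_inr_smul] at key
  rw [← hb, coe_toAlg_smul]
  refine (reSet O X.S S' (X.K j) O).injective (key.trans ?_)
  exact X_inl_smul (O := O) (S := S') _ _

end Aux

end Fermat.Agent.RT.Lift59.Levels

end
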