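import Fermat.Agent.RT.Lift59.Levels.Module
import Fermat.Agent.RT.Glue.Bridge
import Fermat.Agent.RT.InertiaTW.Main
import Fermat.Agent.GaloisReps.Unconditional
import Fermat.Agent.NewformLocal.Models
import Fermat.Agent.Mazur.Eisenstein.CycInertia
import Fermat.Agent.RT.Assembly.LevelChar
import Fermat.Agent.Arith.Frobenius

/-!
# The representation over the Hecke algebra of the top level

`rhoT` is the glued representation in a basis in which it reduces to the residual matrices.
-/

set_option autoImplicit false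

noncomputable section

namespace Fermat.Agent.RT.Lift59.Levels

open IsLocalRing
open GaloisReps (AbsGal HeckeGaloisModel modelOfCongruence)
open Fermat.Agent.Deform (M2 IsCont matOf matRes IsResAlg augment)
open Fermat.Agent.RT.Glue (KBar Point Glued diaA sA)

variable {O : Type} [CommRing O] [IsDomain O] [IsDiscreteValuationRing O]
  [IsAdicComplete (maximalIdeal O) O] [Finite (ResidueField O)] [CharZero O]
  {p : ℕ} [Fact p.Prime] [Fact (p ≠ 2)] [CharP (ResidueField O) p]

omit [IsAdicComplete (maximalIdeal O) O] [Finite (ResidueField O)] [CharZero O] [Fact p.Prime]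
  [Fact (p ≠ 2)] in
theorem natCast_mem_max : (p : O) ∈ maximalIdeal O := by
  rw [← residue_eq_zero_iff, map_natCast]
  exact CharP.cast_eq_zero (ResidueField O) p

variable (p) in
/-- The models of the Jacobians. -/
def models (M : ℕ) [NeZero M] : HeckeGaloisModel M p :=
  modelOfCongruence (GaloisReps.congruenceProperty M p)

omit [Fact (p ≠ 2)] in
theorem models_spec (M : ℕ) [NeZero M] {q : ℕ} (hq : q.Prime) (hqp : q ≠ p) (hqM : q ∣ M)
    (hq2 : ¬ q ^ 2 ∣ M) :
    NewformLocal.UnipotentAt (models p M) q ∧ NewformLocal.ToricSquareAt (models p M) q :=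
  ⟨GaloisReps.unipotentAt_modelOfCongruence (GaloisReps.congruenceProperty M p) hq hqp
    (Semistable.torsionUnipotentAt hq hqM hq2),
    NewformLocal.Toric.toricSquareAt (GaloisReps.congruenceProperty M p) hq hqp hq2⟩

variable {F : Fixed O p} {R n : ℕ} (X : Aux F R n)

/-- A conjugate of the matrices is the matrices in another basis. -/
theorem exists_matOf_eq_conjM {A : Type} [CommRing A] [IsLocalRing A] (ρ : GaloisRepAdic A)
    (b : Module.Basis (Fin 2) A ρ.V) (P : (M2 A)ˣ) :
    ∃ b' : Module.Basis (Fin 2) A ρ.V, matOf ρ b' = Deform.conjM P (matOf ρ b) := by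
  let e : ρ.V ≃ₗ[A] ρ.V := LinearEquiv.ofLinearMap (Matrix.toLin b b (P : M2 A))
    (Matrix.toLin b b (↑P⁻¹ : M2 A))
    (by rw [← Matrix.toLin_mul, Units.mul_inv, Matrix.toLin_one])
    (by rw [← Matrix.toLin_mul, Units.inv_mul, Matrix.toLin_one])
  have he : b.toMatrix (b.map e) = (P : M2 A) := by
    refine Matrix.ext fun i j => ?_
    rw [Module.Basis.toMatrix_apply, Module.Basis.map_apply]
    show b.repr (Matrix.toLin b b (P : M2 A) (b j)) i = _
    rw [← LinearMap.toMatrix_apply, LinearMap.toMatrix_toLin]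
  have he' : (b.map e).toMatrix b = (↑P⁻¹ : M2 A) := by
    calc (b.map e).toMatrix b = (b.map e).toMatrix b * ((P : M2 A) * (↑P⁻¹ : M2 A)) := by
          rw [Units.mul_inv, mul_one]
      _ = (↑P⁻¹ : M2 A) := by
          rw [← mul_assoc, ← he, Module.Basis.toMatrix_mul_toMatrix_flip, one_mul]
  refine ⟨b.map e, MonoidHom.ext fun σ => ?_⟩
  rw [Deform.conjM_apply, ← he, ← he']
  exact (basis_toMatrix_mul_linearMap_toMatrix_mul_basis_toMatrix (b.map e) b (b.map e) b _).symm

namespace Fixed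

variable (F)

omit [CharZero O] [Fact p.Prime] [Fact (p ≠ 2)] [CharP (ResidueField O) p]
  [IsAdicComplete (maximalIdeal O) O] [Finite (ResidueField O)] in
/-- The representation over `O` spans the matrices. -/
theorem span_rhoE : Submodule.span O (Set.range F.rhoE) = ⊤ := by
  refine Deform.span_range_eq_top_of_map _ residue_surjective
    (fun a => (residue_eq_zero_iff a).mp) _ ?_
  rw [show (fun g => (F.rhoE g).map (residue O)) = matRes F.ρbar F.bb from
    funext fun g => DFunLike.congr_fun F.res g]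
  exact Deform.span_matrix_eq_top F.ρbar F.habs F.bb

omit [CharZero O] [Fact p.Prime] [Fact (p ≠ 2)] [CharP (ResidueField O) p]
  [IsAdicComplete (maximalIdeal O) O] [Finite (ResidueField O)] in
theorem exists_rig : ∃ W : Deform.Rigid O,
    W.rb = matRes F.ρbar F.bb ∧ Deform.IsNormal W F.rhoE := by
  have key : ∀ M : M2 O, ∃ c : AbsGal →₀ O, (c.sum fun σ o => o • F.rhoE σ) = M := fun M =>
    Finsupp.mem_span_range_iff_exists_finsupp.1 (F.span_rhoE ▸ Submodule.mem_top)
  obtain ⟨cX, hX⟩ := key (Matrix.single 0 0 1)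
  obtain ⟨cY, hY⟩ := key (Matrix.single 1 0 1)
  have red : ∀ (c : AbsGal →₀ O) (i j : Fin 2),
      (c.sum fun σ o => o • F.rhoE σ) = Matrix.single i j 1 →
      (c.sum fun σ o => o • matRes F.ρbar F.bb σ) = Matrix.single i j 1 := fun c i j h => by
    refine Matrix.ext fun a b => ?_
    have h' := congrArg (fun M : M2 O => residue O (M a b)) h
    simp only [Finsupp.sum, Matrix.sum_apply, map_sum, Matrix.smul_apply, smul_eq_mul, map_mul]
      at h' ⊢
    refine (Finset.sum_congr rfl fun σ _ => ?_).trans (h'.trans ?_)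
    · rw [← F.res, Algebra.smul_def, ResidueField.algebraMap_eq]
      rfl
    · simp only [Matrix.single_apply]
      split_ifs <;> simp
  refine ⟨⟨matRes F.ρbar F.bb, cX, cY, red cX 0 0 hX, red cY 1 0 hY⟩, rfl, ?_, ?_, ?_⟩
  all_goals simp only [Deform.evalC, hX, hY]
  all_goals simp

/-- Rigidifying data for which the representation over `O` is normalised. -/
def rig : Deform.Rigid O := F.exists_rig.choose

omit [CharZero O] [Fact p.Prime] [Fact (p ≠ 2)] [CharP (ResidueField O) p]
  [IsAdicComplete (maximalIdeal O) O] [Finite (ResidueField O)] in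
theorem rig_rb : F.rig.rb = matRes F.ρbar F.bb := F.exists_rig.choose_spec.1

omit [CharZero O] [Fact p.Prime] [Fact (p ≠ 2)] [CharP (ResidueField O) p]
  [IsAdicComplete (maximalIdeal O) O] [Finite (ResidueField O)] in
theorem isNormal_rhoE : Deform.IsNormal F.rig F.rhoE := F.exists_rig.choose_spec.2

end Fixed

namespace Aux

omit [IsAdicComplete (maximalIdeal O) O] [Finite (ResidueField O)] [CharZero O] [Fact (p ≠ 2)]
    [CharP (ResidueField O) p] in
theorem hS : ∀ q : ℕ, q.Prime → q ∣ X.top → q ∈ X.S := fun _ hq h => X.mem_S hq h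

instance : IsLocalHom (algebraMap O X.Alg) :=
  Glue.isLocalHom_algebraMap X.heckeTop natCast_mem_max isPGroup_diaGroup

instance : IsAdicComplete (maximalIdeal X.Alg) X.Alg :=
  Glue.isAdicComplete_algebra X.heckeTop

instance : IsNoetherianRing X.Alg := IsNoetherianRing.of_finite O X.Alg

theorem isResAlg : IsResAlg O X.Alg :=
  ⟨inferInstance, Glue.residue_algebraMap_surjective X.heckeTop natCast_mem_max isPGroup_diaGroup⟩

/-- The points of the algebra. -/
def point (θ : X.Alg →ₐ[O] KBar O) : Point (p := p) X.heckeTop X.hS θ.toRingHom :=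
  (Glue.exists_point natCast_mem_max X.heckeTop X.hS θ).some

theorem exists_glued : ∃ G : Glued (fun M => models p M) X.point,
    G.rep.residual.IsEquiv
      (F.ρbar.baseChangeAlong (ResidueField.map (algebraMap O X.Alg))) :=
  Glue.exists_glued natCast_mem_max isPGroup_diaGroup Fact.out X.p_mem_S F.habs X.frobS _ X.point

/-- The glued representation. -/
def glued : Glued (fun M => models p M) X.point := X.exists_glued.choose

theorem exists_rhoT : ∃ b : Module.Basis (Fin 2) X.Alg X.glued.rep.V, (∀ σ i j,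
    augment X.isResAlg (matOf X.glued.rep b σ i j) = matRes F.ρbar F.bb σ i j) ∧
      Deform.IsNormal F.rig (matOf X.glued.rep b) := by
  obtain ⟨b, hb⟩ := Deform.exists_lifts_basis F.rig_rb X.isResAlg X.glued.rep
    X.exists_glued.choose_spec
  obtain ⟨P, hl, hn⟩ := Deform.exists_normal hb
  obtain ⟨b', hb'⟩ := exists_matOf_eq_conjM X.glued.rep b P
  exact ⟨b', fun σ i j => by rw [hb', ← F.rig_rb]; exact hl σ i j, hb'.symm ▸ hn⟩

/-- **The representation over the algebra of the top level**, in a rigidified basis. -/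
def rhoT : AbsGal →* M2 X.Alg := matOf X.glued.rep X.exists_rhoT.choose

theorem augment_rhoT (σ : AbsGal) (i j : Fin 2) :
    augment X.isResAlg (X.rhoT σ i j) = residue O (F.rhoE σ i j) :=
  (X.exists_rhoT.choose_spec.1 σ i j).trans
    (congrFun (congrFun (DFunLike.congr_fun F.res σ) i) j).symm

theorem isNormal_rhoT : Deform.IsNormal F.rig X.rhoT := X.exists_rhoT.choose_spec.2

theorem isCont_rhoT : IsCont X.rhoT := Deform.isCont_matOf _ _

theorem trace_rhoT (σ : AbsGal) : (X.rhoT σ).trace = (X.glued.R σ).trace :=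
  (LinearMap.trace_eq_matrix_trace X.Alg X.exists_rhoT.choose _).symm.trans (X.glued.trace_rep σ)

theorem det_rhoT (σ : AbsGal) : (X.rhoT σ).det = (X.glued.R σ).det :=
  (LinearMap.det_toMatrix X.exists_rhoT.choose _).trans (X.glued.det_rep σ)

theorem det_congr_rhoT (k : ℕ) (σ : AbsGal) (a : ℕ)
    (ha : ∀ μ : AlgebraicClosure ℚ, μ ^ p ^ k = 1 → σ μ = μ ^ a) :
    (X.rhoT σ).det - a ∈ Ideal.span {(p : X.Alg) ^ k} := by
  rw [det_rhoT]
  exact X.glued.det_congr k σ a ha

theorem rhoT_eq_one {σ : AbsGal} (h : X.glued.rep.ρ σ = 1) : X.rhoT σ = 1 := by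
  show LinearMap.toMatrixAlgEquiv X.exists_rhoT.choose (X.glued.rep.ρ σ) = 1
  rw [h, map_one]

/-- Unramified outside the level. -/
theorem rhoT_unramified {ℓ : ℕ} (hℓ : ℓ.Prime) (hℓT : ¬ ℓ ∣ X.top) (hℓp : ℓ ≠ p)
    {A : ValuationSubring (AlgebraicClosure ℚ)} (hA : A.LiesOverPrime ℓ) {σ : AbsGal}
    (hσ : σ ∈ A.inertiaSubgroupIn ℚ) : X.rhoT σ = 1 :=
  X.rhoT_eq_one (X.glued.isUnramifiedAt hℓ hℓT hℓp A hA σ hσ)

/-- The residual representation spans. -/
theorem span_rhoT : Submodule.span X.Alg (Set.range X.rhoT) = ⊤ := by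
  refine Deform.span_range_eq_top_of_map _ residue_surjective
    (fun a => (residue_eq_zero_iff a).mp) _ ?_
  refine Eq.trans (congrArg (fun s => Submodule.span _ s) (Set.ext fun M => exists_congr fun σ => ?_))
    (Deform.span_map_eq_top (ResidueField.map (algebraMap O X.Alg))
      (Deform.span_matrix_eq_top F.ρbar F.habs F.bb))
  refine Eq.to_iff (congrArg (· = M) (Matrix.ext fun i j => ?_))
  show residue X.Alg (X.rhoT σ i j) =
    ResidueField.map (algebraMap O X.Alg) (matRes F.ρbar F.bb σ i j)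
  rw [← X.exists_rhoT.choose_spec.1 σ i j, Deform.map_augment]
  rfl

/-- Inertia is unipotent at the primes of the level where `ψ` is trivial. -/
theorem rhoT_unipotent {ℓ : ℕ} (hℓ : ℓ.Prime) (hℓT : ℓ ∣ F.base F.t) (hℓp : ℓ ≠ p)
    {A : ValuationSubring (AlgebraicClosure ℚ)} (hA : A.LiesOverPrime ℓ) {σ : AbsGal}
    (hσ : σ ∈ A.inertiaSubgroupIn ℚ) :
    (X.rhoT σ).charpoly = (Polynomial.X - Polynomial.C 1) ^ 2 := by
  have hℓtop : ℓ ∣ X.top := by
    rw [top, X.lvl_eq]; exact hℓT.mul_right _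
  have hψ : ∀ u : (ZMod X.top)ˣ, ((u : ZMod X.top).cast : ZMod (X.top / ℓ)) = 1 →
      X.psi F.t u = 1 := fun u hu => X.psi_eq_one fun i => by
    have hd : X.q i ∣ X.top / ℓ := by
      refine Nat.dvd_div_of_mul_dvd ?_
      refine Nat.Coprime.mul_dvd_of_dvd_of_dvd ?_ hℓtop (X.q_dvd_lvl i _)
      refine (Nat.coprime_primes hℓ (X.q_prime i)).2 fun h => X.q_not_dvd i ?_
      show X.q i ∣ F.bad
      rw [← h, ← F.base_top_mul]
      exact dvd_mul_of_dvd_left hℓT p
    rw [← GammaH.unitsMap_eq_one_iff (X.q_dvd_lvl i _),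
      ← ZMod.unitsMap_comp hd (Nat.div_dvd_of_dvd hℓtop), MonoidHom.comp_apply,
      (GammaH.unitsMap_eq_one_iff (Nat.div_dvd_of_dvd hℓtop) u).2 hu, map_one]
  have h := X.glued.isUnipotentOnInertiaAt hℓ hℓtop hℓp hψ
    (fun M _ _ h1 h2 => (models_spec M hℓ hℓp h1 h2).1) A hA σ hσ
  rw [map_one, ← h]
  exact LinearMap.charpoly_toMatrix _ _

omit [IsAdicComplete (maximalIdeal O) O] [Finite (ResidueField O)] [CharZero O]
    [Fact (Nat.Prime p)] [Fact (p ≠ 2)] [CharP (ResidueField O) p] in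
/-- A primitive inertia element at the `i`-th auxiliary prime. -/
theorem exists_sigma (i : Fin R) : ∃ (A : ValuationSubring (AlgebraicClosure ℚ)) (σ : AbsGal),
    A.LiesOverPrime (X.q i) ∧ σ ∈ A.inertiaSubgroupIn ℚ ∧
      ∀ μ : AlgebraicClosure ℚ, μ ^ X.q i = 1 → σ μ = μ ^ (X.gen i : ZMod (X.q i)).val := by
  have : Fact (X.q i).Prime := ⟨X.q_prime i⟩
  obtain ⟨A, hA⟩ := Arith.exists_liesOverPrime (X.q_prime i)
  obtain ⟨ζ, hζ⟩ := HasEnoughRootsOfUnity.exists_primitiveRoot (AlgebraicClosure ℚ) (X.q i)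
  have hcop : (X.gen i : ZMod (X.q i)).val.Coprime (X.q i) := ZMod.val_coe_unit_coprime _
  obtain ⟨σ, hσ, hσζ⟩ := Mazur.Eisenstein.exists_inertia_apply hA (X.q_prime i) (m := 0) (ζ := ζ)
    (η := ζ ^ (X.gen i : ZMod (X.q i)).val) (by simpa using hζ)
    (by simpa using hζ.pow_of_coprime _ hcop)
  refine ⟨A, σ, hA, hσ, fun μ hμ => ?_⟩
  obtain ⟨k, -, rfl⟩ := hζ.eq_pow_of_pow_eq_one hμ
  rw [map_pow, hσζ, pow_right_comm]

/-- The chosen inertia element. -/
def sigma (i : Fin R) : AbsGal := (X.exists_sigma i).choose_spec.choose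

omit [IsAdicComplete (maximalIdeal O) O] [Finite (ResidueField O)] [CharZero O]
    [Fact (Nat.Prime p)] [Fact (p ≠ 2)] [CharP (ResidueField O) p] in
theorem rhoE_sigma (i : Fin R) : F.rhoE (X.sigma i) = 1 :=
  F.unrE (X.q i) (X.q_prime i) (X.q_not_dvd i) _ (X.exists_sigma i).choose_spec.choose_spec.1 _
    (X.exists_sigma i).choose_spec.choose_spec.2.1

set_option maxHeartbeats 800000 in
/-- The trace of inertia at an auxiliary prime. -/
theorem trace_rhoT_sigma (i : Fin R) :
    (X.rhoT (X.sigma i)).trace =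
      diaA X.heckeTop (diaGen i) + diaA X.heckeTop (diaGen i : DiaGroup p R n)⁻¹ := by
  obtain ⟨hA, hσ, hσa⟩ := (X.exists_sigma i).choose_spec.choose_spec
  set A := (X.exists_sigma i).choose
  have hq : (X.q i).Prime := X.q_prime i
  have : Fact (X.q i).Prime := ⟨hq⟩
  have hqT : X.q i ∣ X.top := X.q_dvd_lvl i _
  have hqp : X.q i ≠ p := fun h => X.q_not_dvd i ((dvd_of_eq h).trans (dvd_mul_left p _))
  have hsq : ¬ X.q i ^ 2 ∣ X.top := fun h => hq.not_isUnit (X.lvl_sqf le_rfl _ (by rwa [← sq]))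
  have hbar : ∀ B : ValuationSubring (AlgebraicClosure ℚ), B.LiesOverPrime (X.q i) →
      ∀ τ ∈ B.inertiaSubgroupIn ℚ,
        LinearMap.trace (ResidueField O) F.ρbar.V (F.ρbar.ρ τ) = 2 := fun B hB τ hτ => by
    rw [LinearMap.trace_eq_matrix_trace (ResidueField O) F.bb]
    have h1 : matRes F.ρbar F.bb τ = 1 := by
      rw [← F.res]
      refine Matrix.ext fun a b => ?_
      rw [Deform.mapM_apply, F.unrE (X.q i) hq (X.q_not_dvd i) B hB τ hτ, Matrix.one_apply,
        Matrix.one_apply]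
      split_ifs <;> simp
    exact (congrArg Matrix.trace h1).trans (by simp)
  have : NeZero (X.q i ^ 2 * (X.top / X.q i) ^ 2) :=
    ⟨by rw [← mul_pow, Nat.mul_div_cancel' hqT]; exact pow_ne_zero 2 (NeZero.ne _)⟩
  have hE := X.glued.twistedInertia natCast_mem_max isPGroup_diaGroup Fact.out X.p_mem_S
    (X.lvl_sqf le_rfl) hqT hqp (fun R' M _ _ g => InertiaTW.traceInertia p (X.q i) R' M g)
    (GaloisReps.congruenceProperty _ p)
    (fun M _ _ h1 h2 => (models_spec M hq hqp h1 h2).1) X.exists_glued.choose_spec hbar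
  obtain ⟨u, hu, hua⟩ := Assembly.exists_unit_crt hqT (hq.coprime_iff_not_dvd.2 fun hd =>
    hsq (by rw [sq]; exact (Nat.dvd_div_iff_mul_dvd hqT).1 hd)) (X.gen i)
  have huv : ((u : ZMod X.top).cast : ZMod (X.q i)) = ((X.gen i : ZMod (X.q i)).val : ℕ) := by
    rw [ZMod.natCast_zmod_val, ← hua, ZMod.unitsMap_val]
  have hgen : X.psi F.t u ^ halfInvExp (DiaGroup p R n) = diaGen i := by
    refine X.psi0_spec.2.1 i _ ?_ ?_
    · have hd : X.lvl 0 / X.q i ∣ X.top / X.q i :=
        Nat.div_dvd_div (X.q_dvd_zero i) (X.zero_dvd_lvl _)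
      rw [← GammaH.unitsMap_eq_one_iff (Nat.div_dvd_of_dvd (X.q_dvd_zero i)),
        ← MonoidHom.comp_apply, ZMod.unitsMap_comp, ← ZMod.unitsMap_comp hd (Nat.div_dvd_of_dvd hqT),
        MonoidHom.comp_apply, (GammaH.unitsMap_eq_one_iff (Nat.div_dvd_of_dvd hqT) u).2 hu, map_one]
    · rw [← MonoidHom.comp_apply, ZMod.unitsMap_comp]
      exact hua
  have h := X.glued.charpoly_inertia hq hqp hE hA hσ hσa u hu huv
  rw [hgen] at h
  change LinearMap.charpoly (X.glued.rep.ρ (X.sigma i)) = _ at h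
  rw [X.glued.charpoly_rep, Matrix.charpoly_fin_two] at h
  have e := congrArg (fun f => Polynomial.coeff f 1) h
  simp [mul_sub, sub_mul, Polynomial.coeff_X, Polynomial.coeff_C, Polynomial.coeff_X_pow] at e
  rw [trace_rhoT]
  linear_combination -e

end Aux

end Fermat.Agent.RT.Lift59.Levels

end
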