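import Fermat.Agent.RT.Lift59.Levels.Deg
import Fermat.Agent.RT.Lift59.Levels.Rank
import Fermat.Agent.RT.Lift59.Levels.Forms

/-!
# Separation of new and old systems

The systems of `Γ₀` at a level are newforms of the level without auxiliary primes, so a polynomial
in the traces of Frobenius at fixed primes, with coefficients independent of the depth, kills the
cokernel of the degeneracy map modulo the ideal of the variables and is a nonzero constant on the
old level.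
-/

set_option autoImplicit false

noncomputable section

namespace Fermat.Agent.RT.Lift59.Levels

open IsLocalRing CongruenceSubgroup ModularFormClass
open GaloisReps (AbsGal)
open ModularCurve.Period
open Fermat.Agent.RT.GammaH Fermat.Agent.RT.Level
open Fermat.Agent.RT.Glue (KBar sA diaA)

variable {O : Type} [CommRing O] [IsDomain O] [IsDiscreteValuationRing O]
  [IsAdicComplete (maximalIdeal O) O] [Finite (ResidueField O)] [CharZero O]
  {p : ℕ} [Fact p.Prime] [Fact (p ≠ 2)] [CharP (ResidueField O) p]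

omit [IsAdicComplete (maximalIdeal O) O] [Finite (ResidueField O)] [CharZero O]
    [IsDiscreteValuationRing O] in
theorem isAlgebraic_complex [Algebra O ℂ] (E : KBar O ≃ₐ[O] ℂ) : Algebra.IsAlgebraic O ℂ :=
  haveI : Algebra.IsAlgebraic O (KBar O) :=
    (IsFractionRing.comap_isAlgebraic_iff (A := O) (K := FractionRing O)).2 inferInstance
  E.isAlgebraic

/-- The algebraic integers among the complex numbers integral over `O`. -/
def intClosureIncl (O : Type) [CommRing O] [Algebra O ℂ] :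
    integralClosure ℤ ℂ →+* integralClosure O ℂ where
  toFun z := ⟨z.1, z.2.tower_top⟩
  map_one' := rfl
  map_mul' _ _ := rfl
  map_zero' := rfl
  map_add' _ _ := rfl

omit [IsAdicComplete (maximalIdeal O) O] [Finite (ResidueField O)] [CharZero O] [IsDomain O]
    [IsDiscreteValuationRing O] in
theorem extOp_refl {L : ℕ} {S : Finset ℕ} (a : OpRing O L S) : extOp O L (le_refl S) a = a := by
  have : extOp O L (le_refl S) = AlgHom.id O _ :=
    MvPolynomial.algHom_ext fun i => by rcases i with u | ℓ <;> simp [extOp]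
  rw [this]
  rfl

/-- The good primes of the fixed data. -/
abbrev Fixed.Good (F : Fixed O p) : Type := {ℓ : ℕ // ℓ.Prime ∧ ¬ ℓ ∣ F.bad}

omit [IsAdicComplete (maximalIdeal O) O] [Finite (ResidueField O)] [CharZero O] [Fact p.Prime]
  [Fact (p ≠ 2)] [CharP (ResidueField O) p] in
theorem exists_frob (F : Fixed O p) (ℓ : F.Good) :
    ∃ (A : ValuationSubring (AlgebraicClosure ℚ)) (σ : AbsGal),
      A.LiesOverPrime ℓ.1 ∧ A.IsFrobeniusAt σ ℓ.1 := by
  obtain ⟨A, hA⟩ := Arith.exists_liesOverPrime ℓ.2.1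
  obtain ⟨σ, hσ⟩ := Arith.exists_isFrobeniusAt hA ℓ.2.1
  exact ⟨A, σ, hA, hσ⟩

/-- A Frobenius element. -/
def Fixed.frobEl (F : Fixed O p) (ℓ : F.Good) : AbsGal := (exists_frob F ℓ).choose_spec.choose

variable {F : Fixed O p} {R n : ℕ} (X : Aux F R n)

namespace Aux

instance instTowerRing {j : ℕ} {hj : j ≤ F.t} : IsScalarTower O X.Ring (X.LMod hj) :=
  ⟨fun c a x => by rw [ring_smul, ring_smul, map_smul, smul_assoc]⟩

/-- A polynomial in the traces of Frobenius. -/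
def trPoly (Q : MvPolynomial F.Good O) : X.Ring :=
  MvPolynomial.aeval (fun ℓ => (X.rep (F.frobEl ℓ)).trace) Q

theorem eval_trPoly (Q : MvPolynomial F.Good O) : X.eval (X.trPoly Q) =
    MvPolynomial.aeval (fun ℓ => (F.rhoE (F.frobEl ℓ)).trace) Q := by
  rw [trPoly, ← AlgHom.comp_apply, MvPolynomial.comp_aeval]
  exact congrArg (fun f => MvPolynomial.aeval f Q) (funext fun ℓ => X.eval_trace _)

variable {X} {j : ℕ} {hj : j ≤ F.t} [Algebra O ℂ] {S' : Finset ℕ} {h : S' ⊆ X.S}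

theorem Sys.red_qCoeff {K : Subgroup (ZMod (X.lvl j))ˣ} (hK : X.LevK hj K) (s : X.Sys hj h K)
    {M : ℕ} {g : CuspForm (Gamma0 M) 2}
    (hval : ∀ (ℓ : ℕ) (hℓ : ℓ.Prime) (hℓS : ℓ ∉ X.S),
      s.toTop hK (sA X.heckeTop X.hS hℓ hℓS) = qCoeff g ℓ)
    {red : integralClosure O ℂ →+* AlgebraicClosure (ResidueField O)}
    (hred : ∀ c : O, red (algebraMap O (integralClosure O ℂ) c) =
      algebraMap (ResidueField O) _ (residue O c))
    {ℓ : ℕ} (hℓ : ℓ.Prime) (hℓS : ℓ ∉ X.S) (z : integralClosure ℤ ℂ)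
    (hz : (z : ℂ) = qCoeff g ℓ) :
    red (intClosureIncl O z) = algebraMap (ResidueField O) _ (F.abar ℓ) := by
  set u : (ZMod X.top)ˣ := ZMod.unitOfCoprime ℓ (Glue.coprime_of_notMem X.hS hℓ hℓS)
  set a : OpRing O X.top X.S := MvPolynomial.X (Sum.inl u) ^ halfInvExp (DiaGroup p R n) *
    MvPolynomial.X (Sum.inr ⟨ℓ, hℓ, hℓS⟩) with ha
  have hzθ : ((intClosureIncl O z : integralClosure O ℂ) : ℂ) = ((s.toTop hK).comp X.toAlg) a := by
    show (z : ℂ) = _
    rw [hz, ← hval ℓ hℓ hℓS, ha, AlgHom.comp_apply, map_mul, map_pow, X.toAlg_inl,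
      X.toAlg_inr hℓ hℓS]
    rfl
  rw [red_character (X.isLocalizer le_rfl) ((s.toTop hK).comp X.toAlg)
    (fun b hb => by rw [AlgHom.comp_apply, show X.toAlg b = 0 from Subtype.ext hb, map_zero])
    hred a hzθ, ha, map_mul, map_pow, opRes_inl, opRes_inr, one_pow, one_mul]

theorem Sys.isCongruentForm (hinj : Function.Injective (algebraMap O ℂ))
    {K : Subgroup (ZMod (X.lvl j))ˣ} (hK : X.LevK hj K) (s : X.Sys hj h K) {M : ℕ}
    {g : CuspForm (Gamma0 M) 2} (hg : g.IsNormalizedEigenform)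
    (hval : ∀ (ℓ : ℕ) (hℓ : ℓ.Prime) (hℓS : ℓ ∉ X.S),
      s.toTop hK (sA X.heckeTop X.hS hℓ hℓS) = qCoeff g ℓ) :
    IsCongruentForm X.S F.abar g := by
  obtain ⟨red, hred⟩ := exists_red (O := O) hinj
  exact ⟨hg, red.comp (intClosureIncl O),
    fun ℓ hℓ hℓS z hz => s.red_qCoeff hK hval hred hℓ hℓS z hz⟩

/-- **A system of `Γ₀` is a newform of the level without auxiliary primes.** -/
theorem Sys.exists_base (hinj : Function.Injective (algebraMap O ℂ)) (E : KBar O ≃ₐ[O] ℂ)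
    (hS' : ∀ w : ℕ, w.Prime → w ∣ X.lvl j → w ∈ S') (s : X.Sys hj h ⊤) :
    ∃ (M : ℕ) (g : CuspForm (Gamma0 M) 2), g.IsNewform ∧ M ∣ F.base j ∧
      (∀ Q : MvPolynomial F.Good O, s.toTop (X.levK_top hj) (X.pr (X.trPoly Q)) =
        MvPolynomial.aeval (fun ℓ : F.Good => qCoeff g ℓ.1) Q) ∧
      ∀ (w : ℕ) (hw : w.Prime) (hwS : w ∉ S') (_ : ¬ w ∣ X.lvl j),
        qCoeff g w = s.θ (MvPolynomial.X (Sum.inr ⟨w, hw, hwS⟩)) := by
  obtain ⟨M, g, hg, hM, htop, hval, hsq⟩ := s.exists_newform (X.levK_top hj) hS'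
  have hM0 : M ≠ 0 := fun h0 => pow_ne_zero 2 (X.lvl_ne_zero hj)
    (Nat.eq_zero_of_zero_dvd (h0 ▸ hM))
  have : NeZero M := ⟨hM0⟩
  have hχ : ∀ u, s.chi u = 1 := fun u => Units.ext (s.theta_inl_mem (Subgroup.mem_top u))
  have hsqf : Squarefree M := Nat.squarefree_iff_prime_squarefree.2 fun v hv hd => by
    obtain ⟨u, -, hu⟩ := (hsq v hv (hv.dvd_of_dvd_pow ((dvd_mul_right v v).trans (hd.trans hM)))).1
      (by rwa [sq])
    exact hu (hχ u)
  have hMlvl : M ∣ X.lvl j := (hsqf.dvd_pow_iff_dvd two_ne_zero).1 hM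
  have hcong := s.isCongruentForm hinj (X.levK_top hj) hg.1 htop
  have hMbase : M ∣ F.base j := by
    refine Nat.Coprime.dvd_of_dvd_mul_right ?_ (X.lvl_eq j ▸ hMlvl)
    refine Nat.coprime_of_dvd fun q hq hqM hqQ => ?_
    refine X.notNewAt hj hq (hqM.trans hMlvl) (fun hd => ?_) M g hMlvl hqM hg hcong
    exact hq.not_dvd_one ((X.coprime_base j hj) ▸ Nat.dvd_gcd hd hqQ)
  refine ⟨M, g, hg, hMbase, fun Q => ?_, fun w hw hwS hwl => ?_⟩
  · obtain ⟨-, hF⟩ := trace_of_newform X.glued natCast_mem_max X.p_mem_S hg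
      (hM.trans (pow_dvd_pow_of_dvd (X.lvl_dvd hj) 2)) E (s.toTop (X.levK_top hj)) htop
    rw [trPoly, ← AlgHom.comp_apply, ← AlgHom.comp_apply, MvPolynomial.comp_aeval]
    refine congrArg (fun f => MvPolynomial.aeval f Q) (funext fun ℓ => ?_)
    obtain ⟨hA, hFr⟩ := (exists_frob F ℓ).choose_spec.choose_spec
    have hℓM : ¬ ℓ.1 ∣ M * p := fun hd => ℓ.2.2 <| hd.trans
      ((Nat.mul_dvd_mul_right (hMbase.trans (F.base_dvd_base hj)) p).trans
        (dvd_of_eq F.base_top_mul))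
    rw [AlgHom.comp_apply, pr_trace, trace_rhoT]
    exact hF ℓ.1 ℓ.2.1 hℓM _ hA _ hFr
  · rw [hval w hw hwS (ZMod.unitOfCoprime w (hw.coprime_iff_not_dvd.2 hwl))
      (ZMod.coe_unitOfCoprime _ _), s.theta_inl_mem (Subgroup.mem_top _), one_pow, one_mul]

variable (X)

omit [Algebra O ℂ] in
/-- Operators away from a smaller set acting on the classes. -/
def actS (L : ℕ) (S' : Finset ℕ) :
    OpRing O L S' →ₐ[O] Module.End O (HomMod O X.S (⊤ : Subgroup (ZMod L)ˣ) O) :=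
  ((reSet O X.S S' (⊤ : Subgroup (ZMod L)ˣ) O).symm.conjAlgEquiv O).toAlgHom.comp
    (Algebra.lsmul O O _)

omit [Algebra O ℂ] [IsAdicComplete (maximalIdeal O) O] [Finite (ResidueField O)] [CharZero O]
    [Fact (Nat.Prime p)] [Fact (p ≠ 2)] [CharP (ResidueField O) p] in
theorem actS_apply (L : ℕ) (S' : Finset ℕ) (a : OpRing O L S')
    (φ : HomMod O X.S (⊤ : Subgroup (ZMod L)ˣ) O) :
    X.actS L S' a φ = (reSet O X.S S' _ O).symm (a • reSet O X.S S' _ O φ) := rfl

variable {i : ℕ} (hi : i < F.t)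

omit [Algebra O ℂ] [Finite (ResidueField O)] [CharZero O] [CharP (ResidueField O) p] in
theorem actS_mem (hS : X.S.erase (F.v i) ⊆ X.S)
    (a : OpRing O (X.lvl i) (X.S.erase (F.v i)))
    {φ : HomMod O X.S (⊤ : Subgroup (ZMod (X.lvl i))ˣ) O} (hφ : φ ∈ X.baseL hi.le) :
    X.actS (X.lvl i) (X.S.erase (F.v i)) a φ ∈ X.baseL hi.le := by
  rw [mem_localPart] at hφ ⊢
  refine (reSet O X.S (X.S.erase (F.v i)) _ O).injective ?_
  rw [← extOp_smul hS, actS_apply, LinearEquiv.apply_symm_apply, smul_comm, extOp_smul hS, hφ]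

omit [Algebra O ℂ] [IsAdicComplete (maximalIdeal O) O] [Finite (ResidueField O)] [CharZero O]
    [Fact (Nat.Prime p)] [Fact (p ≠ 2)] [CharP (ResidueField O) p] in
theorem degSB_degB_apply [Fact (F.v i).Prime]
    (φ : HomMod O X.S (⊤ : Subgroup (ZMod (X.lvl i))ˣ) O ×
      HomMod O X.S (⊤ : Subgroup (ZMod (X.lvl i))ˣ) O) :
    X.degSB hi (X.degB hi φ) =
      (((F.v i : O) + 1) • φ.1 + X.actS (X.lvl i) (X.S.erase (F.v i))
          (MvPolynomial.X (Sum.inr ⟨F.v i, F.v_prime i, Finset.notMem_erase _ _⟩)) φ.2,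
        X.actS (X.lvl i) (X.S.erase (F.v i))
          (MvPolynomial.X (Sum.inr ⟨F.v i, F.v_prime i, Finset.notMem_erase _ _⟩)) φ.1 +
          ((F.v i : O) + 1) • φ.2) := by
  have h1 := Lift.degStar_degMap (A := O) (X.raise hi) O
    (K := (⊤ : Subgroup (ZMod (X.lvl i))ˣ)) (e := kExp (p := p) (R := R) (n := n))
    (Subgroup.mem_top _) (toHomMod.symm φ.1, toHomMod.symm φ.2)
  have hT : ∀ z : HomMod O X.S (⊤ : Subgroup (ZMod (X.lvl i))ˣ) O,
      X.actS (X.lvl i) (X.S.erase (F.v i))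
        (MvPolynomial.X (Sum.inr ⟨F.v i, F.v_prime i, Finset.notMem_erase _ _⟩)) z =
      toHomMod (Lift.symT (X.raise hi) O ⊤ (kExp (p := p) (R := R) (n := n)) (toHomMod.symm z)) :=
    fun z => by
      rw [actS_apply, X_inr_smul, Lift.symT, Module.End.mul_apply]
      exact congrArg toHomMod (diamond_top O _ _).symm
  have hc : ∀ z : HomMod O X.S (⊤ : Subgroup (ZMod (X.lvl i))ˣ) O,
      ((F.v i : O) + 1) • z = (F.v i + 1) • z := fun z => by
    rw [← Nat.cast_add_one, Nat.cast_smul_eq_nsmul]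
  rw [hT, hT, hc, hc]
  exact h1

omit [Algebra O ℂ] [Finite (ResidueField O)] [CharZero O] [CharP (ResidueField O) p] in
theorem degSB_mem {y : HomMod O X.S (⊤ : Subgroup (ZMod (X.lvl (i + 1)))ˣ) O}
    (hy : y ∈ X.baseL (show i + 1 ≤ F.t from hi)) :
    (X.degSB hi y).1 ∈ X.baseL hi.le ∧ (X.degSB hi y).2 ∈ X.baseL hi.le := by
  have := Lift.degStarH_mem_localPart (O := O) (S := X.S)
    (K := (⊤ : Subgroup (ZMod (X.lvl i))ˣ)) (X.raise hi) (X.v_mem_S hi)
    (kExp (p := p) (R := R) (n := n)) hy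
  rw [X.lowerOp_locAt hi] at this
  exact this

omit [Algebra O ℂ] [Finite (ResidueField O)] [CharZero O] [CharP (ResidueField O) p] in
theorem degB_mem (z : X.baseL hi.le × X.baseL hi.le) :
    X.degB hi (z.1.1, z.2.1) ∈ X.baseL (show i + 1 ≤ F.t from hi) := by
  refine Lift.degH_mem_localPart (O := O) (S := X.S)
    (K := (⊤ : Subgroup (ZMod (X.lvl i))ˣ)) (X.raise hi) (X.v_mem_S hi)
    (kExp (p := p) (R := R) (n := n)) ?_ ?_
  · rw [X.lowerOp_locAt hi]; exact z.1.2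
  · rw [X.lowerOp_locAt hi]; exact z.2.2

/-- Up to a constant the reduction of a class is the reduction of an old one. -/
theorem exists_old_preimage [Fact (F.v i).Prime] (hinj : Function.Injective (algebraMap O ℂ))
    (g : Polynomial O)
    (hg : ∀ s : X.Sys hi.le (Finset.erase_subset (F.v i) X.S) ⊤, Polynomial.aeval
      (((F.v i : ℂ) + 1) ^ 2 - s.θ (MvPolynomial.X (Sum.inr
        ⟨F.v i, F.v_prime i, Finset.notMem_erase _ _⟩)) ^ 2) g = 0)
    {y : HomMod O X.S (⊤ : Subgroup (ZMod (X.lvl (i + 1)))ˣ) O}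
    (hy : y ∈ X.baseL (show i + 1 ≤ F.t from hi)) :
    ∃ z : X.baseL hi.le × X.baseL hi.le,
      X.degSB hi (X.degB hi (z.1.1, z.2.1)) = g.coeff 0 • X.degSB hi y := by
  set v := F.v i
  set act := X.actS (X.lvl i) (X.S.erase v)
  set T : OpRing O (X.lvl i) (X.S.erase v) :=
    MvPolynomial.X (Sum.inr ⟨v, F.v_prime i, Finset.notMem_erase v _⟩) with hT
  set c : O := (v : O) + 1 with hc
  set D : OpRing O (X.lvl i) (X.S.erase v) := algebraMap O _ (c ^ 2) - T ^ 2 with hD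
  have hS : X.S.erase v ⊆ X.S := Finset.erase_subset v _
  have hSi : ∀ w : ℕ, w.Prime → w ∣ X.lvl i → w ∈ X.S.erase v := fun w hw hd =>
    Finset.mem_erase.2 ⟨fun he => X.not_dvd_lvl hi le_rfl (show v ∣ X.lvl i from he ▸ hd),
      X.mem_S_of_dvd_lvl hw hi.le hd⟩
  have hkey : ∀ w ∈ X.baseL hi.le,
      c ^ 2 • -(act (Polynomial.aeval D g.divX) w) -
        act T (act T (-(act (Polynomial.aeval D g.divX) w))) = g.coeff 0 • w := fun w hw => by
    have h0 : act (Polynomial.aeval D g) w = 0 := by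
      refine (congrArg (reSet O X.S (X.S.erase v) _ O).symm ?_).trans (map_zero _)
      refine X.smul_eq_zero_of_sys hi.le hinj (X.levK_top hi.le) hS hSi (fun s => ?_) hw
      rw [← Polynomial.aeval_algHom_apply, hD, hT, map_sub, AlgHom.commutes, map_pow, map_pow, hc,
        map_add, map_natCast, map_one]
      exact hg s
    have e : Polynomial.aeval D g =
        D * Polynomial.aeval D g.divX + algebraMap O _ (g.coeff 0) := by
      conv_lhs => rw [← Polynomial.X_mul_divX_add g]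
      rw [map_add, map_mul, Polynomial.aeval_X, Polynomial.aeval_C]
    rw [e, map_add, map_mul, AlgHom.commutes, hD, map_sub, AlgHom.commutes, LinearMap.add_apply,
      Module.End.mul_apply, LinearMap.sub_apply, Module.algebraMap_end_apply,
      Module.algebraMap_end_apply, ← hD] at h0
    simp only [pow_two, map_mul, Module.End.mul_apply, mul_smul, map_neg, smul_neg] at h0 ⊢
    linear_combination (norm := module) (-1 : ℤ) • h0
  set w1 := -(act (Polynomial.aeval D g.divX) (X.degSB hi y).1) with hw1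
  set w2 := -(act (Polynomial.aeval D g.divX) (X.degSB hi y).2) with hw2
  obtain ⟨m1, m2⟩ := X.degSB_mem hi hy
  have h1 : w1 ∈ X.baseL hi.le := neg_mem (X.actS_mem hi hS _ m1)
  have h2 : w2 ∈ X.baseL hi.le := neg_mem (X.actS_mem hi hS _ m2)
  refine ⟨(⟨c • w1 - act T w2, sub_mem (Submodule.smul_mem _ _ h1) (X.actS_mem hi hS T h2)⟩,
    ⟨-(act T w1) + c • w2, add_mem (neg_mem (X.actS_mem hi hS T h1)) (Submodule.smul_mem _ _ h2)⟩),
    ?_⟩
  rw [X.degSB_degB_apply hi]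
  refine Prod.ext ?_ ?_
  · show c • (c • w1 - act T w2) + act T (-(act T w1) + c • w2) = g.coeff 0 • (X.degSB hi y).1
    rw [← hkey _ m1, ← hw1]
    simp only [map_add, map_neg, map_smul, smul_sub, pow_two, mul_smul]
    abel
  · show act T (c • w1 - act T w2) + c • (-(act T w1) + c • w2) = g.coeff 0 • (X.degSB hi y).2
    rw [← hkey _ m2, ← hw2]
    simp only [map_sub, map_smul, smul_add, smul_neg, pow_two, mul_smul]
    abel

/-- A class with trivial transpose is killed by an element vanishing at the new systems. -/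
theorem smul_eq_zero_of_degSB (hinj : Function.Injective (algebraMap O ℂ))
    (b : OpRing O X.top X.S) {c : O} (hc : c ≠ 0)
    (hsys : ∀ s : X.Sys (show i + 1 ≤ F.t from hi) (le_refl X.S) ⊤,
      s.toTop (X.levK_top _) (X.toAlg b) = 0 ∨
      (s.toTop (X.levK_top _) (X.toAlg b) = algebraMap O ℂ c ∧
        ∃ (M : ℕ) (g : CuspForm (Gamma0 M) 2), M ∣ F.base i ∧ g.IsNormalizedEigenform ∧
          ∀ (w : ℕ) (hw : w.Prime) (hwS : w ∉ X.S), ¬ w ∣ X.lvl (i + 1) →
            qCoeff g w = s.θ (MvPolynomial.X (Sum.inr ⟨w, hw, hwS⟩))))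
    {y : HomMod O X.S (⊤ : Subgroup (ZMod (X.lvl (i + 1)))ˣ) O}
    (hy : y ∈ X.baseL (show i + 1 ≤ F.t from hi)) (hy0 : X.degSB hi y = 0) :
    opTo O X.S (X.lvl_dvd (show i + 1 ≤ F.t from hi)) b • y = 0 := by
  have : NeZero (X.lvl i * F.v i) := inferInstanceAs (NeZero (X.lvl (i + 1)))
  set bb := opTo O X.S (X.lvl_dvd (show i + 1 ≤ F.t from hi)) b
  set r : OpRing O (X.lvl (i + 1)) X.S := bb - algebraMap O _ c with hr
  have hb' : ∀ s : X.Sys (show i + 1 ≤ F.t from hi) (le_refl X.S) ⊤,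
      s.θ bb = s.toTop (X.levK_top _) (X.toAlg b) := fun s => by
    rw [s.toTop_toAlg, extOp_refl]
  have hkill : r • bb • y = 0 := by
    rw [smul_smul]
    refine (reSet O X.S X.S _ O).injective ((extOp_smul (le_refl X.S) _ _).symm.trans
      (Eq.trans ?_ (map_zero _).symm))
    rw [extOp_refl]
    exact X.smul_eq_zero_of_sys (show i + 1 ≤ F.t from hi) hinj (X.levK_top _) (le_refl X.S)
      (fun w hw hd => X.mem_S_of_dvd_lvl (j := i + 1) hw hi hd) (fun s => by
        rcases hsys s with h0 | ⟨h0, -⟩ <;>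
          simp only [map_mul, hr, map_sub, AlgHom.commutes, hb', h0, sub_self, zero_mul, mul_zero])
      hy
  have hmem : bb • y ∈ X.baseL (show i + 1 ≤ F.t from hi) := smul_mem_localPart bb hy
  have hdeg : X.degSB hi (bb • y) = 0 :=
    (Lift.degStarH_smul (O := O) (S := X.S) (K := (⊤ : Subgroup (ZMod (X.lvl i))ˣ)) (X.raise hi)
      (X.v_mem_S hi) (kExp (p := p) (R := R) (n := n)) bb y).trans
      ((congrArg (_ • ·) (show X.degSB hi y = 0 from hy0)).trans (smul_zero _))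
  refine Lift.eq_zero_of_degStarH (O := O) (S := X.S) (abar := F.abar) (X.raise hi) hinj
    (X.lvl_sqf (j := i + 1) hi) (fun w hw hd => X.mem_S_of_dvd_lvl (j := i + 1) hw hi hd)
    X.eisS (e := X.locAt (show i + 1 ≤ F.t from hi))
    (X.isLocalizer_top (j := i + 1) hi) r
    (fun θ φ hne hpar heig hloc hθr E' _ hE' => ?_)
    (kExp (p := p) (R := R) (n := n)) hmem hdeg hkill
  let s : X.Sys (show i + 1 ≤ F.t from hi) (le_refl X.S) ⊤ :=
    ⟨θ, φ, hne, hpar, heig, fun b' hb' => hloc b' (by rw [extOp_refl] at hb'; exact hb')⟩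
  have hθr' : s.θ r = 0 := hθr
  rw [hr, map_sub, AlgHom.commutes, sub_eq_zero] at hθr'
  rcases hsys s with h0 | ⟨-, M, g, hM, hg, hw⟩
  · rw [← hb', hθr'] at h0
    exact absurd (hinj (h0.trans (map_zero _).symm)) hc
  · refine ⟨M, g, hM.trans (X.lvl_eq i ▸ dvd_mul_right _ _), hg, fun ℓ hℓ hℓS => ?_⟩
    exact (hw ℓ hℓ hℓS fun hd => hℓS (X.mem_S_of_dvd_lvl (j := i + 1) hℓ hi hd)).trans
      (hE' ℓ hℓ hℓS).symm

end Aux

/-- **Separation of the new and old systems at a step**, uniformly in the auxiliary primes. -/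
theorem exists_sep (F : Fixed O p) {i : ℕ} (hi : i < F.t) :
    ∃ c : O, c ≠ 0 ∧ ∀ (R n : ℕ) (X : Aux F R n), ∃ a : X.Ring,
      (∀ x : X.LMod (show i + 1 ≤ F.t from hi), ∃ u, a • x - X.deg hi u ∈
        Ideal.span (Set.range fun k : Fin R => (MvPowerSeries.X k : DiaSeries R O)) •
          (⊤ : Submodule (DiaSeries R O) (X.LMod (show i + 1 ≤ F.t from hi)))) ∧
      ∀ x : X.LMod hi.le, (algebraMap O X.Ring c - a) • x ∈
        Ideal.span (Set.range fun k : Fin R => (MvPowerSeries.X k : DiaSeries R O)) •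
          (⊤ : Submodule (DiaSeries R O) (X.LMod hi.le)) := by
  classical
  obtain ⟨f, hf, ⟨E⟩⟩ := exists_complex O p
  let := f.toAlgebra
  have := isAlgebraic_complex E
  set v := F.v i with hvdef
  have hv : v.Prime := F.v_prime i
  have : Fact v.Prime := ⟨hv⟩
  have : NeZero (F.base i) := ⟨(F.base_sqf hi.le).ne_zero⟩
  have : NeZero (F.base (i + 1)) := ⟨(F.base_sqf hi).ne_zero⟩
  have hvb : ¬ v ∣ F.base i := F.not_dvd_base hi le_rfl
  -- the systems
  set restr : (ℕ → ℂ) → F.Good → ℂ := fun a ℓ => a ℓ.1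
  set Old := (finite_eigenSys (F.base i)).toFinset
  set New := (finite_eigenSys (F.base (i + 1))).toFinset.filter fun a => a v ^ 2 = 1
  have hOld : ∀ b ∈ Old, b ∈ eigenSys (F.base i) := fun b hb => (Set.Finite.mem_toFinset _).1 hb
  obtain ⟨c₀, Q, hc₀, hQnew, hQold⟩ := exists_separating (O := O) hf (New.image restr)
    (Old.image restr)
    (fun a ha ℓ => by
      obtain ⟨a', ha', rfl⟩ := Finset.mem_image.1 ha
      exact (isIntegral_eigenSys ((Set.Finite.mem_toFinset _).1 (Finset.mem_filter.1 ha').1)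
        ℓ.1).tower_top)
    (fun a ha ℓ => by
      obtain ⟨a', ha', rfl⟩ := Finset.mem_image.1 ha
      exact (isIntegral_eigenSys (hOld a' ha') ℓ.1).tower_top)
    (fun a ha b hb σ => by
      obtain ⟨a', ha', rfl⟩ := Finset.mem_image.1 ha
      obtain ⟨b', hb', rfl⟩ := Finset.mem_image.1 hb
      obtain ⟨ha'', hav⟩ := Finset.mem_filter.1 ha'
      obtain ⟨ℓ, hℓ, hℓT, hne⟩ := exists_ne_of_new hv hvb
        ((Set.Finite.mem_toFinset _).1 ha'' : a' ∈ eigenSys (F.base i * v)) hav (hOld b' hb')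
        σ.toRingHom F.bad.primeFactors
      exact ⟨⟨ℓ, hℓ, fun hd => hℓT (Nat.mem_primeFactors.2 ⟨hℓ, hd, F.bad_ne_zero⟩)⟩, hne⟩)
  -- `(v + 1) ^ 2 - T ^ 2` at the old systems
  obtain ⟨g, hd, hg⟩ := exists_poly_vanishing (O := O) Old
    (fun b => ((v : ℂ) + 1) ^ 2 - b v ^ 2) fun b hb => by
      obtain ⟨gf, hgf, rfl⟩ := hOld b hb
      refine ⟨sub_ne_zero.2 fun he => Lift.qCoeff_sq_ne hv hvb hgf ?_, ?_⟩
      · rw [← primeCoeff_prime gf hv]; exact he.symm
      · exact ((((isIntegral_natCast (R := ℤ) v).add isIntegral_one).pow 2).sub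
          ((isIntegral_eigenSys ⟨gf, hgf, rfl⟩ v).pow 2)).tower_top
  refine ⟨g.coeff 0 * c₀, mul_ne_zero hd hc₀, fun R n X => ?_⟩
  set a0 : X.Ring := X.trPoly Q
  obtain ⟨b, hb⟩ := X.toAlg_surjective (X.pr a0)
  -- the values at the systems
  have hnew : ∀ {S' : Finset ℕ} {h : S' ⊆ X.S}
      (_ : ∀ w : ℕ, w.Prime → w ∣ X.lvl (i + 1) → w ∈ S')
      (s : X.Sys (show i + 1 ≤ F.t from hi) h ⊤),
      ∃ (M : ℕ) (g : CuspForm (Gamma0 M) 2), g.IsNewform ∧
        (∀ (w : ℕ) (hw : w.Prime) (hwS : w ∉ S') (_ : ¬ w ∣ X.lvl (i + 1)),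
          qCoeff g w = s.θ (MvPolynomial.X (Sum.inr ⟨w, hw, hwS⟩))) ∧
        (s.toTop (X.levK_top hi) (X.pr a0) = 0 ∨
          M ∣ F.base i ∧ s.toTop (X.levK_top hi) (X.pr a0) = algebraMap O ℂ c₀) := by
    intro S' h hS' s
    obtain ⟨M, g, hg, hM, hQ, hw⟩ := s.exists_base hf E hS'
    have : NeZero M := ⟨fun h0 => NeZero.ne (F.base (i + 1)) (Nat.eq_zero_of_zero_dvd (h0 ▸ hM))⟩
    refine ⟨M, g, hg, hw, ?_⟩
    rw [show s.toTop (X.levK_top hi) (X.pr a0) = _ from hQ Q]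
    by_cases hvM : v ∣ M
    · left
      have hsq : ¬ v ^ 2 ∣ M := fun hd => hv.not_isUnit ((F.base_sqf (j := i + 1) hi) v
        (by rw [← sq]; exact hd.trans hM))
      obtain ⟨f', hf', hf'c⟩ := Newforms.exists_eigenform_of_dvd hM hg.1
      have hsame : ∀ ℓ : ℕ, ℓ.Prime → ℓ = v ∨ ¬ ℓ ∣ F.base (i + 1) →
          qCoeff f' ℓ = qCoeff g ℓ := fun ℓ hℓ hc => hf'c ℓ hℓ <| hc.symm.imp id id |>.elim
            Or.inr fun he => Or.inl fun hd => by
              subst he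
              obtain ⟨k, hk⟩ := hM
              rw [hk, Nat.mul_div_cancel_left _ (NeZero.pos M)] at hd
              exact hv.not_isUnit ((F.base_sqf (j := i + 1) hi) v
                (hk ▸ Nat.mul_dvd_mul hvM hd))
      refine Eq.trans ?_ (hQnew (restr (primeCoeff f')) (Finset.mem_image_of_mem _ ?_))
      · refine congrArg (fun f => MvPolynomial.aeval f Q) (funext fun ℓ => ?_)
        show qCoeff g ℓ.1 = primeCoeff f' ℓ.1
        rw [primeCoeff_prime f' ℓ.2.1, hsame ℓ.1 ℓ.2.1 (Or.inr fun hd => ℓ.2.2 <|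
          ((hd.trans (F.base_dvd_base hi)).mul_right p).trans (dvd_of_eq F.base_top_mul))]
      · refine Finset.mem_filter.2 ⟨(Set.Finite.mem_toFinset _).2 ⟨f', hf', rfl⟩, ?_⟩
        show primeCoeff f' v ^ 2 = 1
        rw [primeCoeff_prime f' hv, hsame v hv (Or.inl rfl)]
        exact Newforms.qCoeff_sq_eq_one hg hv hvM hsq
    · right
      have hMi : M ∣ F.base i :=
        (hv.coprime_iff_not_dvd.2 hvM).symm.dvd_of_dvd_mul_right hM
      refine ⟨hMi, ?_⟩
      obtain ⟨f', hf', hf'c⟩ := Newforms.exists_eigenform_of_dvd hMi hg.1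
      refine Eq.trans ?_ (hQold (restr (primeCoeff f'))
        (Finset.mem_image_of_mem _ ((Set.Finite.mem_toFinset _).2 ⟨f', hf', rfl⟩)))
      refine congrArg (fun f => MvPolynomial.aeval f Q) (funext fun ℓ => ?_)
      show qCoeff g ℓ.1 = primeCoeff f' ℓ.1
      rw [primeCoeff_prime f' ℓ.2.1, hf'c ℓ.1 ℓ.2.1 (Or.inr fun hd => ℓ.2.2 <| 
        ((hd.trans (F.base_dvd_base hi.le)).mul_right p).trans (dvd_of_eq F.base_top_mul))]
  -- old systems
  have hold : ∀ {S' : Finset ℕ} {h : S' ⊆ X.S}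
      (_ : ∀ w : ℕ, w.Prime → w ∣ X.lvl i → w ∈ S') (s : X.Sys hi.le h ⊤),
      s.toTop (X.levK_top hi.le) (X.pr a0) = algebraMap O ℂ c₀ ∧
      ∀ hvS : v ∉ S', Polynomial.aeval
        (((v : ℂ) + 1) ^ 2 - s.θ (MvPolynomial.X (Sum.inr ⟨v, hv, hvS⟩)) ^ 2) g = 0 := by
    intro S' h hS' s
    obtain ⟨M, gn, hgn, hM, hQ, hw⟩ := s.exists_base hf E hS'
    obtain ⟨f', hf', hf'c⟩ := Newforms.exists_eigenform_of_dvd hM hgn.1
    have hmem : primeCoeff f' ∈ Old := (Set.Finite.mem_toFinset _).2 ⟨f', hf', rfl⟩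
    refine ⟨?_, fun hvS => ?_⟩
    · rw [show s.toTop (X.levK_top hi.le) (X.pr a0) = _ from hQ Q]
      refine Eq.trans ?_ (hQold (restr (primeCoeff f')) (Finset.mem_image_of_mem _ hmem))
      refine congrArg (fun f => MvPolynomial.aeval f Q) (funext fun ℓ => ?_)
      show qCoeff gn ℓ.1 = primeCoeff f' ℓ.1
      rw [primeCoeff_prime f' ℓ.2.1, hf'c ℓ.1 ℓ.2.1 (Or.inr fun hd => ℓ.2.2 <| 
        ((hd.trans (F.base_dvd_base hi.le)).mul_right p).trans (dvd_of_eq F.base_top_mul))]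
    · rw [← hw v hv hvS (X.not_dvd_lvl hi le_rfl), ← hf'c v hv (Or.inr hvb),
        ← primeCoeff_prime f' hv]
      exact hg _ hmem
  have hsys_new : ∀ s : X.Sys (show i + 1 ≤ F.t from hi) (le_refl X.S) ⊤,
      s.toTop (X.levK_top _) (X.toAlg b) = 0 ∨
      (s.toTop (X.levK_top _) (X.toAlg b) = algebraMap O ℂ c₀ ∧
        ∃ (M : ℕ) (g : CuspForm (Gamma0 M) 2), M ∣ F.base i ∧ g.IsNormalizedEigenform ∧
          ∀ (w : ℕ) (hw : w.Prime) (hwS : w ∉ X.S), ¬ w ∣ X.lvl (i + 1) →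
            qCoeff g w = s.θ (MvPolynomial.X (Sum.inr ⟨w, hw, hwS⟩))) := fun s => by
    rw [hb]
    obtain ⟨M, gn, hgn, hw, h0 | ⟨hM, h0⟩⟩ :=
      hnew (fun w hw hd => X.mem_S_of_dvd_lvl (j := i + 1) hw hi hd) s
    · exact Or.inl h0
    · exact Or.inr ⟨h0, M, gn, hM, hgn.1, hw⟩
  have hkill_old : ∀ y ∈ X.baseL hi.le,
      opTo O X.S (X.lvl_dvd hi.le) b • y = c₀ • y := fun y hy => by
    have h := X.smul_eq_zero_of_sys hi.le hf (X.levK_top hi.le) (le_refl X.S)
      (fun w hw hd => X.mem_S_of_dvd_lvl hw hi.le hd)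
      (a := extOp O (X.lvl i) (le_refl X.S)
        (opTo O X.S (X.lvl_dvd hi.le) b - algebraMap O _ c₀)) (fun s => by
        rw [map_sub, AlgHom.commutes, map_sub, AlgHom.commutes,
          ← s.toTop_toAlg (X.levK_top hi.le), hb, sub_eq_zero]
        exact (hold (fun w hw hd => X.mem_S_of_dvd_lvl hw hi.le hd) s).1) hy
    rw [extOp_smul] at h
    have h' := (reSet O X.S X.S _ O).injective (h.trans (map_zero _).symm)
    rw [sub_smul, algebraMap_smul, sub_eq_zero] at h'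
    exact h'
  refine ⟨algebraMap O X.Ring (g.coeff 0) * a0, fun x => ?_, fun x => ?_⟩
  · set xc := X.cores (show i + 1 ≤ F.t from hi) x
    have : Fact (F.v i).Prime := ⟨F.v_prime i⟩
    obtain ⟨z, hz⟩ := X.exists_old_preimage hi hf g (fun s => (hold
      (fun w hw hd => Finset.mem_erase.2
        ⟨fun he => X.not_dvd_lvl hi le_rfl (by rw [← he]; exact hd),
          X.mem_S_of_dvd_lvl hw hi.le hd⟩) s).2 (Finset.notMem_erase _ _)) xc.2
    have hby : opTo O X.S (X.lvl_dvd (show i + 1 ≤ F.t from hi)) b •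
        (g.coeff 0 • xc.1 - X.degB hi (z.1.1, z.2.1)) = 0 :=
      X.smul_eq_zero_of_degSB hi hf b hc₀ hsys_new
        (sub_mem (Submodule.smul_mem _ _ xc.2) (X.degB_mem hi z))
        (by rw [map_sub, map_smul, hz, sub_self])
    obtain ⟨u₁, hu₁⟩ := X.cores_surjective hi.le z.1
    obtain ⟨u₂, hu₂⟩ := X.cores_surjective hi.le z.2
    refine ⟨a0 • (u₁, u₂), ?_⟩
    rw [X.mem_augment_iff, map_smul, mul_comm, mul_smul, algebraMap_smul, ← smul_sub]
    refine Subtype.ext ?_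
    rw [Aux.ring_smul, ← hb, Aux.cores_toAlg, Submodule.coe_zero]
    refine Eq.trans (congrArg (_ • ·) ?_) hby
    rw [map_sub, map_smul, AddSubgroupClass.coe_sub, Aux.cores_deg, hu₁, hu₂]
    rfl
  · rw [X.mem_augment_iff, map_mul, ← mul_sub, mul_smul, algebraMap_smul, map_smul, sub_smul,
      algebraMap_smul, map_sub, map_smul]
    refine Subtype.ext ?_
    rw [Aux.ring_smul, ← hb]
    show g.coeff 0 • (c₀ • (X.cores hi.le x).1 - (X.cores hi.le (X.toAlg b • x)).1) = 0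
    rw [Aux.cores_toAlg, hkill_old _ (X.cores hi.le x).2, sub_self, smul_zero]

end Fermat.Agent.RT.Lift59.Levels

end
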