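import Fermat.Agent.RT.Lift59.Levels.Act
import Fermat.Agent.RT.Lift59.Levels.Eigen

/-!
# The systems of the levels

A system of a level, possibly with more Hecke operators, gives a point of the algebra of the top
level and a newform whose coefficients are the values of that point. An operator vanishing at all
systems of a level kills it.
-/

set_option autoImplicit false

noncomputable section

namespace Fermat.Agent.RT.Lift59.Levels

open IsLocalRing MvPolynomial CongruenceSubgroup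
open ModularCurve.Period
open Fermat.Agent.RT.GammaH Fermat.Agent.RT.Level
open Fermat.Agent.RT.Glue (sA diaA)

variable {O : Type} [CommRing O] [IsDomain O] [IsDiscreteValuationRing O]
  [IsAdicComplete (maximalIdeal O) O] [Finite (ResidueField O)] [CharZero O]
  {p : ℕ} [Fact p.Prime] [Fact (p ≠ 2)] [CharP (ResidueField O) p]
  {F : Fixed O p} {R n : ℕ} (X : Aux F R n)

namespace Aux

variable {j : ℕ} (hj : j ≤ F.t)

/-- A subgroup of a level on which the algebra of the top level acts. -/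
structure LevK (K : Subgroup (ZMod (X.lvl j))ˣ) : Prop where
  neg : -1 ∈ K
  odd : Odd (Nat.card ((ZMod (X.lvl j))ˣ ⧸ K))
  loc : IsLocalizer (resIdeal X.S F.abar (X.lvl j)) (HomMod O X.S K O) (X.locAt hj)
  kill : ∀ {a : OpRing O X.top X.S}, X.toAlg a = 0 →
    ∀ x ∈ localPart O (X.locAt hj) (HomMod O X.S K O), opTo O X.S (X.lvl_dvd hj) a • x = 0
  exp : ∀ u : (ZMod (X.lvl j))ˣ, u ^ ((Nat.card ((ZMod (X.lvl j))ˣ ⧸ K) - 1) / 2) *
    (u ^ halfInvExp (DiaGroup p R n))⁻¹ ∈ K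

theorem levK : X.LevK hj (X.K j) where
  neg := X.neg_one_mem
  odd := (X.odd_card_quotient hj).2
  loc := X.isLocalizer hj
  kill ha _ hx := X.smul_eq_zero_of_toAlg ha hj hx
  exp u := by
    rw [(X.odd_card_quotient hj).1, halfInvExp, mul_inv_cancel]
    exact one_mem _

theorem levK_top : X.LevK hj ⊤ where
  neg := Subgroup.mem_top _
  odd := by
    have h := QuotientGroup.subsingleton_quotient_top (G := (ZMod (X.lvl j))ˣ)
    rw [Nat.card_of_subsingleton (1 : (ZMod (X.lvl j))ˣ ⧸ (⊤ : Subgroup (ZMod (X.lvl j))ˣ))]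
    exact odd_one
  loc := X.isLocalizer_top hj
  kill {a} ha x hx := by
    obtain ⟨y, hy⟩ := X.cores_surjective hj ⟨x, hx⟩
    have h := X.cores_toAlg hj a y
    rw [ha, zero_smul, map_zero, hy] at h
    exact h.symm
  exp _ := Subgroup.mem_top _

variable [Algebra O ℂ] {S' : Finset ℕ} (h : S' ⊆ X.S)

/-- A system of a level. -/
structure Sys (K : Subgroup (ZMod (X.lvl j))ˣ) : Type where
  θ : OpRing O (X.lvl j) S' →ₐ[O] ℂ
  φ : HomC K
  ne : φ ≠ 0
  par : φ ∈ parabolicHoms ℂ (gammaH (X.lvl j) K) ℂ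
  eig : ∀ b, opC O S' K b φ = θ b • φ
  loc' : ∀ b, localAct O (extOp O (X.lvl j) h (X.locAt hj)) (HomMod O S' K O) b = 0 → θ b = 0

variable {X hj h} {K : Subgroup (ZMod (X.lvl j))ˣ}

theorem Sys.theta_eq_zero (hK : X.LevK hj K) (s : X.Sys hj h K) {a : OpRing O X.top X.S}
    (ha : X.toAlg a = 0) : s.θ (extOp O (X.lvl j) h (opTo O X.S (X.lvl_dvd hj) a)) = 0 := by
  refine s.loc' _ (LinearMap.ext fun x => Subtype.ext ?_)
  obtain ⟨y, hy, hyx⟩ := exists_reSet_eq h x.2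
  show extOp O (X.lvl j) h (opTo O X.S (X.lvl_dvd hj) a) • (x : HomMod O S' K O) = 0
  rw [← hyx, extOp_smul, hK.kill ha y hy, map_zero]

/-- The point of the algebra of the top level below a system. -/
def Sys.toTop (hK : X.LevK hj K) (s : X.Sys hj h K) : X.Alg →ₐ[O] ℂ :=
  let ρ : OpRing O X.top X.S →ₐ[O] ℂ :=
    (s.θ.comp (extOp O (X.lvl j) h)).comp (opTo O X.S (X.lvl_dvd hj))
  let f : X.Alg →+* ℂ :=
    RingHom.liftOfSurjective (X.toAlg : OpRing O X.top X.S →+* X.Alg) X.toAlg_surjective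
      ⟨(ρ : OpRing O X.top X.S →+* ℂ), fun _ ha => s.theta_eq_zero hK ha⟩
  { f with
    commutes' := fun c => by
      show f (algebraMap O X.Alg c) = algebraMap O ℂ c
      rw [← X.toAlg.commutes c, ← ρ.commutes c]
      exact RingHom.liftOfRightInverse_comp_apply _ _ _ _ _ }

theorem Sys.toTop_toAlg (hK : X.LevK hj K) (s : X.Sys hj h K) (a : OpRing O X.top X.S) :
    s.toTop hK (X.toAlg a) = s.θ (extOp O (X.lvl j) h (opTo O X.S (X.lvl_dvd hj) a)) :=
  RingHom.liftOfRightInverse_comp_apply _ _ _ _ a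

omit [Finite (ResidueField O)] [CharZero O] [CharP (ResidueField O) p] in
theorem Sys.theta_inl_mem (s : X.Sys hj h K) {u : (ZMod (X.lvl j))ˣ} (hu : u ∈ K) :
    s.θ (MvPolynomial.X (Sum.inl u)) = 1 :=
  smul_left_injective ℂ s.ne <| (s.eig _).symm.trans <| by
    rw [opC_inl]
    exact (diamond_of_mem ℂ hu s.φ).trans (one_smul ℂ s.φ).symm

omit [Finite (ResidueField O)] [CharZero O] [CharP (ResidueField O) p] in
theorem Sys.theta_inl_mul (s : X.Sys hj h K) (u w : (ZMod (X.lvl j))ˣ) :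
    s.θ (MvPolynomial.X (Sum.inl (u * w))) =
      s.θ (MvPolynomial.X (Sum.inl u)) * s.θ (MvPolynomial.X (Sum.inl w)) :=
  smul_left_injective ℂ s.ne <| (s.eig _).symm.trans <| by
    rw [opC_inl]
    have e := diamond_mul ℂ u w s.φ
    rw [← opC_inl (O := O) (S := S') u, ← opC_inl (O := O) (S := S') w, s.eig, map_smul,
      s.eig, smul_smul] at e
    show _ = (s.θ _ * s.θ _) • s.φ
    rw [mul_comm (s.θ _)]
    exact e

/-- The character of a system. -/
def Sys.chi (s : X.Sys hj h K) : (ZMod (X.lvl j))ˣ →* ℂˣ :=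
  MonoidHom.toHomUnits
    { toFun := fun u => s.θ (MvPolynomial.X (Sum.inl u))
      map_one' := s.theta_inl_mem (one_mem K)
      map_mul' := s.theta_inl_mul }

omit [Finite (ResidueField O)] [CharZero O] [CharP (ResidueField O) p] in
theorem Sys.coe_chi (s : X.Sys hj h K) (u : (ZMod (X.lvl j))ˣ) :
    (s.chi u : ℂ) = s.θ (MvPolynomial.X (Sum.inl u)) := rfl

/-- **The newform of a system.** -/
theorem Sys.exists_newform (hK : X.LevK hj K) (s : X.Sys hj h K)
    (hS' : ∀ w : ℕ, w.Prime → w ∣ X.lvl j → w ∈ S') :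
    ∃ (M : ℕ) (g : CuspForm (Gamma0 M) 2), g.IsNewform ∧ M ∣ X.lvl j ^ 2 ∧
      (∀ (ℓ : ℕ) (hℓ : ℓ.Prime) (hℓS : ℓ ∉ X.S),
        s.toTop hK (sA X.heckeTop X.hS hℓ hℓS) = ModularFormClass.qCoeff g ℓ) ∧
      (∀ (w : ℕ) (hw : w.Prime) (hwS : w ∉ S') (u : (ZMod (X.lvl j))ˣ),
        (u : ZMod (X.lvl j)) = w → ModularFormClass.qCoeff g w =
          s.θ (MvPolynomial.X (Sum.inl u)) ^ halfInvExp (DiaGroup p R n) *
            s.θ (MvPolynomial.X (Sum.inr ⟨w, hw, hwS⟩))) ∧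
      ∀ v : ℕ, v.Prime → v ∣ X.lvl j → (v ^ 2 ∣ M ↔ ∃ u : (ZMod (X.lvl j))ˣ,
        ((u : ZMod (X.lvl j)).cast : ZMod (X.lvl j / v)) = 1 ∧ s.chi u ≠ 1) := by
  classical
  let a : ℕ → ℂ := fun m =>
    if hm : m.Prime ∧ m ∉ S' then s.θ (MvPolynomial.X (Sum.inr ⟨m, hm⟩)) else 0
  have hχK : ∀ u ∈ K, s.chi u = 1 := fun u hu => Units.ext (s.theta_inl_mem hu)
  obtain ⟨M, g, hg, hM, hcoef, hsq, -, -⟩ := exists_newform_of_eigen (X.lvl_sqf hj) hK.neg hK.odd
    S' hS' s.chi hχK a s.par s.ne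
    (fun u => by rw [s.coe_chi, ← s.eig, opC_inl])
    (fun m hm hmS => by
      simp only [a]
      rw [dif_pos ⟨hm.out, hmS⟩, ← s.eig, opC_inr])
  have key : ∀ (w : ℕ) (hw : w.Prime) (hwS : w ∉ S') (u : (ZMod (X.lvl j))ˣ),
      (u : ZMod (X.lvl j)) = w → ModularFormClass.qCoeff g w =
        s.θ (MvPolynomial.X (Sum.inl u)) ^ halfInvExp (DiaGroup p R n) *
          s.θ (MvPolynomial.X (Sum.inr ⟨w, hw, hwS⟩)) := fun w hw hwS u hu => by
    rw [hcoef w hw hwS u hu]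
    simp only [a]
    rw [dif_pos ⟨hw, hwS⟩, ← s.coe_chi]
    congr 1
    have := hχK _ (hK.exp u)
    rw [map_mul, map_inv, map_pow, map_pow, mul_inv_eq_one] at this
    exact_mod_cast congrArg Units.val this
  refine ⟨M, g, hg, hM, fun ℓ hℓ hℓS => ?_, key, hsq⟩
  rw [key ℓ hℓ (fun hc => hℓS (h hc))
    (ZMod.unitsMap (X.lvl_dvd hj)
      (ZMod.unitOfCoprime ℓ (Glue.coprime_of_notMem X.hS hℓ hℓS)))
    (by rw [ZMod.unitsMap_val, ZMod.coe_unitOfCoprime, ZMod.cast_natCast (X.lvl_dvd hj)]),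
    sA, map_mul, map_pow, ← X.toAlg_inl, ← X.toAlg_inr hℓ hℓS, s.toTop_toAlg, s.toTop_toAlg]
  simp only [opTo, extOp, rename_X, Sum.map_inl, Sum.map_inr, id]

variable (X hj)

theorem exists_parabolicOp' (hK : X.LevK hj K) :
    ∃ P : OpRing O (X.lvl j) X.S,
      (∀ x ∈ localPart O (X.locAt hj) (HomMod O X.S K O), P • x = 0 → x = 0) ∧
      ∀ φ : HomMod O X.S K ℂ, IsParabolicHom (gammaH (X.lvl j) K) (toHomMod.symm (P • φ)) := by
  obtain ⟨ℓ, hℓ, hℓS, hEis⟩ := X.eisS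
  obtain ⟨P, hP, hpar⟩ := exists_parabolicOp (K := K) X.S F.abar (X.lvl_sqf hj) hK.neg hℓ hℓS
    (fun hd => hℓS (X.mem_S_of_dvd_lvl hℓ hj hd)) hEis
  exact ⟨P, fun x hx h0 => hK.loc.eq_zero_of_smul_eq_zero hP (mem_localPart.1 hx) h0,
    fun φ => hpar ℂ φ⟩

/-- **An operator vanishing at all systems of a level kills it.** -/
theorem smul_eq_zero_of_sys (hinj : Function.Injective (algebraMap O ℂ)) (hK : X.LevK hj K)
    (h : S' ⊆ X.S) (hS' : ∀ w : ℕ, w.Prime → w ∣ X.lvl j → w ∈ S')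
    {a : OpRing O (X.lvl j) S'} (ha : ∀ s : X.Sys hj h K, s.θ a = 0)
    {x : HomMod O X.S K O} (hx : x ∈ localPart O (X.locAt hj) (HomMod O X.S K O)) :
    a • reSet O X.S S' K O x = 0 := by
  obtain ⟨P, hP, hpar⟩ := X.exists_parabolicOp' hj hK
  refine smul_eq_zero_of_eigen hinj hK.neg (X.lvl_sqf hj) hK.odd hS'
    (e := extOp O (X.lvl j) h (X.locAt hj)) (P := extOp O (X.lvl j) h P) (fun z hz h0 => ?_)
    (fun φ => ?_) (fun θ φ h1 h2 h3 h4 => ha ⟨θ, φ, h1, h2, h3, h4⟩) (reSet_mem h hx)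
  · obtain ⟨y, hy, rfl⟩ := exists_reSet_eq h hz
    rw [extOp_smul] at h0
    rw [hP y hy ((reSet O X.S S' K O).injective (h0.trans (map_zero _).symm)), map_zero]
  · obtain ⟨φ', rfl⟩ := (reSet O X.S S' K ℂ).surjective φ
    rw [extOp_smul]
    exact hpar φ'

/-- An element of the algebra vanishing at all systems of a level kills it. -/
theorem alg_smul_eq_zero_of_sys (hinj : Function.Injective (algebraMap O ℂ)) (a : X.Alg)
    (ha : ∀ s : X.Sys hj (le_refl X.S) (X.K j), s.toTop (X.levK hj) a = 0) (x : X.LMod hj) :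
    a • x = 0 := by
  obtain ⟨b, rfl⟩ := X.toAlg_surjective a
  have key := X.smul_eq_zero_of_sys hj hinj (X.levK hj) (le_refl X.S)
    (fun w hw hd => X.mem_S_of_dvd_lvl hw hj hd)
    (a := extOp O (X.lvl j) (le_refl X.S) (opTo O X.S (X.lvl_dvd hj) b))
    (fun s => (s.toTop_toAlg (X.levK hj) b).symm.trans (ha s)) (x : X.modL hj).2
  rw [extOp_smul] at key
  refine Subtype.ext ?_
  rw [X.coe_toAlg_smul]
  exact (reSet O X.S X.S (X.K j) O).injective (key.trans (map_zero _).symm)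

end Aux

end Fermat.Agent.RT.Lift59.Levels

end
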